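import Fermat.Agent.EigenTwist.TwistNew
import Fermat.Agent.LevelLowering.FreeGamma

/-!
# Descending characters of `Γ(D)` to `Γ₀(L)`

A character of `Γ(D)` invariant under `Γ₀(L)` comes from `Γ₀(L)`; twisting away the nebentypus at
several primes produces eigencharacters of trivial nebentypus, at one prime `q` killed by both
transfers from level `L q²` to level `L q`. Characters of `Γ_Ψ(N)` restrict to characters of `Γ(N)`
with nebentypus, compatibly with the Hecke operators.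
-/

noncomputable section

namespace Fermat.Agent.EigenTwist

open scoped MatrixGroups
open CongruenceSubgroup Fermat.Agent.Grp Fermat.Agent.Ihara

variable {D L : ℕ} [NeZero D] [NeZero L] {R : Type*} [Field R] [CharZero R]
  {x : Additive (Gamma D) →+ R}

omit [NeZero L] in
/-- A character of `Γ(D)` invariant under `Γ₀(L)` comes from `Γ₀(L)`. -/
theorem exists_descend (hL : L ∣ D) (hx : IsNeb L (fun _ => 1) x) (hcl : IsClHom (Gamma D) x) :
    ∃ y : Additive (Gamma0 L) →+ R, IsClHom (Gamma0 L) y ∧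
      resHom (gamma_le_Gamma0 hL) y = x := by
  have hle := gamma_le_Gamma0 hL
  have := ((Gamma D).subgroupOf (Gamma0 L)).fintypeQuotientOfFiniteIndex
  set n : ℕ := Fintype.card (Gamma0 L ⧸ (Gamma D).subgroupOf (Gamma0 L))
  have hn : (n : R) ≠ 0 := Nat.cast_ne_zero.mpr Fintype.card_ne_zero
  refine ⟨(n : R)⁻¹ • coresHom hle x, fun γ hγ => ?_, Hecke.addChar_ext fun γ => ?_⟩
  · rw [AddMonoidHom.smul_apply, isClHom_coresHom hle hcl γ hγ, smul_zero]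
  show (n : R)⁻¹ • coresHom hle x (Additive.ofMul (Subgroup.inclusion hle γ)) = _
  have hσ : ∀ i : Gamma0 L ⧸ (Gamma D).subgroupOf (Gamma0 L),
      (i.out⁻¹ * (Subgroup.inclusion hle γ * i.out) : Gamma0 L).1 ∈ Gamma D := fun i => by
    simpa [mul_assoc] using (Gamma_normal D).conj_mem _ γ.2 (i.out : Gamma0 L).1⁻¹
  rw [coresHom_apply_reps hle x (fun i : Gamma0 L ⧸ (Gamma D).subgroupOf (Gamma0 L) => i.out)
    (by simp only [QuotientGroup.out_eq']; exact Function.bijective_id) _ id hσ]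
  have hterm : ∀ i : Gamma0 L ⧸ (Gamma D).subgroupOf (Gamma0 L),
      x (Additive.ofMul ⟨_, hσ i⟩) = x (Additive.ofMul γ) := fun i => by
    rw [hx _ (inv_mem (i.out : Gamma0 L).2) γ ⟨_, hσ i⟩ (by simp [mul_assoc]), one_mul]
  simp only [id_eq, hterm, Finset.sum_const, Finset.card_univ, nsmul_eq_mul, smul_eq_mul]
  rw [← mul_assoc, inv_mul_cancel₀ hn, one_mul]

omit [CharZero R] in
/-- `perTransfer` on `Γ₀(L)` restricts to `opD`. -/
theorem resHom_perTransfer (hL : L ∣ D) {ℓ : ℕ} [NeZero ℓ] (hℓ : ℓ.Prime)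
    (hℓD : Nat.Coprime ℓ D) (φ : Additive (Gamma0 L) →+ R) :
    resHom (gamma_le_Gamma0 hL) (Hecke.perTransfer L ℓ R φ) =
      opD hℓD (resHom (gamma_le_Gamma0 hL) φ) := by
  rw [← Ihara.corB_degA, corB]
  refine (opD_resHom hℓ hℓD (upperGrp_le L ℓ) _ (fun γ hγ => ?_) φ _ fun γ δ h => ?_).symm
  · rw [mem_upperGrp]
    exact ⟨fun ⟨_, h⟩ => h, fun h => ⟨hγ, h⟩⟩
  · refine congrArg φ (congrArg Additive.ofMul (Subtype.ext ?_))
    exact Rel.unique det_diagUp (γ := γ.1) (alphaUp_spec γ).symm h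

variable (ψ : ∀ q : ℕ, MulChar (ZMod q) R)

/-- Twisting away nebentypus at a finite set of primes, keeping a property preserved by twists. -/
theorem exists_twist_set_inv (Inv : ∀ D : ℕ, (Additive (Gamma D) →+ R) → Prop) :
    ∀ (s : Finset ℕ), (∀ q ∈ s, ∀ [Fact q.Prime] (D L : ℕ) (χ : ℤ → R)
      (x : Additive (Gamma D) →+ R), IsNeb L χ x → χ 1 = 1 → Inv D x →
        Inv (D * q ^ 2) (twist (ψ q) x (dvd_refl _))) →
    ∀ (D L0 : ℕ) [NeZero D] (χ0 : ℤ → R)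
    (x : Additive (Gamma D) →+ R), (∀ q ∈ s, q.Prime) → (∀ q ∈ s, ¬ q ∣ L0) →
    L0 * ∏ q ∈ s, q ∣ D →
    (∀ d d' : ℤ, (L0 : ℤ) ∣ d - d' → χ0 d = χ0 d') → χ0 1 = 1 →
    (∀ q ∈ s, ψ q ^ 2 ≠ 1) → (∀ q ∈ s, ψ q (-1) = 1) →
    IsNeb (L0 * ∏ q ∈ s, q) (fun d => χ0 d * ∏ q ∈ s, ψ q (d : ZMod q) ^ 2) x →
    IsClHom (Gamma D) x → x ≠ 0 → Inv D x →
    ∃ (D' : ℕ) (_ : NeZero D') (x' : Additive (Gamma D') →+ R),
      L0 * (∏ q ∈ s, q) ^ 2 ∣ D' ∧ IsNeb (L0 * (∏ q ∈ s, q) ^ 2) χ0 x' ∧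
      IsClHom (Gamma D') x' ∧ x' ≠ 0 ∧ Inv D' x' ∧
      ∀ (ℓ : ℕ) [NeZero ℓ] (hℓD : Nat.Coprime ℓ D), ℓ.Prime → ℓ ∉ s →
        ∃ hℓD' : Nat.Coprime ℓ D', ∀ α β : R, opD hℓD x = α • x →
          β * ∏ q ∈ s, ψ q (ℓ : ZMod q) = α → opD hℓD' x' = β • x' := by
  intro s
  induction s using Finset.induction_on with
  | empty =>
    intro _ D L0 _ χ0 x _ _ hL _ _ _ _ hx hcl hx0 hInv
    refine ⟨D, inferInstance, x, by simpa using hL, by simpa using hx, hcl, hx0, hInv,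
      fun ℓ _ hℓD _ _ => ⟨hℓD, fun α β hα hβ => ?_⟩⟩
    rw [hα, ← hβ, Finset.prod_empty, mul_one]
  | insert q t hqt ih =>
    intro hstep D L0 _ χ0 x hp hL0 hL hper hχ0 hψ2 heven hx hcl hx0 hInv
    have hq : q.Prime := hp q (Finset.mem_insert_self q t)
    have : Fact q.Prime := ⟨hq⟩
    have : NeZero q := ⟨hq.ne_zero⟩
    rw [Finset.prod_insert hqt] at hL hx
    set P := ∏ r ∈ t, r
    let χ1 : ℤ → R := fun d => χ0 d * ∏ r ∈ t, ψ r (d : ZMod r) ^ 2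
    have hx' : IsNeb (L0 * P * q) (fun d => χ1 d * ψ q (d : ZMod q) ^ 2) x := by
      rw [show L0 * P * q = L0 * (q * P) by ring]
      convert hx using 2 with d
      simp only [χ1, Finset.prod_insert hqt]
      ring
    have hper1 : ∀ d d' : ℤ, ((L0 * P : ℕ) : ℤ) ∣ d - d' → χ1 d = χ1 d' := by
      intro d d' h
      push_cast at h
      simp only [χ1]
      rw [hper d d' ((dvd_mul_right _ _).trans h)]
      congr 1
      refine Finset.prod_congr rfl fun r hr => ?_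
      congr 2
      rw [← sub_eq_zero, ← Int.cast_sub, ZMod.intCast_zmod_eq_zero_iff_dvd]
      refine Dvd.dvd.trans ?_ ((dvd_mul_left (P : ℤ) (L0 : ℤ)).trans h)
      exact Int.natCast_dvd_natCast.mpr (Finset.dvd_prod_of_mem _ hr)
    have hχ1 : χ1 1 = 1 := by simp [χ1, hχ0]
    have hqP : ¬ q ∣ L0 * P := fun h => by
      rcases hq.dvd_mul.mp h with h1 | h1
      · exact hL0 q (Finset.mem_insert_self q t) h1
      · obtain ⟨r, hr, hqr⟩ := (hq.prime.dvd_finsetProd_iff _).mp h1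
        exact hqt ((Nat.prime_dvd_prime_iff_eq hq (hp r (Finset.mem_insert_of_mem hr))).mp hqr ▸ hr)
    set D1 := D * q ^ 2 with hD1
    have : NeZero D1 := ⟨mul_ne_zero (NeZero.ne D) (pow_ne_zero 2 hq.ne_zero)⟩
    have hneb := isNeb_twist (ψ q) hx' hper1 (D' := D1) (dvd_refl _)
    have hne := twist_ne_zero (ψ q) hx' hqP hper1 hχ1 (hψ2 q (Finset.mem_insert_self q t))
      (heven q (Finset.mem_insert_self q t)) hx0 (D' := D1) (dvd_refl _)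
    have hneb' : IsNeb (L0 * q ^ 2 * P) (fun d => χ0 d * ∏ r ∈ t, ψ r (d : ZMod r) ^ 2)
        (twist (ψ q) x (dvd_refl D1)) := by
      rw [show L0 * q ^ 2 * P = L0 * P * q ^ 2 by ring]; exact hneb
    obtain ⟨D', hD', x', hdvd, hx'neb, hx'cl, hx'0, hx'Inv, hx'op⟩ :=
      ih (fun r hr => hstep r (Finset.mem_insert_of_mem hr)) D1 (L0 * q ^ 2) χ0
        (twist (ψ q) x (dvd_refl D1))
        (fun r hr => hp r (Finset.mem_insert_of_mem hr))
        (fun r hr h => by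
          have hrp := hp r (Finset.mem_insert_of_mem hr)
          rcases hrp.dvd_mul.mp h with h1 | h1
          · exact hL0 r (Finset.mem_insert_of_mem hr) h1
          · exact hqt (((Nat.prime_dvd_prime_iff_eq hrp hq).mp (hrp.dvd_of_dvd_pow h1)) ▸ hr))
        (by
          obtain ⟨w, hw⟩ := hL
          exact ⟨w * q, by rw [hD1, hw]; ring⟩)
        (fun d d' h => hper d d' ((Int.natCast_dvd_natCast.mpr (dvd_mul_right _ _)).trans h))
        hχ0 (fun r hr => hψ2 r (Finset.mem_insert_of_mem hr))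
        (fun r hr => heven r (Finset.mem_insert_of_mem hr)) hneb' (isClHom_twist (ψ q) hcl _) hne
        (hstep q (Finset.mem_insert_self q t) D _ _ x hx' (by simp [hχ1]) hInv)
    rw [Finset.prod_insert hqt, show L0 * (q * P) ^ 2 = L0 * q ^ 2 * P ^ 2 by ring]
    refine ⟨D', hD', x', hdvd, hx'neb, hx'cl, hx'0, hx'Inv, fun ℓ _ hℓD hℓ hℓs => ?_⟩
    rw [Finset.mem_insert, not_or] at hℓs
    have hℓD1 : Nat.Coprime ℓ D1 :=
      Nat.Coprime.mul_right hℓD (((Nat.coprime_primes hℓ hq).mpr hℓs.1).pow_right 2)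
    obtain ⟨hℓD', hop⟩ := hx'op ℓ hℓD1 hℓ hℓs.2
    refine ⟨hℓD', fun α β hα hβ => hop (β * ∏ r ∈ t, ψ r (ℓ : ZMod r)) β ?_ rfl⟩
    refine opD_twist (ψ q) hx' hχ1 (dvd_refl _) hℓ hℓD hℓD1 hα ?_
    rw [← hβ, Finset.prod_insert hqt]
    ring

/-- An eigenvalue of `opD` on a restriction is one of `perTransfer`. -/
theorem perTransfer_eq_smul {L D : ℕ} [NeZero L] [NeZero D] (hLD : L ∣ D) {ℓ : ℕ} [NeZero ℓ]
    (hℓ : ℓ.Prime) (hℓD : Nat.Coprime ℓ D) {y : Additive (Gamma0 L) →+ R}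
    {x : Additive (Gamma D) →+ R} (hres : resHom (gamma_le_Gamma0 hLD) y = x) {β : R}
    (hx : opD hℓD x = β • x) : Hecke.perTransfer L ℓ R y = β • y := by
  refine sub_eq_zero.mp (eq_zero_of_resHom_eq_zero (gamma_le_Gamma0 hLD) ?_)
  have e := resHom_perTransfer hLD hℓ hℓD y
  rw [hres, hx] at e
  refine Hecke.addChar_ext fun γ => ?_
  have e1 := DFunLike.congr_fun e (Additive.ofMul γ)
  have e2 := DFunLike.congr_fun hres (Additive.ofMul γ)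
  show Hecke.perTransfer _ ℓ R y (Additive.ofMul (Subgroup.inclusion _ γ)) -
    β • y (Additive.ofMul (Subgroup.inclusion _ γ)) = 0
  rw [sub_eq_zero]
  refine Eq.trans e1 ?_
  rw [AddMonoidHom.smul_apply, ← e2]
  rfl

/-- **Twist to trivial nebentypus.** -/
theorem exists_twist (s : Finset ℕ) (D L0 : ℕ) [NeZero D] [NeZero (L0 * (∏ q ∈ s, q) ^ 2)]
    (x : Additive (Gamma D) →+ R) (hp : ∀ q ∈ s, q.Prime) (hL0 : ∀ q ∈ s, ¬ q ∣ L0)
    (hL : L0 * ∏ q ∈ s, q ∣ D) (hψ2 : ∀ q ∈ s, ψ q ^ 2 ≠ 1) (heven : ∀ q ∈ s, ψ q (-1) = 1)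
    (hx : IsNeb (L0 * ∏ q ∈ s, q) (fun d => ∏ q ∈ s, ψ q (d : ZMod q) ^ 2) x)
    (hcl : IsClHom (Gamma D) x) (hx0 : x ≠ 0) :
    ∃ y : Additive (Gamma0 (L0 * (∏ q ∈ s, q) ^ 2)) →+ R,
      IsClHom (Gamma0 (L0 * (∏ q ∈ s, q) ^ 2)) y ∧ y ≠ 0 ∧
      ∀ (ℓ : ℕ) [NeZero ℓ] (hℓD : Nat.Coprime ℓ D), ℓ.Prime → ℓ ∉ s → ∀ α β : R,
        opD hℓD x = α • x → β * ∏ q ∈ s, ψ q (ℓ : ZMod q) = α →
        Hecke.perTransfer (L0 * (∏ q ∈ s, q) ^ 2) ℓ R y = β • y := by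
  obtain ⟨D', _, x', hdvd, hneb, hcl', hne, -, hop⟩ :=
    exists_twist_set_inv ψ (fun _ _ => True) s (fun _ _ _ _ _ _ _ _ _ _ => trivial) D L0
      (fun _ => 1) x
      hp hL0 hL (fun _ _ _ => rfl) rfl hψ2 heven (by simpa using hx) hcl hx0 trivial
  obtain ⟨y, hy, hres⟩ := exists_descend hdvd hneb hcl'
  refine ⟨y, hy, fun h => hne (by rw [← hres, h]; rfl), fun ℓ _ hℓD hℓ hℓs α β hα hβ => ?_⟩
  obtain ⟨hℓD', hop'⟩ := hop ℓ hℓD hℓ hℓs
  exact perTransfer_eq_smul hdvd hℓ hℓD' hres (hop' α β hα hβ)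

/-- **Twist at one prime.** The twisted character descends to `Γ₀(L0 q²)` and is killed by both
transfers to `Γ₀(L0 q)`. -/
theorem exists_twist_new {q : ℕ} [Fact q.Prime] (D L0 : ℕ) [NeZero D] [NeZero q]
    [NeZero (L0 * q)] [NeZero (L0 * q * q)] (x : Additive (Gamma D) →+ R)
    (ψ : MulChar (ZMod q) R) (hqL : ¬ q ∣ L0) (hL : L0 * q ∣ D) (hψ2 : ψ ^ 2 ≠ 1)
    (heven : ψ (-1) = 1) (hx : IsNeb (L0 * q) (fun d => ψ (d : ZMod q) ^ 2) x)
    (hcl : IsClHom (Gamma D) x) (hx0 : x ≠ 0) :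
    ∃ y : Additive (Gamma0 (L0 * q * q)) →+ R, IsClHom (Gamma0 (L0 * q * q)) y ∧ y ≠ 0 ∧
      corA (L0 * q) q y = 0 ∧ corB (L0 * q) q y = 0 ∧
      ∀ (ℓ : ℕ) [NeZero ℓ] (hℓD : Nat.Coprime ℓ D), ℓ.Prime → ℓ ≠ q → ∀ α β : R,
        opD hℓD x = α • x → β * ψ (ℓ : ZMod q) = α →
        Hecke.perTransfer (L0 * q * q) ℓ R y = β • y := by
  have hq : q.Prime := Fact.out
  set D' := D * q ^ 2 with hD'
  have : NeZero D' := ⟨mul_ne_zero (NeZero.ne D) (pow_ne_zero 2 hq.ne_zero)⟩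
  have hN : L0 * q * q ∣ D' := by
    obtain ⟨w, hw⟩ := hL
    exact ⟨w * q, by rw [hD', hw]; ring⟩
  have hx1 : IsNeb (L0 * q) (fun d => (fun _ : ℤ => (1 : R)) d * ψ (d : ZMod q) ^ 2) x := by
    simpa using hx
  have hneb : IsNeb (L0 * q * q) (fun _ => (1 : R)) (twist ψ x (dvd_refl D')) := by
    rw [show L0 * q * q = L0 * q ^ 2 by ring]
    exact isNeb_twist ψ hx1 (fun _ _ _ => rfl) (dvd_refl _)
  have hne := twist_ne_zero ψ hx1 hqL (fun _ _ _ => rfl) rfl hψ2 heven hx0 (dvd_refl D')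
  have hψ : ψ ≠ 1 := fun h1 => hψ2 (by rw [h1, one_pow])
  obtain ⟨y, hy, hres⟩ := exists_descend hN hneb (isClHom_twist ψ hcl _)
  refine ⟨y, hy, fun h => hne (by rw [← hres, h]; rfl),
    corA_eq_zero hx1 hqL (fun _ _ _ => rfl) rfl hψ (dvd_refl _) hN y hres,
    corB_eq_zero hx1 rfl hψ (dvd_refl _) hN y hres, fun ℓ _ hℓD hℓ hℓq α β hα hβ => ?_⟩
  have hℓD' : Nat.Coprime ℓ D' :=
    Nat.Coprime.mul_right hℓD (((Nat.coprime_primes hℓ hq).mpr hℓq).pow_right 2)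
  exact perTransfer_eq_smul hN hℓ hℓD' hres
    (opD_twist ψ hx1 rfl (dvd_refl _) hℓ hℓD hℓD' hα hβ)

/-- `Γ(N)` lies in the subgroup of `Γ₀(N)` cut out by a character of `(ℤ/N)ˣ`. -/
theorem gamma_le_GammaPsi {N : ℕ} {Δ : Type*} [CommGroup Δ] (Ψ : (ZMod N)ˣ →* Δ) :
    Gamma N ≤ LevelLowering.GammaPsi Ψ := fun γ hγ => by
  refine (LevelLowering.mem_GammaPsi Ψ ⟨γ, gamma_le_Gamma0 dvd_rfl hγ⟩).mpr
    (LevelLowering.dChar_eq_one Ψ ?_)
  exact (Gamma_mem.mp hγ).2.2.2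

omit [CharZero R] in
/-- The operator of `diag(1,ℓ)` on characters of that subgroup restricts to `opD`. -/
theorem resHom_restrict_op {N : ℕ} [NeZero N] {Δ : Type*} [CommGroup Δ] [Finite Δ]
    (Ψ : (ZMod N)ˣ →* Δ) (hΨ : Function.Surjective Ψ)
    (hneg : (-1 : SL(2, ℤ)) ∈ LevelLowering.GammaPsi Ψ) {ℓ : ℕ} [NeZero ℓ] (hℓ : ℓ.Prime)
    (hℓN : Nat.Coprime ℓ N) (φ : Additive (LevelLowering.GammaPsi Ψ) →+ R) :
    resHom (gamma_le_GammaPsi Ψ)
      (((LevelLowering.upperCorr N ℓ).restrict (LevelLowering.mem_GammaPsi Ψ)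
      (LevelLowering.upperCorr_compat Ψ hΨ) hneg).op φ) =
      opD hℓN (resHom (gamma_le_GammaPsi Ψ) φ) := by
  set C := (LevelLowering.upperCorr N ℓ).restrict (LevelLowering.mem_GammaPsi Ψ)
    (LevelLowering.upperCorr_compat Ψ hΨ) hneg
  have := C.fin₁
  refine (opD_resHom hℓ hℓN C.le₁ _ (fun γ hγ => ?_) φ _ fun γ δ h => ?_).symm
  · show γ ∈ (LevelLowering.upperCorr N ℓ).K₁ ⊓ LevelLowering.GammaPsi Ψ ↔ _
    rw [Subgroup.mem_inf]
    show γ ∈ upperGrp N ℓ ∧ _ ↔ _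
    rw [mem_upperGrp]
    exact ⟨fun ⟨⟨_, h⟩, _⟩ => h, fun h => ⟨⟨LevelLowering.GammaPsi_le Ψ hγ, h⟩, hγ⟩⟩
  · refine congrArg φ (congrArg Additive.ofMul (Subtype.ext ?_))
    exact Rel.unique det_diagUp (γ := γ.1) (C.intertwine γ) h

omit [CharZero R] in
/-- Eigencharacters of the diamond action restrict to characters with nebentypus. -/
theorem isNeb_resHom {N : ℕ} {Δ : Type*} [CommGroup Δ] (Ψ : (ZMod N)ˣ →* Δ)
    (φ : Additive (LevelLowering.GammaPsi Ψ) →+ R) (χ : ℤ → R)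
    (hχ : ∀ g : Gamma0 N, LevelLowering.conjChar (LevelLowering.GammaPsi_le Ψ)
      (LevelLowering.mem_GammaPsi Ψ) g⁻¹ φ =
      χ (g.1.1 1 1) • φ) :
    IsNeb N χ (resHom (gamma_le_GammaPsi Ψ) φ) := by
  intro g hg γ δ hδ
  have e := DFunLike.congr_fun (hχ ⟨g, hg⟩)
    (Additive.ofMul (Subgroup.inclusion (gamma_le_GammaPsi Ψ) γ))
  refine Eq.trans (congrArg φ (congrArg Additive.ofMul (Subtype.ext ?_))) e
  show δ.1 = ((⟨g, hg⟩ : Gamma0 N)⁻¹⁻¹ * Subgroup.inclusion (LevelLowering.GammaPsi_le Ψ)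
    (Subgroup.inclusion (gamma_le_GammaPsi Ψ) γ) * (⟨g, hg⟩ : Gamma0 N)⁻¹ : Gamma0 N).1
  rw [inv_inv, hδ]
  rfl

end Fermat.Agent.EigenTwist
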