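import Fermat.Agent.SquareLevel.Glue

/-!
# Fixed vectors of inertia inside the kernel of stable linear forms

The variant of `SquareLevel.exists_fixed_padic` for an eigenvector killed by a Galois stable family
of linear forms (the pushforwards to lower level).
-/

noncomputable section

open Polynomial

namespace Fermat.Agent.EigenTwist

open Attach SquareLevel

local notation "Qbar" => AlgebraicClosure ℚ
local notation "GQ" => (AlgebraicClosure ℚ ≃ₐ[ℚ] AlgebraicClosure ℚ)

/-- A common eigenvector over an extension gives one over the fraction field. -/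
theorem exists_fractionRing_vec {O L : Type} [CommRing O] [IsDomain O] [Field L] (jL : O →+* L)
    (hjL : Function.Injective jL) {r : ℕ} {T : Type*} (ψ : T → Matrix (Fin r) (Fin r) O)
    (θ : T → O) {ι : Type*} (P : Matrix ι (Fin r) O) (v : Fin r → L) (hv0 : v ≠ 0)
    (hv : ∀ s, ((ψ s).map jL).mulVec v = jL (θ s) • v) (hP : (P.map jL).mulVec v = 0) :
    ∃ u : Fin r → FractionRing O, u ≠ 0 ∧
      (∀ s, ((ψ s).map (algebraMap O (FractionRing O))).mulVec u =
        algebraMap O (FractionRing O) (θ s) • u) ∧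
      (P.map (algebraMap O (FractionRing O))).mulVec u = 0 := by
  let J : FractionRing O →+* L := IsFractionRing.lift (K := FractionRing O) hjL
  let : Algebra (FractionRing O) L := J.toAlgebra
  have hJ : ∀ x : O, J (algebraMap O (FractionRing O) x) = jL x :=
    fun x => IsFractionRing.lift_algebraMap hjL x
  obtain ⟨k, hk⟩ := Function.ne_iff.mp hv0
  obtain ⟨π, hπ⟩ : ∃ π : Module.Dual (FractionRing O) L, π (v k) ≠ 0 := by
    by_contra hcon
    push Not at hcon
    exact hk ((Module.forall_dual_apply_eq_zero_iff (FractionRing O) _).mp hcon)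
  have hmul : ∀ (a : O) (x : L), π (jL a * x) = algebraMap O (FractionRing O) a * π x :=
    fun a x => by
      rw [← hJ, show J (algebraMap O (FractionRing O) a) * x =
        (algebraMap O (FractionRing O) a) • x from (Algebra.smul_def _ _).symm, map_smul,
        smul_eq_mul]
  refine ⟨fun i => π (v i), fun h => hπ (congrFun h k), fun s => funext fun i => ?_,
    funext fun i => ?_⟩
  · have h := congrArg π (congrFun (hv s) i)
    simp only [Matrix.mulVec, dotProduct, map_sum, Matrix.map_apply, Pi.smul_apply, smul_eq_mul,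
      hmul] at h ⊢
    exact h
  · have h := congrArg π (congrFun hP i)
    simp only [Matrix.mulVec, dotProduct, map_sum, Matrix.map_apply, Pi.zero_apply, map_zero,
      hmul] at h ⊢
    exact h

variable {M : ℕ} [NeZero M] {p : ℕ} [Fact p.Prime]
variable (MM : TorsionModel M p) (GM : TorsionGalois M p) {S : Finset ℕ} (hpS : p ∈ S)
  (hMS : ∀ q, q.Prime → q ∣ M → q ∈ (↑S : Set ℕ))
  {O : Type} [CommRing O] [IsDomain O] [IsDiscreteValuationRing O]
  [IsAdicComplete (IsLocalRing.maximalIdeal O) O] [CharZero O]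
  (hp : (p : O) ∈ IsLocalRing.maximalIdeal O)
  {O2 : Type} [CommRing O2] [IsDomain O2] [IsDiscreteValuationRing O2]
  [IsAdicComplete (IsLocalRing.maximalIdeal O2) O2] [Algebra O O2]
  [IsLocalHom (algebraMap O O2)] (hinj : Function.Injective (algebraMap O O2))
  (θ : CuspForm.heckeAlgebra M 2 (↑S : Set ℕ) →+* O) (ρ : GaloisRepAdic O2)
  (hρ : ∀ (ℓ : ℕ) (hℓ : ℓ.Prime) (hℓM : ¬ ℓ ∣ M) (hℓS : ℓ ∉ (↑S : Set ℕ)),
    ∀ A : ValuationSubring Qbar, A.LiesOverPrime ℓ → ∀ σ : GQ, A.IsFrobeniusAt σ ℓ →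
      LinearMap.charpoly (ρ.ρ σ) =
        X ^ 2 - C (algebraMap O O2 (θ (CuspForm.heckeAlgebra.T hℓ hℓM hℓS))) * X + C ((ℓ : O2)))

include GM hpS hρ hinj hp in
/-- If inertia acts unipotently on `ρ`, an eigenspace cut by stable linear forms contains a nonzero
integral fixed vector killed by the forms. -/
theorem exists_fixed_padic_ker {q : ℕ} (hq : q.Prime) (hqp : q ≠ p)
    (hu : ρ.IsUnipotentOnInertiaAt q) {A : ValuationSubring Qbar} (hA : A.LiesOverPrime q)
    {ι : Type} [Fintype ι] (P : Matrix ι (Fin MM.rk) ℤ_[p])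
    (hP : ∀ g, ∃ R : Matrix ι ι ℤ_[p], P * MM.repPadic g = R * P)
    {L : Type} [Field L] (jL : O →+* L) (hjL : Function.Injective jL) (v₀ : Fin MM.rk → L)
    (hv₀ : v₀ ≠ 0) (hv₀e : ∀ s, ((MM.matO O hMS s).map jL).mulVec v₀ = jL (θ s) • v₀)
    (hv₀P : ((P.map (padicMap p (IsLocalRing.maximalIdeal O) hp)).map jL).mulVec v₀ = 0) :
    ∃ w : Fin MM.rk → ℤ_[p], (∀ σ ∈ A.inertiaSubgroupIn ℚ, (MM.repPadic σ).mulVec w = w) ∧
      w ≠ 0 ∧ P.mulVec w = 0 := by
  classical
  set φ := padicMap p (IsLocalRing.maximalIdeal O) hp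
  let K := FractionRing O
  let jK : O →+* K := algebraMap O K
  have hjK : Function.Injective jK := IsFractionRing.injective O K
  obtain ⟨v, hv0, hv', hPv⟩ : ∃ v : Fin MM.rk → K, v ≠ 0 ∧
      (∀ s, ((MM.matO O hMS s).map jK).mulVec v = jK (θ s) • v) ∧
      ((P.map φ).map jK).mulVec v = 0 :=
    exists_fractionRing_vec jL hjL (MM.matO O hMS) θ (P.map φ) v₀ hv₀ hv₀e hv₀P
  -- the eigenspace
  let V : Submodule K (Fin MM.rk → K) :=
    { carrier := {w | (∀ s, ((MM.matO O hMS s).map jK).mulVec w = jK (θ s) • w) ∧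
        ((P.map φ).map jK).mulVec w = 0}
      add_mem' := fun {a b} ha hb => ⟨fun s => by rw [Matrix.mulVec_add, ha.1 s, hb.1 s, smul_add],
        by rw [Matrix.mulVec_add, ha.2, hb.2, add_zero]⟩
      zero_mem' := ⟨fun s => by rw [Matrix.mulVec_zero, smul_zero], Matrix.mulVec_zero _⟩
      smul_mem' := fun c {a} ha => ⟨fun s => by rw [Matrix.mulVec_smul, ha.1 s, smul_comm],
        by rw [Matrix.mulVec_smul, ha.2, smul_zero]⟩ }
  have hstab : ∀ g, ∀ w ∈ V, ((MM.repO hp g).map jK).mulVec w ∈ V := fun g w hw => by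
    refine ⟨fun s => ?_, ?_⟩
    rotate_left
    · obtain ⟨R, hR⟩ := hP g
      rw [Matrix.mulVec_mulVec, ← Matrix.map_mul,
        show P.map φ * MM.repO hp g = R.map φ * P.map φ by
          rw [← Matrix.map_mul, ← hR, Matrix.map_mul]; rfl,
        Matrix.map_mul, ← Matrix.mulVec_mulVec, hw.2, Matrix.mulVec_zero]
    have hc : Commute ((MM.repO hp g).map jK) ((MM.matO O hMS s).map jK) :=
      (MM.repO_commute hp GM hMS g s).map jK.mapMatrix
    rw [Matrix.mulVec_mulVec, ← hc.eq, ← Matrix.mulVec_mulVec, hw.1 s, Matrix.mulVec_smul]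
  obtain ⟨w, hwV, hw0, hw⟩ := exists_fixed_mem MM GM hpS hMS hp hinj θ ρ hρ hq hqp hu hA V
    (V.ne_bot_iff.mpr ⟨v, ⟨hv', hPv⟩, hv0⟩) (fun _ hw => hw.1) hstab
  let j : ℤ_[p] →+* K := jK.comp φ
  have hj : Function.Injective j := hjK.comp (padicMap_injective hp)
  let Rk : A.inertiaSubgroupIn ℚ ⊕ ι → Matrix (Fin MM.rk) (Fin MM.rk) ℤ_[p] :=
    Sum.elim (fun σ => MM.repPadic σ) (fun k => 1 + Matrix.of fun _ l => P k l)
  have hfix : ∀ z, ((Rk z).map j).mulVec w = w := by
    rintro (σ | k)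
    · exact hw σ σ.2
    · show ((1 + Matrix.of fun _ l => P k l).map j).mulVec w = w
      rw [Matrix.map_add _ (map_add j), Matrix.map_one _ (map_zero j) (map_one j),
        Matrix.add_mulVec, Matrix.one_mulVec, add_eq_left]
      funext i
      exact congrFun hwV.2 k
  have hne : ((1 : Matrix (Fin MM.rk) (Fin MM.rk) ℤ_[p]).map j).mulVec w ≠ 0 := by
    rw [Matrix.map_one _ (map_zero j) (map_one j), Matrix.one_mulVec]
    exact hw0
  obtain ⟨x, hx, hx1⟩ := exists_padic_of_field j hj Rk 1 _ hfix hne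
  rw [Matrix.one_mulVec] at hx1
  obtain ⟨i0, -⟩ := Function.ne_iff.mp hx1
  refine ⟨x, fun σ hσ => hx (Sum.inl ⟨σ, hσ⟩), hx1, funext fun k => ?_⟩
  have h := hx (Sum.inr k)
  simp only [Rk, Sum.elim_inr, Matrix.add_mulVec, Matrix.one_mulVec, add_eq_left] at h
  exact congrFun h i0

end Fermat.Agent.EigenTwist
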