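import Fermat.Agent.Hecke.MonodromyC

/-!
# The Fricke involution of `ℂ(X₀(M))`, on ratios of forms

`f ↦ (f ∣ S)(M τ)` on forms; it exchanges the two degeneracy maps.
-/

noncomputable section

open UpperHalfPlane hiding I
open AlgebraicCurve CongruenceSubgroup Function
open scoped MatrixGroups ModularForm Manifold

namespace Fermat.Agent.EigenTwist

variable {M : ℕ} [NeZero M] {k l : ℤ} {f g A B : ℍ → ℂ}

/-- `τ ↦ (f ∣ S)(M τ)`. -/
def frickeTr (M : ℕ) [NeZero M] (k : ℤ) (f : ℍ → ℂ) : ℍ → ℂ :=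
  (f ∣[k] ModularGroup.S) ∘ MF.scale M

theorem frickeTr_mul (k l : ℤ) (f g : ℍ → ℂ) :
    frickeTr M (k + l) (f * g) = frickeTr M k f * frickeTr M l g := by
  rw [frickeTr, ModularForm.mul_slash_SL2]
  rfl

theorem frickeTr_pow (n : ℕ) (k : ℤ) (f : ℍ → ℂ) :
    frickeTr M ((n : ℤ) * k) (f ^ n) = frickeTr M k f ^ n := by
  rw [frickeTr, Mono.pow_slash_SL2]
  rfl

theorem frickeTr_add (k : ℤ) (f g : ℍ → ℂ) :
    frickeTr M k (f + g) = frickeTr M k f + frickeTr M k g := by
  rw [frickeTr, SlashAction.add_slash]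
  rfl

theorem frickeTr_smul (k : ℤ) (c : ℂ) (f : ℍ → ℂ) :
    frickeTr M k (c • f) = c • frickeTr M k f := by
  rw [frickeTr, ModularForm.SL_smul_slash]
  rfl

theorem scale_affH_one (τ : ℍ) : MF.scale M (MF.affH 1 M 0 τ) = τ := by
  have hM : (M : ℂ) ≠ 0 := Nat.cast_ne_zero.mpr (NeZero.ne M)
  refine UpperHalfPlane.ext ?_
  simp
  field_simp

theorem frickeTr_ne_zero (hf : f ≠ 0) : frickeTr M k f ≠ 0 := by
  obtain ⟨τ, hτ⟩ := Function.ne_iff.mp (Mono.slash_ne_zero hf k ModularGroup.S)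
  intro h
  have h' := congrFun h (MF.affH 1 M 0 τ)
  rw [frickeTr, Function.comp_apply, scale_affH_one] at h'
  exact hτ h'

theorem mdiff_frickeTr (hf : MDiff f) : MDiff (frickeTr M k f) :=
  MF.mdiff_affH M 1 0 (Mono.mdiff_slash hf k _)

/-- `S⁻¹ W S`, where `W = frickeHom γ`. -/
def frickeConj (γ : Gamma0 M) : SL(2, ℤ) :=
  ModularGroup.S⁻¹ * (Hecke.frickeHom M γ : SL(2, ℤ)) * ModularGroup.S

theorem frickeConj_val (γ : Gamma0 M) :
    (frickeConj γ).1 = !![γ.1.1 0 0, (M : ℤ) * γ.1.1 0 1; γ.1.1 1 0 / M, γ.1.1 1 1] := by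
  show (ModularGroup.S⁻¹ * (Hecke.frickeHom M γ : SL(2, ℤ)) * ModularGroup.S).1 = _
  rw [Matrix.SpecialLinearGroup.coe_mul, Matrix.SpecialLinearGroup.coe_mul,
    Matrix.SpecialLinearGroup.coe_inv, Hecke.frickeHom_val, ModularGroup.coe_S,
    Matrix.adjugate_fin_two_of]
  simp

theorem isHermite_frickeConj (γ : Gamma0 M) :
    MF.IsHermite M (γ : SL(2, ℤ)) (frickeConj γ) M 1 0 := by
  have hd : (M : ℤ) ∣ γ.1.1 1 0 := Hecke.Gamma0_dvd γ
  constructor <;>
    simp only [frickeConj_val, Matrix.of_apply, Matrix.cons_val', Matrix.cons_val_zero,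
      Matrix.cons_val_one, Matrix.cons_val_fin_one, mul_one, Nat.cast_one, mul_zero, zero_add]
  · exact mul_comm _ _
  · exact (Int.ediv_mul_cancel hd).symm

/-- The transform twists a character by the Fricke automorphism. -/
theorem frickeTr_slash (γ : Gamma0 M) (k : ℤ) (f : ℍ → ℂ) :
    frickeTr M k f ∣[k] (γ : SL(2, ℤ)) =
      frickeTr M k (f ∣[k] (Hecke.frickeHom M γ : SL(2, ℤ))) := by
  rw [frickeTr, MF.slash_scale (isHermite_frickeConj γ), Nat.cast_one, one_zpow, one_smul,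
    frickeTr, ← SlashAction.slash_mul, ← SlashAction.slash_mul]
  congr 2
  rw [frickeConj]
  group

theorem isFormFn_frickeTr (hf : MF.IsFormFn (Gamma0 M) k f) :
    MF.IsFormFn (Gamma0 M) k (frickeTr M k f) where
  slash_eq γ hγ := by
    rw [frickeTr_slash ⟨γ, hγ⟩, hf.slash_eq _ (Hecke.frickeHom M ⟨γ, hγ⟩).2]
  mdiff := mdiff_frickeTr hf.mdiff
  bdd γ := by
    obtain ⟨σ, a, d, b, ha, hd, hH⟩ := MF.exists_hermite M γ
    rw [frickeTr, MF.slash_scale hH, ← SlashAction.slash_mul]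
    exact ((hf.bdd _).comp_tendsto (MF.tendsto_affH a d b)).const_smul_left _

theorem isHermite_S (n : ℕ) : MF.IsHermite n ModularGroup.S ModularGroup.S 1 n 0 := by
  constructor <;> simp [ModularGroup.coe_S]

/-- The transform is an involution, up to a scalar. -/
theorem frickeTr_frickeTr (hf : MF.IsFormFn (Gamma0 M) k f) :
    frickeTr M k (frickeTr M k f) = ((M : ℂ) ^ (-k)) • f := by
  have hneg : f ∣[k] (ModularGroup.S * ModularGroup.S) = f := by
    refine hf.slash_eq _ ?_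
    rw [Gamma0_mem]
    simp [ModularGroup.coe_S]
  have e : ∀ τ, MF.affH 1 M 0 (MF.scale M τ) = τ := fun τ => by
    have hM : (M : ℂ) ≠ 0 := Nat.cast_ne_zero.mpr (NeZero.ne M)
    refine UpperHalfPlane.ext ?_
    simp
    field_simp
  rw [frickeTr, frickeTr, MF.slash_scale (isHermite_S M), ← SlashAction.slash_mul, hneg]
  funext τ
  simp only [Function.comp_apply, Pi.smul_apply, e]

/-- The transform of `τ ↦ f (q τ)` at level `N q`. -/
theorem frickeTr_comp_scale {N q : ℕ} [NeZero N] [NeZero q] (k : ℤ) (f : ℍ → ℂ) :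
    frickeTr (N * q) k (f ∘ MF.scale q) = ((q : ℂ) ^ (-k)) • frickeTr N k f := by
  have e : ∀ τ, MF.affH 1 q 0 (MF.scale (N * q) τ) = MF.scale N τ := fun τ => by
    have hq : (q : ℂ) ≠ 0 := Nat.cast_ne_zero.mpr (NeZero.ne q)
    refine UpperHalfPlane.ext ?_
    simp
    field_simp
  rw [frickeTr, MF.slash_scale (isHermite_S q)]
  funext τ
  simp only [Function.comp_apply, Pi.smul_apply, frickeTr, e]

/-! ## Representations of functions as ratios -/

omit [NeZero M] in
theorem isRep_unique {x y : Mono.FC M} (h : Mono.IsRep M x k A B) (h' : Mono.IsRep M y k A B) :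
    x = y :=
  Subtype.ext (mul_right_cancel₀
    (fun e => h.den_ne ((MF.lq_eq_zero_iff h.den.isQFn0).mp e)) (h.eq.trans h'.eq.symm))

omit [NeZero M] in
theorem isRep_cross {x : Mono.FC M} (h : Mono.IsRep M x k A B) (h' : Mono.IsRep M x l f g) :
    A * g = f * B := by
  refine (MF.lq_inj (h.num.isQFn0.mul h'.den.isQFn0) (h'.num.isQFn0.mul h.den.isQFn0)).mp ?_
  rw [MF.lq_mul h.num.isQFn0 h'.den.isQFn0, MF.lq_mul h'.num.isQFn0 h.den.isQFn0, ← h.eq, ← h'.eq]
  ring

omit [NeZero M] in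
theorem isRep_add {x y : Mono.FC M} (h : Mono.IsRep M x k A B) (h' : Mono.IsRep M y l f g) :
    Mono.IsRep M (x + y) (k + l) (A * g + f * B) (B * g) where
  num := (h.num.mul h'.den).add ((h'.num.mul h.den).cast (add_comm _ _))
  den := h.den.mul h'.den
  den_ne e := ((UpperHalfPlane.mul_eq_zero_iff h.den.mdiff h'.den.mdiff).mp e).elim h.den_ne
    h'.den_ne
  eq := by
    rw [MF.lq_add (h.num.isQFn0.mul h'.den.isQFn0) (h'.num.isQFn0.mul h.den.isQFn0),
      MF.lq_mul h.num.isQFn0 h'.den.isQFn0, MF.lq_mul h'.num.isQFn0 h.den.isQFn0,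
      MF.lq_mul h.den.isQFn0 h'.den.isQFn0, ← h.eq, ← h'.eq, IntermediateField.coe_add]
    ring

omit [NeZero M] in
theorem isRep_algebraMap (c : ℂ) :
    Mono.IsRep M (algebraMap ℂ (Mono.FC M) c) 0 (fun _ => c) 1 where
  num := MF.IsFormFn.const c
  den := MF.IsFormFn.one
  den_ne := one_ne_zero
  eq := by
    rw [MF.lq_one, mul_one, MF.lq_const]
    exact ModularCurve.algebraMap_laurentSeries_eq_single ℂ c

omit [NeZero M] in
theorem isRep_smul {x : Mono.FC M} (h : Mono.IsRep M x k A B) {c : ℂ} (hc : c ≠ 0) :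
    Mono.IsRep M x k (c • A) (c • B) where
  num := h.num.smul c
  den := h.den.smul c
  den_ne e := h.den_ne ((smul_eq_zero.mp e).resolve_left hc)
  eq := by
    rw [MF.lq_smul h.num.isQFn0, MF.lq_smul h.den.isQFn0, ← h.eq]
    ring

/-- Every function has an image under the Fricke involution. -/
theorem exists_fricke (x : Mono.FC M) : ∃ y : Mono.FC M, ∀ (k : ℤ) (A B : ℍ → ℂ),
    Mono.IsRep M x k A B → Mono.IsRep M y k (frickeTr M k A) (frickeTr M k B) := by
  obtain ⟨k, A, B, h⟩ := Mono.exists_isRep x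
  have hA := isFormFn_frickeTr h.num
  have hB := isFormFn_frickeTr h.den
  have hB0 : MF.lq (frickeTr M k B) ≠ 0 := fun e =>
    frickeTr_ne_zero h.den_ne ((MF.lq_eq_zero_iff hB.isQFn0).mp e)
  refine ⟨⟨MF.lq (frickeTr M k A) / MF.lq (frickeTr M k B), (Mono.mem_FC_iff M).mpr
    ⟨k, _, _, hA, hB, frickeTr_ne_zero h.den_ne, div_mul_cancel₀ _ hB0⟩⟩, fun l P Q h' => ?_⟩
  refine ⟨isFormFn_frickeTr h'.num, isFormFn_frickeTr h'.den, frickeTr_ne_zero h'.den_ne, ?_⟩
  show MF.lq (frickeTr M k A) / MF.lq (frickeTr M k B) * _ = _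
  rw [div_mul_eq_mul_div, div_eq_iff hB0, ← MF.lq_mul hA.isQFn0 (isFormFn_frickeTr h'.den).isQFn0,
    ← MF.lq_mul (isFormFn_frickeTr h'.num).isQFn0 hB.isQFn0, ← frickeTr_mul, ← frickeTr_mul,
    isRep_cross h h', add_comm k l]

/-- The Fricke involution of functions. -/
def frickeFun (x : Mono.FC M) : Mono.FC M := (exists_fricke x).choose

theorem isRep_frickeFun {x : Mono.FC M} (h : Mono.IsRep M x k A B) :
    Mono.IsRep M (frickeFun x) k (frickeTr M k A) (frickeTr M k B) :=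
  (exists_fricke x).choose_spec k A B h

theorem frickeTr_const (c : ℂ) : frickeTr M 0 (fun _ => c) = fun _ => c := by
  rw [frickeTr, show (fun _ : ℍ => c) ∣[(0 : ℤ)] ModularGroup.S = fun _ => c from
    ModularForm.is_invariant_const _ c]
  rfl

theorem frickeFun_algebraMap (c : ℂ) :
    frickeFun (algebraMap ℂ (Mono.FC M) c) = algebraMap ℂ _ c := by
  have h := isRep_frickeFun (isRep_algebraMap (M := M) c)
  rw [frickeTr_const, show frickeTr M 0 (1 : ℍ → ℂ) = 1 from frickeTr_const 1] at h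
  exact isRep_unique h (isRep_algebraMap c)

theorem frickeFun_mul (x y : Mono.FC M) : frickeFun (x * y) = frickeFun x * frickeFun y := by
  obtain ⟨k, A, B, h⟩ := Mono.exists_isRep x
  obtain ⟨l, P, Q, h'⟩ := Mono.exists_isRep y
  have h1 := isRep_frickeFun (h.mul h')
  rw [frickeTr_mul, frickeTr_mul] at h1
  exact isRep_unique h1 ((isRep_frickeFun h).mul (isRep_frickeFun h'))

theorem frickeFun_add (x y : Mono.FC M) : frickeFun (x + y) = frickeFun x + frickeFun y := by
  obtain ⟨k, A, B, h⟩ := Mono.exists_isRep x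
  obtain ⟨l, P, Q, h'⟩ := Mono.exists_isRep y
  have h1 := isRep_frickeFun (isRep_add h h')
  rw [frickeTr_add, frickeTr_mul k l A Q, frickeTr_mul k l B Q, add_comm k l,
    frickeTr_mul l k P B, ← add_comm k l] at h1
  exact isRep_unique h1 (isRep_add (isRep_frickeFun h) (isRep_frickeFun h'))

theorem frickeFun_frickeFun (x : Mono.FC M) : frickeFun (frickeFun x) = x := by
  obtain ⟨k, A, B, h⟩ := Mono.exists_isRep x
  have h1 := isRep_frickeFun (isRep_frickeFun h)
  rw [frickeTr_frickeTr h.num, frickeTr_frickeTr h.den] at h1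
  exact isRep_unique h1 (isRep_smul h (zpow_ne_zero _ (Nat.cast_ne_zero.mpr (NeZero.ne M))))

/-- The Fricke involution as an automorphism of `ℂ(X₀(M))`. -/
def frickeAut (M : ℕ) [NeZero M] : Mono.FC M ≃ₐ[ℂ] Mono.FC M where
  toFun := frickeFun
  invFun := frickeFun
  left_inv := frickeFun_frickeFun
  right_inv := frickeFun_frickeFun
  map_mul' := frickeFun_mul
  map_add' := frickeFun_add
  commutes' := frickeFun_algebraMap

variable {N q : ℕ} [NeZero N] [NeZero q]

open ModularCurve (heckeAlphaBar heckeBetaBar)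

theorem isRep_alpha {x : Mono.FC N} (h : Mono.IsRep N x k A B) :
    Mono.IsRep (N * q) (heckeAlphaBar ℂ N q x) k A B where
  num := h.num.mono (MF.Gamma0_le_of_dvd (dvd_mul_right N q))
  den := h.den.mono (MF.Gamma0_le_of_dvd (dvd_mul_right N q))
  den_ne := h.den_ne
  eq := by rw [ModularCurve.coe_heckeAlphaBar, h.eq]

/-- The involutions exchange the two degeneracy maps. -/
theorem frickeFun_beta (x : Mono.FC N) :
    frickeFun (heckeBetaBar ℂ N q x) = heckeAlphaBar ℂ N q (frickeFun x) := by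
  obtain ⟨k, A, B, h⟩ := Mono.exists_isRep x
  have h1 := isRep_frickeFun (Hecke.isRep_beta (ℓ := q) h)
  rw [frickeTr_comp_scale, frickeTr_comp_scale] at h1
  exact isRep_unique h1 (isRep_smul (isRep_alpha (isRep_frickeFun h))
    (zpow_ne_zero _ (Nat.cast_ne_zero.mpr (NeZero.ne q))))

/-- The norm along `β` through the norm along `α`. -/
theorem normAlong_beta (y : Mono.FC (N * q)) :
    Hecke.normAlong (heckeBetaBar ℂ N q) y =
      frickeFun (Hecke.normAlong (heckeAlphaBar ℂ N q) (frickeFun y)) :=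
  @Algebra.norm_eq_of_equiv_equiv (Mono.FC N) (Mono.FC (N * q)) (Mono.FC N) (Mono.FC (N * q)) _ _
    _ _ (algebraAlong (heckeBetaBar ℂ N q)) (algebraAlong (heckeAlphaBar ℂ N q))
    (frickeAut N).toRingEquiv (frickeAut (N * q)).toRingEquiv
    (RingHom.ext fun x => (frickeFun_beta x).symm) y

end Fermat.Agent.EigenTwist
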