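import Fermat.Agent.EigenTwist.Val
import Fermat.Agent.Ihara.DegenMaps

/-!
# Naturality of corestriction and the operator of `diag(1, ℓ)`

Corestriction commutes with conjugation; the operator of `diag(1, ℓ)` on characters of `Γ(D)`
commutes with translations by `u / q` up to dividing `u` by `ℓ`.
-/

noncomputable section

namespace Fermat.Agent.EigenTwist

open scoped MatrixGroups
open CongruenceSubgroup Fermat.Agent.Grp Fermat.Agent.Ihara

/-- Corestriction commutes with a homomorphism which induces a bijection on cosets. -/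
theorem coresHom_natural {G H G' H' : Subgroup SL(2, ℤ)} [H.FiniteIndex] [H'.FiniteIndex]
    (h : H ≤ G) (h' : H' ≤ G') (f : G' →* G)
    (hf : ∀ g : G', (f g : SL(2, ℤ)) ∈ H ↔ (g : SL(2, ℤ)) ∈ H')
    (hsurj : ∀ g : G, ∃ g' : G', (((f g')⁻¹ * g : G) : SL(2, ℤ)) ∈ H)
    {A : Type*} [AddCommGroup A] (z : Additive H →+ A) (z' : Additive H' →+ A)
    (hz : ∀ (g : G') (hg : (g : SL(2, ℤ)) ∈ H'), z' (Additive.ofMul ⟨g, hg⟩) =
      z (Additive.ofMul ⟨f g, (hf g).mpr hg⟩)) :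
    coresHom h' z' = (coresHom h z).comp (MonoidHom.toAdditive f) := by
  have := (H'.subgroupOf G').fintypeQuotientOfFiniteIndex
  let r : G' ⧸ H'.subgroupOf G' → G' := fun i => i.out
  have hmem : ∀ a b : G', ((a⁻¹ * b : G') : SL(2, ℤ)) ∈ H' ↔
      (((f a)⁻¹ * f b : G) : SL(2, ℤ)) ∈ H := fun a b => by
    rw [← map_inv, ← map_mul]; exact (hf _).symm
  have hr : Function.Bijective fun i => ((f (r i) : G) : G ⧸ H.subgroupOf G) := by
    constructor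
    · intro i j hij
      rw [QuotientGroup.eq, Subgroup.mem_subgroupOf, ← hmem] at hij
      rw [← QuotientGroup.out_eq' i, ← QuotientGroup.out_eq' j, QuotientGroup.eq,
        Subgroup.mem_subgroupOf]
      exact hij
    · intro y
      obtain ⟨g, rfl⟩ := QuotientGroup.mk_surjective y
      obtain ⟨g', hg'⟩ := hsurj g
      refine ⟨(g' : G' ⧸ H'.subgroupOf G'), ?_⟩
      have h1 : ((g'⁻¹ * r (g' : G' ⧸ H'.subgroupOf G') : G') : SL(2, ℤ)) ∈ H' :=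
        Subgroup.mem_subgroupOf.mp (QuotientGroup.eq.mp (QuotientGroup.out_eq' _).symm)
      rw [hmem] at h1
      rw [QuotientGroup.eq, Subgroup.mem_subgroupOf]
      have := mul_mem (inv_mem h1) hg'
      rw [← Subgroup.coe_inv, ← Subgroup.coe_mul] at this
      simpa [mul_assoc] using this
  refine Hecke.addChar_ext fun g => ?_
  have hσ : ∀ i, (((r (g • i))⁻¹ * (g * r i) : G') : SL(2, ℤ)) ∈ H' := fun i =>
    Subgroup.mem_subgroupOf.mp (Hecke.cocycle_mem r QuotientGroup.out_eq' g i)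
  have hσ' : ∀ i, (((f (r (g • i)))⁻¹ * (f g * f (r i)) : G) : SL(2, ℤ)) ∈ H := fun i => by
    rw [← map_mul, ← hmem]; exact hσ i
  show _ = coresHom h z (Additive.ofMul (f g))
  rw [coresHom_apply h' z' g,
      coresHom_apply_reps h z (fun i => f (r i)) hr (f g) (fun i => g • i) hσ']
  refine Finset.sum_congr rfl fun i _ => ?_
  rw [hz _ (hσ i)]
  refine congrArg z (congrArg Additive.ofMul (Subtype.ext ?_))
  show ((f _ : G) : SL(2, ℤ)) = _
  rw [map_mul, map_mul, map_inv]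

/-- Conjugation by `X` as a homomorphism `Γ(D') → Γ(D)`. -/
def conjHom {D D' : ℕ} (X : Mat2) (hX : X.det ≠ 0) (hD : D * X.det.natAbs ∣ D') :
    Gamma D' →* Gamma D :=
  MonoidHom.mk' (fun γ => (exists_rel hX hD γ.2).choose) fun a b =>
    Subtype.ext (Rel.unique hX (exists_rel hX hD (a * b).2).choose_spec
      ((exists_rel hX hD a.2).choose_spec.mul (exists_rel hX hD b.2).choose_spec))

theorem conjHom_rel {D D' : ℕ} (X : Mat2) (hX : X.det ≠ 0) (hD : D * X.det.natAbs ∣ D')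
    (γ : Gamma D') : Rel X γ.1 (conjHom X hX hD γ).1 :=
  (exists_rel hX hD γ.2).choose_spec

theorem pull_eq_comp {D D' : ℕ} {R : Type*} [AddCommGroup R] (x : Additive (Gamma D) →+ R)
    (X : Mat2) (hX : X.det ≠ 0) (hD : D * X.det.natAbs ∣ D') :
    pull x X hX hD = x.comp (MonoidHom.toAdditive (conjHom X hX hD)) :=
  Hecke.addChar_ext fun γ => val_eq hX (conjHom_rel X hX hD γ)

/-- Every column class mod `ℓ` is reached by an element of `Γ(D)`. -/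
theorem exists_upper_entry_or_lower (D ℓ : ℕ) (hℓ : ℓ.Prime) (hℓD : ¬ ℓ ∣ D) (b d : ℤ) :
    (∃ j : ℤ, (ℓ : ℤ) ∣ b - (D : ℤ) * j * d) ∨
      ((ℓ : ℤ) ∣ d ∧ ∃ k : Gamma D, (ℓ : ℤ) ∣ k.1.1 1 1) := by
  by_cases hd : (ℓ : ℤ) ∣ d
  · refine Or.inr ⟨hd, ?_⟩
    have hco : IsCoprime (ℓ : ℤ) (((D : ℤ)) ^ 2) :=
      (Nat.isCoprime_iff_coprime.mpr (hℓ.coprime_iff_not_dvd.mpr hℓD)).pow_right
    obtain ⟨e, s, hes⟩ := hco
    refine ⟨⟨⟨!![1, D; -(s * D), e * ℓ], ?_⟩, mem_Gamma_iff_dvd.mpr fun i j => ?_⟩, ?_⟩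
    · rw [Matrix.det_fin_two_of]; linear_combination hes
    · fin_cases i <;> fin_cases j <;> simp
      exact ⟨-(s * D), by linear_combination hes⟩
    · exact dvd_mul_left _ _
  · refine Or.inl ?_
    have hp : Prime (ℓ : ℤ) := Nat.prime_iff_prime_int.mp hℓ
    have hD : ¬ (ℓ : ℤ) ∣ (D : ℤ) * d := fun h => (hp.dvd_or_dvd h).elim
      (fun h' => hℓD (Int.natCast_dvd_natCast.mp h')) hd
    obtain ⟨u, v, huv⟩ := hp.coprime_iff_not_dvd.mpr hD
    exact ⟨b * v, b * u, by linear_combination (-b) * huv⟩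

theorem gamma_T_zpow (D : ℕ) (j : ℤ) : ModularGroup.T ^ ((D : ℤ) * j) ∈ Gamma D :=
  mem_Gamma_iff_dvd.mpr fun i k => by
    rw [ModularGroup.coe_T_zpow]; fin_cases i <;> fin_cases k <;> simp

section UpperOp

variable (D ℓ : ℕ)

/-- `Γ(D) ∩ Γ⁰(ℓ)`. -/
abbrev upD : Subgroup SL(2, ℤ) := Gamma D ⊓ upperGrp 1 ℓ

theorem mem_upD {γ : SL(2, ℤ)} : γ ∈ upD D ℓ ↔ γ ∈ Gamma D ∧ (ℓ : ℤ) ∣ γ.1 0 1 := by
  rw [Subgroup.mem_inf, mem_upperGrp]
  refine and_congr_right' ⟨fun ⟨_, h⟩ => h, fun h => ⟨?_, h⟩⟩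
  rw [Gamma0_mem]; exact Subsingleton.elim _ _

/-- The matrix `diag(1,ℓ)`. -/
abbrev diagUp : Mat2 := !![1, 0; 0, (ℓ : ℤ)]

variable {D ℓ} {R : Type*} [AddCommGroup R]

theorem exists_rel_diagUp [NeZero ℓ] (hℓD : Nat.Coprime ℓ D) {γ : SL(2, ℤ)} (hγ : γ ∈ upD D ℓ) :
    ∃ δ : Gamma D, Rel (diagUp ℓ) γ δ.1 := by
  obtain ⟨hD, ⟨c, hc⟩⟩ := (mem_upD D ℓ).mp hγ
  have hℓ : (ℓ : ℤ) ≠ 0 := by exact_mod_cast NeZero.ne ℓ
  have hdet := det_eq γ
  refine ⟨⟨⟨!![γ.1 0 0, c; (ℓ : ℤ) * γ.1 1 0, γ.1 1 1], ?_⟩, mem_Gamma_iff_dvd.mpr fun i j => ?_⟩,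
    ?_⟩
  · rw [Matrix.det_fin_two_of]; linear_combination hdet + γ.1 1 0 * hc
  · have h := dvd_sub_one_of_mem_Gamma hD
    fin_cases i <;> fin_cases j
    · simpa using h 0 0
    · have h01 : (D : ℤ) ∣ (ℓ : ℤ) * c := by simpa [hc] using h 0 1
      simpa using (Nat.isCoprime_iff_coprime.mpr hℓD.symm).dvd_of_dvd_mul_left h01
    · simpa using (h 1 0).mul_left (ℓ : ℤ)
    · simpa using h 1 1
  · show _ * γ.1 = _
    conv_lhs => rw [Matrix.eta_fin_two γ.1]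
    rw [Matrix.mul_fin_two, Matrix.mul_fin_two, hc]
    simp [mul_comm]

theorem det_diagUp [NeZero ℓ] : (diagUp ℓ).det ≠ 0 := by simp [NeZero.ne ℓ]

/-- `x` transported to `Γ(D) ∩ Γ⁰(ℓ)` by `diag(1,ℓ)`. -/
def upChar [NeZero ℓ] (hℓD : Nat.Coprime ℓ D) (x : Additive (Gamma D) →+ R) :
    Additive (upD D ℓ) →+ R :=
  AddMonoidHom.mk' (fun γ => val x (diagUp ℓ) (Additive.toMul γ).1) fun a b => by
    obtain ⟨δa, ha⟩ := exists_rel_diagUp hℓD (Additive.toMul a).2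
    obtain ⟨δb, hb⟩ := exists_rel_diagUp hℓD (Additive.toMul b).2
    show val x _ ((Additive.toMul a).1 * (Additive.toMul b).1) = _
    rw [val_eq det_diagUp ha, val_eq det_diagUp hb,
      val_eq det_diagUp (δ := δa * δb) (ha.mul hb), ofMul_mul, map_add]

/-- The operator of `diag(1,ℓ)` on characters of `Γ(D)`. -/
def opD [NeZero D] [NeZero ℓ] (hℓD : Nat.Coprime ℓ D) (x : Additive (Gamma D) →+ R) :
    Additive (Gamma D) →+ R :=
  coresHom inf_le_left (upChar hℓD x)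

/-- If `δ` is the conjugate of `γ` by the translation by `ℓ v / q`, they have the same lower left
entry, congruent upper right entries mod `ℓ` up to `q`, and related lower right entries. -/
theorem rel_translation_entries {q v : ℤ} {ℓ : ℕ} (hq : q ≠ 0) {γ δ : SL(2, ℤ)}
    (h : Rel !![q, (ℓ : ℤ) * v; 0, q] γ δ) :
    δ.1 1 0 = γ.1 1 0 ∧ q * δ.1 1 1 = q * γ.1 1 1 - γ.1 1 0 * ((ℓ : ℤ) * v) ∧
      (ℓ : ℤ) ∣ q * (δ.1 0 1 - γ.1 0 1) := by
  unfold Rel at h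
  rw [Matrix.eta_fin_two γ.1, Matrix.eta_fin_two δ.1, Matrix.mul_fin_two, Matrix.mul_fin_two] at h
  have e10 := congrFun (congrFun h 1) 0
  have e11 := congrFun (congrFun h 1) 1
  have e01 := congrFun (congrFun h 0) 1
  simp at e10 e11 e01
  have hc : δ.1 1 0 = γ.1 1 0 := mul_left_cancel₀ hq (by linear_combination -e10)
  exact ⟨hc, by linear_combination -e11 - ((ℓ : ℤ) * v) * hc,
    v * γ.1 1 1 - δ.1 0 0 * v, by linear_combination -e01⟩

/-- Translations by `u/q` commute with `opD`, dividing `u` by `ℓ`. -/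
theorem opD_pull {D' : ℕ} [NeZero D] [NeZero D'] [NeZero ℓ] (hℓ : ℓ.Prime)
    (hℓD : Nat.Coprime ℓ D) (hℓD' : Nat.Coprime ℓ D') {q v : ℤ} (hq : q ≠ 0)
    (hℓq : ¬ (ℓ : ℤ) ∣ q)
    (hX : (!![q, (ℓ : ℤ) * v; 0, q] : Mat2).det ≠ 0) (hY : (!![q, v; 0, q] : Mat2).det ≠ 0)
    (hDX : D * (!![q, (ℓ : ℤ) * v; 0, q] : Mat2).det.natAbs ∣ D')
    (hDY : D * (!![q, v; 0, q] : Mat2).det.natAbs ∣ D')
    (x : Additive (Gamma D) →+ R) :
    opD hℓD' (pull x !![q, v; 0, q] hY hDY) = pull (opD hℓD x) !![q, (ℓ : ℤ) * v; 0, q] hX hDX := by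
  set X : Mat2 := !![q, (ℓ : ℤ) * v; 0, q] with hXdef
  set Y : Mat2 := !![q, v; 0, q] with hYdef
  have hp : Prime (ℓ : ℤ) := Nat.prime_iff_prime_int.mp hℓ
  have hcomm : diagUp ℓ * X = Y * diagUp ℓ := by
    rw [hXdef, hYdef, Matrix.mul_fin_two, Matrix.mul_fin_two]; simp [mul_comm]
  rw [pull_eq_comp (opD hℓD x) X hX hDX]
  -- the entries of conjugates
  have hent : ∀ γ : Gamma D', (conjHom X hX hDX γ).1.1 1 0 = γ.1.1 1 0 ∧
      q * (conjHom X hX hDX γ).1.1 1 1 = q * γ.1.1 1 1 - γ.1.1 1 0 * ((ℓ : ℤ) * v) ∧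
      (ℓ : ℤ) ∣ q * ((conjHom X hX hDX γ).1.1 0 1 - γ.1.1 0 1) := by
    intro γ
    exact rel_translation_entries hq (conjHom_rel X hX hDX γ)
  have hiff : ∀ γ : Gamma D', (conjHom X hX hDX γ : SL(2, ℤ)) ∈ upD D ℓ ↔
      (γ : SL(2, ℤ)) ∈ upD D' ℓ := by
    intro γ
    simp only [mem_upD, SetLike.coe_mem, true_and]
    obtain ⟨-, -, hd⟩ := hent γ
    have hd' : (ℓ : ℤ) ∣ (conjHom X hX hDX γ).1.1 0 1 - γ.1.1 0 1 :=
      (hp.dvd_or_dvd hd).resolve_left hℓq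
    exact ⟨fun h => by simpa using h.sub hd', fun h => by simpa using hd'.add h⟩
  refine coresHom_natural inf_le_left inf_le_left (conjHom X hX hDX) hiff (fun g => ?_)
    (upChar hℓD x) (upChar hℓD' (pull x Y hY hDY)) fun γ hγ => ?_
  · -- surjectivity on cosets
    have hmk : ∀ k : Gamma D', (ℓ : ℤ) ∣ (conjHom X hX hDX k).1.1 1 1 * g.1.1 0 1 -
        (conjHom X hX hDX k).1.1 0 1 * g.1.1 1 1 →
        (((conjHom X hX hDX k)⁻¹ * g : Gamma D) : SL(2, ℤ)) ∈ upD D ℓ := by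
      intro k hk
      refine (mem_upD D ℓ).mpr ⟨SetLike.coe_mem _, ?_⟩
      rw [Subgroup.coe_mul, Subgroup.coe_inv]
      simpa [Matrix.mul_apply, Matrix.adjugate_fin_two, ← sub_eq_add_neg] using hk
    rcases exists_upper_entry_or_lower D' ℓ hℓ (hℓ.coprime_iff_not_dvd.mp hℓD')
      (g.1.1 0 1) (g.1.1 1 1) with
      ⟨j, hj⟩ | ⟨hd, k, hk⟩
    · refine ⟨⟨_, gamma_T_zpow D' j⟩, hmk _ ?_⟩
      have h : Rel X (ModularGroup.T ^ ((D' : ℤ) * j)) (ModularGroup.T ^ ((D' : ℤ) * j)) := by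
        show X * _ = _ * X
        rw [ModularGroup.coe_T_zpow, hXdef, Matrix.mul_fin_two, Matrix.mul_fin_two]
        ext a b; fin_cases a <;> fin_cases b <;> simp; ring
      rw [Rel.unique hX (conjHom_rel X hX hDX _) h, ModularGroup.coe_T_zpow]
      simpa using hj
    · refine ⟨k, hmk _ (dvd_sub ?_ (hd.mul_left _))⟩
      obtain ⟨-, he, -⟩ := hent k
      have : (ℓ : ℤ) ∣ q * (conjHom X hX hDX k).1.1 1 1 := by
        rw [he]; exact dvd_sub (hk.mul_left _) ((dvd_mul_right _ _).mul_left _)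
      exact ((hp.dvd_or_dvd this).resolve_left hℓq).mul_right _
  · show val (pull x Y hY hDY) (diagUp ℓ) γ.1 = val x (diagUp ℓ) (conjHom X hX hDX γ).1
    obtain ⟨δ, hδ⟩ := exists_rel_diagUp hℓD' hγ
    rw [val_eq det_diagUp hδ, pull_apply, ← val_comp x hY det_diagUp hδ,
      ← val_comp x det_diagUp hX (conjHom_rel X hX hDX γ), hcomm]

/-- The operator of `diag(1,ℓ)` on a larger group restricts to `opD`. -/
theorem opD_resHom [NeZero D] [NeZero ℓ] (hℓ : ℓ.Prime) (hℓD : Nat.Coprime ℓ D)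
    {G H : Subgroup SL(2, ℤ)} [H.FiniteIndex] (hH : H ≤ G) (hDG : Gamma D ≤ G)
    (hmem : ∀ γ ∈ G, γ ∈ H ↔ (ℓ : ℤ) ∣ γ.1 0 1) (φ : Additive G →+ R) (z : Additive H →+ R)
    (hz : ∀ (γ : H) (δ : G), Rel (diagUp ℓ) γ.1 δ.1 →
      z (Additive.ofMul γ) = φ (Additive.ofMul δ)) :
    opD hℓD (resHom hDG φ) = resHom hDG (coresHom hH z) := by
  have hp : Prime (ℓ : ℤ) := Nat.prime_iff_prime_int.mp hℓ
  have hiff : ∀ γ : Gamma D, (Subgroup.inclusion hDG γ : SL(2, ℤ)) ∈ H ↔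
      (γ : SL(2, ℤ)) ∈ upD D ℓ := fun γ => by
    rw [Subgroup.coe_inclusion, hmem _ (hDG γ.2), mem_upD]
    simp
  refine coresHom_natural hH inf_le_left (Subgroup.inclusion hDG) hiff (fun g => ?_) z
    (upChar hℓD (resHom hDG φ)) fun γ hγ => ?_
  · have hmk : ∀ k : Gamma D, (ℓ : ℤ) ∣ k.1.1 1 1 * g.1.1 0 1 - k.1.1 0 1 * g.1.1 1 1 →
        (((Subgroup.inclusion hDG k)⁻¹ * g : G) : SL(2, ℤ)) ∈ H := by
      intro k hk
      rw [hmem _ (SetLike.coe_mem _), Subgroup.coe_mul, Subgroup.coe_inv, Subgroup.coe_inclusion]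
      simpa [Matrix.mul_apply, Matrix.adjugate_fin_two, ← sub_eq_add_neg] using hk
    rcases exists_upper_entry_or_lower D ℓ hℓ (hℓ.coprime_iff_not_dvd.mp hℓD)
      (g.1.1 0 1) (g.1.1 1 1) with
      ⟨j, hj⟩ | ⟨hd, k, hk⟩
    · refine ⟨⟨_, gamma_T_zpow D j⟩, hmk _ ?_⟩
      rw [ModularGroup.coe_T_zpow]
      simpa using hj
    · exact ⟨k, hmk _ (dvd_sub (hk.mul_right _) (hd.mul_left _))⟩
  · show val (resHom hDG φ) (diagUp ℓ) γ.1 = _
    obtain ⟨δ, hδ⟩ := exists_rel_diagUp hℓD hγ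
    rw [val_eq det_diagUp hδ, hz ⟨_, (hiff γ).mpr hγ⟩ (Subgroup.inclusion hDG δ) hδ]
    rfl

end UpperOp

end Fermat.Agent.EigenTwist
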