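import Fermat.Agent.EigenTwist.Fricke
import Fermat.Agent.Ihara.DegenMaps

/-!
# Monodromy characters of pushforwards along the two degeneracy maps

The root character of a pushforward along either degeneracy map is the corresponding transfer of
the root character; the second transfer is the first one conjugated by the Fricke involutions.
-/

noncomputable section

open UpperHalfPlane hiding I
open AlgebraicCurve CongruenceSubgroup Function
open ModularCurve (heckeAlphaBar heckeBetaBar)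
open scoped MatrixGroups ModularForm Manifold

namespace Fermat.Agent.EigenTwist

/-! ## Characters -/

section Chars

variable {N q : ℕ} [NeZero N] [NeZero q] {A : Type*} [AddCommGroup A]

theorem alphaUp_frickeHom (δ : Gamma0 (N * q)) (u : Ihara.upperGrp N q)
    (hu : u.1 = (Hecke.frickeHom N ⟨δ.1, Ihara.Gamma0_le_mul N q δ.2⟩ : SL(2, ℤ))) :
    Ihara.alphaUp N q u = Hecke.frickeHom (N * q) δ := by
  obtain ⟨k, hk⟩ := Hecke.Gamma0_dvd δ
  have hN : (N : ℤ) ≠ 0 := by exact_mod_cast NeZero.ne N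
  have hq : (q : ℤ) ≠ 0 := by exact_mod_cast NeZero.ne q
  have hM : ((N * q : ℕ) : ℤ) ≠ 0 := by exact_mod_cast NeZero.ne (N * q)
  have e : δ.1.1 1 0 / (N : ℤ) = q * k := by
    rw [hk, show ((N * q : ℕ) : ℤ) * k = N * (q * k) by push_cast; ring,
      Int.mul_ediv_cancel_left _ hN]
  have hu' : u.1.1 = !![δ.1.1 1 1, -(δ.1.1 1 0 / N); -((N : ℤ) * δ.1.1 0 1), δ.1.1 0 0] := by
    rw [hu, Hecke.frickeHom_val]
  apply Hecke.Gamma0_ext <;>
    simp only [Hecke.frickeHom_val, Ihara.alphaUp_val, Matrix.of_apply, Matrix.cons_val',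
      Matrix.cons_val_zero, Matrix.cons_val_one, Matrix.cons_val_fin_one, hu', e]
  · rw [hk, Int.mul_ediv_cancel_left _ hM, ← mul_neg, Int.mul_ediv_cancel_left _ hq]
  · push_cast; ring

/-- The second transfer is the first one conjugated by the Fricke involutions. -/
theorem corB_eq_fricke (χ : Additive (Gamma0 (N * q)) →+ A) :
    Ihara.corB N q χ =
      Hecke.frickeChar N A (Ihara.corA N q (Hecke.frickeChar (N * q) A χ)) := by
  refine Hecke.addChar_ext fun g => ?_
  have := ((Gamma0 (N * q)).subgroupOf (Gamma0 N)).fintypeQuotientOfFiniteIndex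
  let t : Gamma0 N ⧸ (Gamma0 (N * q)).subgroupOf (Gamma0 N) → Gamma0 N := Quotient.out
  have ht : ∀ i, ((t i : Gamma0 N) : Gamma0 N ⧸ (Gamma0 (N * q)).subgroupOf (Gamma0 N)) = i :=
    QuotientGroup.out_eq'
  set w := Hecke.frickeEquiv N
  have hmem : ∀ x : Gamma0 N,
      x ∈ Hecke.lowerSub N q ↔ w x ∈ (Ihara.upperGrp N q).subgroupOf (Gamma0 N) := fun x => by
    rw [Ihara.upperGrp_subgroupOf]; exact Hecke.frickeHom_mem_upperSub N q x
  have hbij : Bijective fun i => ((w (t i) : Gamma0 N) :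
      Gamma0 N ⧸ (Ihara.upperGrp N q).subgroupOf (Gamma0 N)) := by
    constructor
    · intro a b hab
      rw [← ht a, ← ht b, QuotientGroup.eq]
      rw [QuotientGroup.eq, ← map_inv, ← map_mul, ← hmem] at hab
      exact hab
    · intro x
      refine ⟨((w.symm x.out : Gamma0 N) : Gamma0 N ⧸ (Gamma0 (N * q)).subgroupOf (Gamma0 N)), ?_⟩
      conv_rhs => rw [← QuotientGroup.out_eq' x]
      refine QuotientGroup.eq.mpr ?_
      have h := QuotientGroup.eq.mp
        (ht ((w.symm x.out : Gamma0 N) : Gamma0 N ⧸ (Gamma0 (N * q)).subgroupOf (Gamma0 N)))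
      rw [hmem, map_mul, map_inv, w.apply_symm_apply] at h
      exact h
  set h := Hecke.frickeHom N g with hh
  have hg : g = w h := (Hecke.frickeHom_frickeHom N g).symm
  have hδ : ∀ i, (t (h • i))⁻¹ * (h * t i) ∈ Hecke.lowerSub N q :=
    fun i => Hecke.cocycle_mem t ht h i
  have hσ : ∀ i,
      ((w (t (h • i)))⁻¹ * (g * w (t i)) : Gamma0 N).1 ∈ Ihara.upperGrp N q := fun i => by
    refine Subgroup.mem_subgroupOf.mp ?_
    rw [hg, ← map_inv, ← map_mul, ← map_mul, ← hmem]
    exact hδ i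
  rw [Ihara.corB, Ihara.coresHom_apply_reps _ _ (fun i => w (t i)) hbij g (fun i => h • i) hσ,
    Hecke.frickeChar_apply, Ihara.corA, Ihara.coresHom_apply]
  refine Finset.sum_congr rfl fun i _ => ?_
  show χ (Additive.ofMul (Ihara.alphaUp N q _)) = χ (Additive.ofMul (Hecke.frickeHom (N * q) _))
  refine congrArg χ (congrArg Additive.ofMul (alphaUp_frickeHom _ _ ?_))
  show ((w (t (h • i)))⁻¹ * (g * w (t i)) : Gamma0 N).1 =
    (w ((t (h • i))⁻¹ * (h * t i)) : Gamma0 N).1
  rw [map_mul, map_mul, map_inv, ← hg]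

end Chars

/-! ## Roots of functions -/

section Roots

attribute [local instance] Hecke.levelFintype

variable {N q m : ℕ} [NeZero N] [NeZero q] [NeZero m]

/-- `x` has an `m`-th root with character `φ`. -/
def RootData (N m : ℕ) [NeZero m] (x : Mono.FC N) (φ : Additive (Gamma0 N) →+ ZMod m) : Prop :=
  ∃ (k : ℤ) (A B h : ℍ → ℂ), Mono.IsRep N x k A B ∧ MDiff h ∧ h ^ m = A * B ^ (m - 1) ∧
    ∀ γ : Gamma0 N, h ∣[k] (γ : SL(2, ℤ)) = ZMod.stdAddChar (φ (Additive.ofMul γ)) • h

theorem RootData.fricke {x : Mono.FC N} {φ : Additive (Gamma0 N) →+ ZMod m}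
    (h : RootData N m x φ) :
    RootData N m (frickeFun x) (Hecke.frickeChar N (ZMod m) φ) := by
  obtain ⟨k, A, B, r, hr, hd, hp, hc⟩ := h
  refine ⟨k, _, _, frickeTr N k r, isRep_frickeFun hr, mdiff_frickeTr hd, ?_, fun γ => ?_⟩
  · have hm : 1 ≤ m := Nat.one_le_iff_ne_zero.mpr (NeZero.ne m)
    rw [← frickeTr_pow, hp, ← frickeTr_pow, ← frickeTr_mul,
      show k + ((m - 1 : ℕ) : ℤ) * k = (m : ℤ) * k by rw [Nat.cast_sub hm]; ring]
  · rw [frickeTr_slash, hc, frickeTr_smul, Hecke.frickeChar_apply]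

theorem RootData.normAlpha {y : Mono.FC (N * q)} {φ : Additive (Gamma0 (N * q)) →+ ZMod m}
    (h : RootData (N * q) m y φ) :
    RootData N m (Hecke.normAlong (heckeAlphaBar ℂ N q) y) (Ihara.corA N q φ) := by
  obtain ⟨k, A, B, r, hr, hd, hp, hc⟩ := h
  refine ⟨_, _, _, ∏ i : Hecke.levelCosets N (N * q), r ∣[k] Hecke.levelRep i,
    Hecke.isRep_normAlong_alpha y hr, ?_, ?_, fun g => ?_⟩
  · exact MDifferentiable.prod fun i _ => Mono.mdiff_slash hd k _
  · rw [← Finset.prod_pow, ← Finset.prod_pow, ← Finset.prod_mul_distrib]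
    refine Finset.prod_congr rfl fun i _ => ?_
    have hm : 1 ≤ m := Nat.one_le_iff_ne_zero.mpr (NeZero.ne m)
    rw [← Mono.pow_slash_SL2, ← Mono.pow_slash_SL2, ← ModularForm.mul_slash_SL2,
      show k + ((m - 1 : ℕ) : ℤ) * k = (m : ℤ) * k by rw [Nat.cast_sub hm]; ring, hp]
  · set t : Hecke.levelCosets N (N * q) → Gamma0 N := Quotient.out
    have ht : ∀ i, (t i : Hecke.levelCosets N (N * q)) = i := QuotientGroup.out_eq'
    let δ : Hecke.levelCosets N (N * q) → Gamma0 (N * q) := fun i =>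
      ⟨((t (g • i))⁻¹ * (g * t i) : Gamma0 N).1,
        Subgroup.mem_subgroupOf.mp (Hecke.cocycle_mem t ht g i)⟩
    have key : ∀ i : Hecke.levelCosets N (N * q),
        (r ∣[k] Hecke.levelRep (g • i)) ∣[k] (g : SL(2, ℤ)) =
          ZMod.stdAddChar (φ (Additive.ofMul (δ i))) • (r ∣[k] Hecke.levelRep i) := by
      intro i
      have e : Hecke.levelRep (g • i) * (g : SL(2, ℤ)) = (δ i : SL(2, ℤ)) * Hecke.levelRep i := by
        simp only [Hecke.levelRep_eq, δ, t]
        push_cast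
        group
      rw [← SlashAction.slash_mul, e, SlashAction.slash_mul, hc, ModularForm.SL_smul_slash]
    rw [← Finset.card_univ, MF.prod_slash_SL2_const, ← Equiv.prod_comp (MulAction.toPerm g)]
    simp only [MulAction.toPerm_apply, key]
    rw [Finset.prod_smul, Ihara.corA, Ihara.coresHom_apply]
    congr 1
    exact (map_prod (ZMod.stdAddChar.toMonoidHom)
      (fun i => Multiplicative.ofAdd (φ (Additive.ofMul (δ i)))) Finset.univ).symm

theorem RootData.normBeta {y : Mono.FC (N * q)} {φ : Additive (Gamma0 (N * q)) →+ ZMod m}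
    (h : RootData (N * q) m y φ) :
    RootData N m (Hecke.normAlong (heckeBetaBar ℂ N q) y) (Ihara.corB N q φ) := by
  rw [normAlong_beta, corB_eq_fricke]
  exact h.fricke.normAlpha.fricke

/-- Pushforward along a map on which roots descend. -/
theorem isMonodromy_pushforward (ψ : Mono.FC N →ₐ[ℂ] Mono.FC (N * q))
    {F : (Additive (Gamma0 (N * q)) →+ ZMod m) → (Additive (Gamma0 N) →+ ZMod m)}
    (hF : ∀ y φ, RootData (N * q) m y φ → RootData N m (Hecke.normAlong ψ y) (F φ))
    {D : Divisor ℂ (Mono.FC (N * q))} {φ : Additive (Gamma0 (N * q)) →+ ZMod m}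
    (h : Mono.IsMonodromy (N * q) m D φ) :
    Mono.IsMonodromy N m (Divisor.pushforwardAlong ψ (Hecke.isIntegralAlong ψ) D) (F φ) := by
  obtain ⟨k, A, B, r, x, hr, hx, hD, hd, hp, hc⟩ := h
  obtain ⟨k', A', B', r', hr', hd', hp', hc'⟩ := hF x φ ⟨k, A, B, r, hr, hd, hp, hc⟩
  refine ⟨k', A', B', r', _, hr', ?_, fun v => ?_, hd', hp', hc'⟩
  · let := algebraAlong ψ
    have : Module.Finite (Mono.FC N) (Mono.FC (N * q)) := Hecke.finiteAlong ψ
    have : Module.Free (Mono.FC N) (Mono.FC (N * q)) := Module.Free.of_divisionRing _ _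
    exact Algebra.norm_ne_zero_iff.mpr hx
  · have hmD : ∀ u, ((m : ℤ) • D) u = u.ord x := fun u => by
      rw [Finsupp.smul_apply, smul_eq_mul, hD]
    rw [← smul_eq_mul, ← Finsupp.smul_apply, ← map_zsmul]
    exact Hecke.pushforwardAlong_eq_ord_normAlong _ _ (Hecke.finiteAlong ψ)
      (Hecke.normFormulaAlong _ _) hx hmD v

end Roots

end Fermat.Agent.EigenTwist
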