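import Fermat.Agent.Attach.Model
import Fermat.Agent.EigenTwist.PushRoot
import Fermat.Agent.SquareLevel.Interface

/-!
# The two pushforwards on the integral torsion model are the two transfers

In the torsion models of `J₀(N q)` and `J₀(N)` the two pushforwards act on lattices as the two
transfers of characters.
-/

noncomputable section

open AlgebraicCurve CongruenceSubgroup
open ModularCurve (heckeAlphaBar heckeBetaBar modularFunctionFieldBar JZero)

namespace Fermat.Agent.EigenTwist

open Attach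

local notation "Qbar" => AlgebraicClosure ℚ

variable {N q : ℕ} [NeZero N] [NeZero q]

/-- A pushforward with a given effect on roots has that effect on monodromy characters. -/
theorem torsionEquiv_push {m : ℕ} [NeZero m] (f : JZero (N * q) →+ JZero N)
    (ψQ : modularFunctionFieldBar N →ₐ[Qbar] modularFunctionFieldBar (N * q))
    (hψ : ψQ.toRingHom.IsIntegral)
    (hf : ∀ D, f (Pic0.mk D) =
      Pic0.mk ⟨_, Divisor.pushforwardAlong_mem_degZero ψQ hψ D.2⟩)
    (ψ : Mono.FC N →ₐ[ℂ] Mono.FC (N * q))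
    (hc : ∀ x, Mono.toFC (N * q) (ψQ x) = ψ (Mono.toFC N x))
    {F : (Additive (Gamma0 (N * q)) →+ ZMod m) → (Additive (Gamma0 N) →+ ZMod m)}
    (hF : ∀ y φ, RootData (N * q) m y φ → RootData N m (Hecke.normAlong ψ y) (F φ))
    (x : Pic0.torsion Qbar (modularFunctionFieldBar (N * q)) m)
    (hx : f (x : JZero (N * q)) ∈ Pic0.torsion Qbar (modularFunctionFieldBar N) m) :
    (Mono.torsionEquiv (Mono.placeData N) m ⟨_, hx⟩ : Additive (Gamma0 N) →+ ZMod m) =
      F (Mono.torsionEquiv (Mono.placeData (N * q)) m x : Additive (Gamma0 (N * q)) →+ ZMod m) := by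
  obtain ⟨E, hE⟩ := Pic0.mk_surjective (x : JZero (N * q))
  have hbc : Pic0.mk (Mono.degZeroC (N * q) E) = Mono.baseChange (N * q) (x : JZero (N * q)) := by
    rw [← Mono.baseChange_mk, hE]
  obtain ⟨φ, hφ⟩ := Mono.exists_isMonodromyOn (X0.curveField (N * q)) (Mono.placeData (N * q))
    (Mono.degZeroC (N * q) E) (hbc ▸ Mono.baseChange_mem_torsion x.2)
  rw [Mono.torsionEquiv_eq (Mono.placeData (N * q)) x _ hbc hφ]
  refine Mono.torsionEquiv_eq (Mono.placeData N) _
    ⟨_, Divisor.pushforwardAlong_mem_degZero ψ (Hecke.isIntegralAlong ψ)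
      (Mono.degZeroC (N * q) E).2⟩ ?_ ?_
  · show _ = Mono.baseChange N (f (x : JZero (N * q)))
    rw [← hE, hf, Mono.baseChange_mk]
    refine congrArg Pic0.mk (Subtype.ext ?_)
    show Divisor.pushforwardAlong ψ _ (Mono.degZeroC (N * q) E).1 = _
    rw [Mono.coe_degZeroC, Mono.coe_degZeroC, Hecke.divC_pushforwardAlong ψQ ψ hc]
  · exact isMonodromy_pushforward ψ hF hφ

/-- The lattice map of a pushforward. -/
theorem push_jProjPow (p : ℕ) [NeZero p] (n : ℕ) (f : JZero (N * q) →+ JZero N)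
    (ψQ : modularFunctionFieldBar N →ₐ[Qbar] modularFunctionFieldBar (N * q))
    (hψ : ψQ.toRingHom.IsIntegral)
    (hf : ∀ D, f (Pic0.mk D) =
      Pic0.mk ⟨_, Divisor.pushforwardAlong_mem_degZero ψQ hψ D.2⟩)
    (ψ : Mono.FC N →ₐ[ℂ] Mono.FC (N * q))
    (hc : ∀ x, Mono.toFC (N * q) (ψQ x) = ψ (Mono.toFC N x))
    (F : ∀ (A : Type) [AddCommGroup A],
      (Additive (Gamma0 (N * q)) →+ A) → (Additive (Gamma0 N) →+ A))
    (hFc : ∀ (m : ℕ) φ, F (ZMod m) ((Int.castAddHom (ZMod m)).comp φ) =
      (Int.castAddHom (ZMod m)).comp (F ℤ φ))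
    (hF : ∀ (m : ℕ) [NeZero m] y φ,
      RootData (N * q) m y φ → RootData N m (Hecke.normAlong ψ y) (F (ZMod m) φ))
    (v : clLattice (N * q)) (w : clLattice N) (hvw : w.1 = F ℤ v.1) :
    f (Mono.jProjPow (N * q) p n v) = Mono.jProjPow N p n w := by
  have : NeZero (p ^ n) := ⟨pow_ne_zero n (NeZero.ne p)⟩
  set x := (Mono.torsionEquiv (Mono.placeData (N * q)) (p ^ n)).symm
    (Mono.redClHom (N * q) (p ^ n) v) with hxdef
  have hx : f (x : JZero (N * q)) ∈ Pic0.torsion Qbar (modularFunctionFieldBar N) (p ^ n) := by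
    rw [Pic0.mem_torsion, ← map_zsmul, Pic0.mem_torsion.mp x.2, map_zero]
  have key : (⟨_, hx⟩ : Pic0.torsion Qbar (modularFunctionFieldBar N) (p ^ n)) =
      (Mono.torsionEquiv (Mono.placeData N) (p ^ n)).symm (Mono.redClHom N (p ^ n) w) := by
    apply (Mono.torsionEquiv (Mono.placeData N) (p ^ n)).injective
    refine Subtype.ext ?_
    rw [torsionEquiv_push f ψQ hψ hf ψ hc (hF (p ^ n)) x hx, hxdef, AddEquiv.apply_symm_apply,
      AddEquiv.apply_symm_apply]
    show F _ ((Int.castAddHom (ZMod (p ^ n))).comp v.1) =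
      (Int.castAddHom (ZMod (p ^ n))).comp w.1
    rw [hvw, hFc]
  exact congrArg Subtype.val key

theorem isClHom_corA {A : Type*} [AddCommGroup A] {φ : Additive (Gamma0 (N * q)) →+ A}
    (h : Grp.IsClHom (Gamma0 (N * q)) φ) : Grp.IsClHom (Gamma0 N) (Ihara.corA N q φ) :=
  Ihara.isClHom_coresHom _ h

theorem isClHom_corB {φ : Additive (Gamma0 (N * q)) →+ ℤ}
    (h : Grp.IsClHom (Gamma0 (N * q)) φ) : Grp.IsClHom (Gamma0 N) (Ihara.corB N q φ) := by
  rw [corB_eq_fricke]
  exact frickeLattice.frickeChar_isClHom N _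
    (isClHom_corA (frickeLattice.frickeChar_isClHom (N * q) _ h))

/-- The first transfer on lattices. -/
def latA (N q : ℕ) [NeZero N] [NeZero q] : clLattice (N * q) →+ clLattice N :=
  AddMonoidHom.mk' (fun v => ⟨Ihara.corA N q v.1, isClHom_corA v.2⟩)
    fun v w => Subtype.ext (Ihara.coresHom_add _ v.1 w.1)

/-- The second transfer on lattices. -/
def latB (N q : ℕ) [NeZero N] [NeZero q] : clLattice (N * q) →+ clLattice N :=
  AddMonoidHom.mk' (fun v => ⟨Ihara.corB N q v.1, isClHom_corB v.2⟩)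
    fun v w => Subtype.ext (by
      show Ihara.corB N q (v.1 + w.1) = Ihara.corB N q v.1 + Ihara.corB N q w.1
      simp only [Ihara.corB]
      rw [AddMonoidHom.add_comp, Ihara.coresHom_add])

variable (N q) (p : ℕ) [NeZero p]

/-- In the torsion model the first pushforward is the second transfer. -/
theorem pushAlpha_proj (n : ℕ) (v : clLattice (N * q)) :
    SquareLevel.pushAlpha N q ((torsionModel (N * q) p).proj n v) =
      (torsionModel N p).proj n (latB N q v) := by
  refine push_jProjPow p n _ _ (Hecke.alphaIntegral Qbar N q) (SquareLevel.pushAlpha_mk N q)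
    (heckeAlphaBar ℂ N q) (Hecke.toFC_alpha N q)
    (fun A _ => Ihara.corA N q) (fun m φ => Ihara.coresHom_comp _ (Int.castAddHom (ZMod m)) φ)
    (fun m _ y φ h => h.normAlpha) (frickeLattice (N * q) v) (frickeLattice N (latB N q v)) ?_
  show Hecke.frickeChar N ℤ (Ihara.corB N q v.1) =
    Ihara.corA N q (Hecke.frickeChar (N * q) ℤ v.1)
  rw [corB_eq_fricke, Hecke.frickeChar_frickeChar]

/-- In the torsion model the second pushforward is the first transfer. -/
theorem pushBeta_proj (n : ℕ) (v : clLattice (N * q)) :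
    SquareLevel.pushBeta N q ((torsionModel (N * q) p).proj n v) =
      (torsionModel N p).proj n (latA N q v) := by
  refine push_jProjPow p n _ _ (Hecke.betaIntegral Qbar N q) (SquareLevel.pushBeta_mk N q)
    (heckeBetaBar ℂ N q) (Hecke.toFC_beta N q)
    (fun A _ => Ihara.corB N q)
    (fun m φ => Ihara.coresHom_comp _ (Int.castAddHom (ZMod m))
      (φ.comp (MonoidHom.toAdditive (Ihara.alphaUp N q))))
    (fun m _ y φ h => h.normBeta) (frickeLattice (N * q) v) (frickeLattice N (latA N q v)) ?_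
  show Hecke.frickeChar N ℤ (Ihara.corA N q v.1) =
    Ihara.corB N q (Hecke.frickeChar (N * q) ℤ v.1)
  rw [corB_eq_fricke, Hecke.frickeChar_frickeChar]

end Fermat.Agent.EigenTwist
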