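import Fermat.Agent.EigenTwist.FixedKer
import Fermat.Agent.EigenTwist.Pushforward
import Fermat.Agent.SquareLevel.GluePush

/-!
# Non-unipotence at `q` for eigencharacters killed by both transfers

An eigencharacter of `Γ₀(N q)`, `q ‖ N`, killed by both transfers to level `N` gives a
representation which is not unipotent on inertia at `q` (given the geometric input).
-/

noncomputable section

open Polynomial CongruenceSubgroup

namespace Fermat.Agent.EigenTwist

open Attach

local notation "Qbar" => AlgebraicClosure ℚ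
local notation "GQ" => (AlgebraicClosure ℚ ≃ₐ[ℚ] AlgebraicClosure ℚ)

/-! ## The lattice of characters spans the characters over any field -/

section Lattice

variable {M : ℕ} [NeZero M] (L : Type) [Field L]

/-- The integral characters of the lattice, with values in `L`. -/
def latChar (M : ℕ) [NeZero M] : clLattice M →+ (Additive (Gamma0 M) →+ L) :=
  (AddMonoidHom.compHom (Int.castAddHom L)).comp (clLattice M).subtype.toAddMonoidHom

/-- A basis of the lattice gives a basis of the characters over any field. -/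
theorem latChar_basis {ι : Type} [Fintype ι] (b : Module.Basis ι ℤ (clLattice M)) :
    LinearIndependent L (fun i => latChar L M (b i)) ∧
      ∀ y : Additive (Gamma0 M) →+ L, Grp.IsClHom (Gamma0 M) y →
        y ∈ Submodule.span L (Set.range fun i => latChar L M (b i)) := by
  classical
  obtain ⟨γ, e, he, -, hdec⟩ := Grp.exists_clBasis M
  let E : Fin (Grp.clRank (Gamma0 M)) → clLattice M := fun k => ⟨e k, he k⟩
  have hb : ∀ i, b i = ∑ k, (b i).1 (Additive.ofMul (γ k)) • E k := fun i => Subtype.ext <| by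
    refine AddMonoidHom.ext fun x => ?_
    rw [AddSubmonoidClass.coe_finsetSum, AddMonoidHom.finsetSum_apply, hdec ℤ _ (b i).2 x]
    exact Finset.sum_congr rfl fun k _ => mul_comm _ _
  constructor
  · refine Fintype.linearIndependent_iff.mpr fun v hv j => ?_
    have hev : ∀ k, ∑ i, v i * (((b i).1 (Additive.ofMul (γ k)) : ℤ) : L) = 0 := fun k => by
      have h := DFunLike.congr_fun hv (Additive.ofMul (γ k))
      rw [AddMonoidHom.finsetSum_apply, AddMonoidHom.zero_apply] at h
      exact h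
    have hδ : ∀ i, ∑ k, (((b i).1 (Additive.ofMul (γ k)) : ℤ) : L) * ((b.repr (E k) j : ℤ) : L) =
        if i = j then 1 else 0 := fun i => by
      have h := congrArg (fun z => (b.repr z j : ℤ)) (hb i)
      simp only [map_sum, map_zsmul, Finsupp.finsetSum_apply, Finsupp.smul_apply, smul_eq_mul,
        Module.Basis.repr_self, Finsupp.single_apply] at h
      have h' := congrArg (fun z : ℤ => (z : L)) h.symm
      push_cast at h'
      exact h'
    calc v j = ∑ i, v i * (if i = j then (1 : L) else 0) := by simp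
      _ = ∑ k, (∑ i, v i * (((b i).1 (Additive.ofMul (γ k)) : ℤ) : L)) *
            ((b.repr (E k) j : ℤ) : L) := by
        simp only [← hδ, Finset.mul_sum, Finset.sum_mul, ← mul_assoc]
        exact Finset.sum_comm
      _ = 0 := by simp [hev]
  · intro y hy
    have hE : ∀ k, latChar L M (E k) ∈ Submodule.span L (Set.range fun i => latChar L M (b i)) :=
      fun k => by
        rw [← b.sum_repr (E k), map_sum]
        refine Submodule.sum_mem _ fun i _ => ?_
        rw [map_zsmul, ← Int.cast_smul_eq_zsmul L]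
        exact Submodule.smul_mem _ _ (Submodule.subset_span ⟨i, rfl⟩)
    have e : y = ∑ k, y (Additive.ofMul (γ k)) • latChar L M (E k) := AddMonoidHom.ext fun x => by
      rw [AddMonoidHom.finsetSum_apply, hdec L y hy x]
      refine Finset.sum_congr rfl fun k _ => ?_
      rw [AddMonoidHom.smul_apply, zsmul_eq_mul, smul_eq_mul, mul_comm]
      rfl
    rw [e]
    exact Submodule.sum_mem _ fun k _ => Submodule.smul_mem _ _ (hE k)

/-- A map compatible with a map of lattices, in coordinates. -/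
theorem map_coords {H H' : Type} [AddCommGroup H] [AddCommGroup H'] {V V' : Type}
    [AddCommGroup V] [Module L V] [AddCommGroup V'] [Module L V'] {ι ι' : Type} [Fintype ι]
    [DecidableEq ι] [Fintype ι'] (b : Module.Basis ι ℤ H) (b' : Module.Basis ι' ℤ H') (φ : H →+ H')
    (Φ : H →+ V) (Φ' : H' →+ V') (F : V →ₗ[L] V') (hF : ∀ h, F (Φ h) = Φ' (φ h)) (v : ι → L) :
    F (∑ i, v i • Φ (b i)) =
      ∑ j, ((LinearMap.toMatrix b b' φ.toIntLinearMap).map (Int.castRingHom L)).mulVec v j •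
        Φ' (b' j) := by
  have hφ : ∀ i, Φ' (φ (b i)) =
      ∑ j, ((LinearMap.toMatrix b b' φ.toIntLinearMap j i : ℤ) : L) • Φ' (b' j) := fun i => by
    conv_lhs => rw [← b'.sum_repr (φ (b i))]
    rw [map_sum]
    refine Finset.sum_congr rfl fun j _ => ?_
    rw [map_zsmul, ← Int.cast_smul_eq_zsmul L, LinearMap.toMatrix_apply]
    rfl
  rw [map_sum]
  simp only [map_smul, hF, hφ, Finset.smul_sum, smul_smul, Matrix.mulVec, dotProduct,
    Matrix.map_apply, Finset.sum_smul]
  rw [Finset.sum_comm]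
  refine Finset.sum_congr rfl fun j _ => Finset.sum_congr rfl fun i _ => ?_
  rw [mul_comm]
  rfl

end Lattice

/-! ## Equivariant maps in matrices -/

section Push

variable {M N : ℕ} [NeZero M] [NeZero N] {p : ℕ} [Fact p.Prime]
  (MM : TorsionModel M p) (MN : TorsionModel N p)

/-- The matrix of a map of lattices. -/
def pushMat (φ : MM.H →+ MN.H) : Matrix (Fin MN.rk) (Fin MM.rk) ℤ :=
  LinearMap.toMatrix MM.bas MN.bas φ.toIntLinearMap

omit [Fact p.Prime] in
/-- A map of Jacobians given on lattices by `φ` is given on points by its matrix. -/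
theorem push_pt (f : ModularCurve.JZero M →+ ModularCurve.JZero N) (φ : MM.H →+ MN.H)
    (hf : ∀ n v, f (MM.proj n v) = MN.proj n (φ v)) (n : ℕ) (v : Fin MM.rk → ℤ) :
    f (MM.pt n v) = MN.pt n ((pushMat MM MN φ).mulVec v) := by
  show f (MM.proj n _) = MN.proj n _
  rw [hf]
  congr 1
  apply MN.bas.equivFun.injective
  show _ = MN.bas.equivFun (MN.bas.equivFun.symm _)
  rw [LinearEquiv.apply_symm_apply]
  conv_rhs => rw [show v = MM.bas.equivFun (MM.bas.equivFun.symm v) from
    (LinearEquiv.apply_symm_apply _ v).symm]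
  exact (LinearMap.toMatrix_mulVec_repr MM.bas MN.bas φ.toIntLinearMap _).symm

/-- The matrix of a Galois equivariant map commutes with the `p`-adic Galois matrices. -/
theorem pushMat_commute (f : ModularCurve.JZero M →+ ModularCurve.JZero N) (φ : MM.H →+ MN.H)
    (hf : ∀ n v, f (MM.proj n v) = MN.proj n (φ v))
    (heq : ∀ (σ : GQ) z, f (σ • z) = σ • f z) (g : GQ) :
    (pushMat MM MN φ).map (Int.castRingHom ℤ_[p]) * MM.repPadic g =
      MN.repPadic g * (pushMat MM MN φ).map (Int.castRingHom ℤ_[p]) := by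
  ext i j
  refine PadicInt.ext_of_toZModPow.mp fun n => ?_
  have h : ∀ v, MN.redVec n ((pushMat MM MN φ).mulVec ((MM.galMat n g).mulVec v)) =
      MN.redVec n ((MN.galMat n g).mulVec ((pushMat MM MN φ).mulVec v)) := fun v => by
    rw [← MN.pt_eq_iff, ← push_pt MM MN f φ hf, ← MM.galMat_spec, heq, push_pt MM MN f φ hf,
      MN.galMat_spec]
  have h' := congrFun (h (Pi.single j 1)) i
  rw [Matrix.mulVec_mulVec, Matrix.mulVec_mulVec, Matrix.mulVec_single_one,
    Matrix.mulVec_single_one] at h'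
  simp only [Matrix.mul_apply, map_sum, map_mul, Matrix.map_apply, eq_intCast, map_intCast]
  refine Eq.trans ?_ (h'.trans ?_)
  · show _ = (((pushMat MM MN φ * MM.galMat n g) i j : ℤ) : ZMod (p ^ n))
    rw [Matrix.mul_apply, Int.cast_sum]
    refine Finset.sum_congr rfl fun k _ => ?_
    rw [Int.cast_mul]
    exact congrArg _ (MM.toZModPow_padicEntry g k j n)
  · show (((MN.galMat n g * pushMat MM MN φ) i j : ℤ) : ZMod (p ^ n)) = _
    rw [Matrix.mul_apply, Int.cast_sum]
    refine Finset.sum_congr rfl fun k _ => ?_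
    rw [Int.cast_mul]
    exact congrArg (· * _) (MN.toZModPow_padicEntry g i k n).symm

end Push

/-! ## Characters from eigenvectors -/

/-- The coordinates of an eigenvector of the transfer at a good prime `ℓ` are an eigenvector of the
matrix of `T_ℓ`. -/
theorem mulVec_matO_of_eigen {M : ℕ} [NeZero M] {p : ℕ} [NeZero p] {S : Set ℕ}
    (hS : ∀ r, r.Prime → r ∣ M → r ∈ S) {O L : Type} [CommRing O] [Field L] (jL : O →+* L)
    {y : Additive (Gamma0 M) →+ L} {v₀ : Fin (torsionModel M p).rk → L}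
    (hv₀y : ∑ i, v₀ i • latChar L M ((torsionModel M p).bas i) = y) {ℓ : ℕ} [NeZero ℓ]
    (hℓ : ℓ.Prime) (hℓM : ¬ ℓ ∣ M) (hℓS : ℓ ∉ S) {a : O}
    (hT : Hecke.perTransfer M ℓ L y = jL a • y) :
    (((torsionModel M p).matO O hS (CuspForm.heckeAlgebra.T hℓ hℓM hℓS)).map jL).mulVec v₀ =
      jL a • v₀ := by
  obtain ⟨hindM, -⟩ := latChar_basis L ((torsionModel M p).bas : Module.Basis _ ℤ (clLattice M))
  let F := Hecke.transferLin (Hecke.upperConj M ℓ) L L
  let φ : clLattice M →+ clLattice M :=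
    (latticeHecke M (CuspForm.heckeAlgebra.T hℓ hℓM hℓM)).toAddMonoidHom
  have hF : ∀ h, F (latChar L M h) = latChar L M (φ h) := fun h => by
    show Hecke.perTransfer M ℓ L ((Int.castAddHom L).comp h.1) =
      (Int.castAddHom L).comp (latticeHecke M _ h).1
    rw [latticeHecke_T M hℓ hℓM]
    exact Hecke.transferHom_comp (Hecke.upperConj M ℓ) (Int.castAddHom L) h.1
  have h1 := map_coords L (torsionModel M p).bas (torsionModel M p).bas φ (latChar L M)
    (latChar L M) F hF v₀
  have h1' : ∑ i, (jL a * v₀ i) • latChar L M ((torsionModel M p).bas i) =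
      F (∑ i, v₀ i • latChar L M ((torsionModel M p).bas i)) := by
    refine Eq.trans ?_ (congrArg F hv₀y).symm
    refine Eq.trans ?_ hT.symm
    rw [← hv₀y, Finset.smul_sum]
    simp only [smul_smul]
  replace h1 := h1'.trans h1
  have h2 := Fintype.linearIndependent_iff.mp hindM
    (fun i => jL a * v₀ i - ((LinearMap.toMatrix (torsionModel M p).bas (torsionModel M p).bas
      φ.toIntLinearMap).map (Int.castRingHom L)).mulVec v₀ i)
    (by simp only [sub_smul, Finset.sum_sub_distrib]; exact sub_eq_zero.mpr h1)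
  funext i
  have h3 := (sub_eq_zero.mp (h2 i)).symm
  refine Eq.trans ?_ h3
  refine congrArg (fun X : Matrix (Fin (torsionModel M p).rk) (Fin (torsionModel M p).rk) L =>
    X.mulVec v₀ i) ?_
  ext r s
  exact map_intCast jL _

/-- A common eigenvector over `L` of the Hecke operators at good primes, with eigenvalues in `O`,
gives a character of the Hecke algebra with values in `O`. -/
theorem exists_char_of_eigen {M : ℕ} [NeZero M] {p : ℕ} (MM : TorsionModel M p) {S : Set ℕ}
    (hS : ∀ r, r.Prime → r ∣ M → r ∈ S) {O L : Type} [CommRing O] [Field L] {jL : O →+* L}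
    (hjL : Function.Injective jL) {v₀ : Fin MM.rk → L} (hv₀ : v₀ ≠ 0) (a : ℕ → O)
    (hT : ∀ (ℓ : ℕ) (hℓ : ℓ.Prime) (hℓM : ¬ ℓ ∣ M) (hℓS : ℓ ∉ S),
      ((MM.matO O hS (CuspForm.heckeAlgebra.T hℓ hℓM hℓS)).map jL).mulVec v₀ = jL (a ℓ) • v₀) :
    ∃ θ : CuspForm.heckeAlgebra M 2 S →+* O,
      (∀ s, ((MM.matO O hS s).map jL).mulVec v₀ = jL (θ s) • v₀) ∧
      ∀ (ℓ : ℕ) (hℓ : ℓ.Prime) (hℓM : ¬ ℓ ∣ M) (hℓS : ℓ ∉ S),
        θ (CuspForm.heckeAlgebra.T hℓ hℓM hℓS) = a ℓ := by
  let ψ : CuspForm.heckeAlgebra M 2 S →+* Matrix (Fin MM.rk) (Fin MM.rk) L :=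
    jL.mapMatrix.comp (MM.matO O hS)
  let C : Subring (Matrix (Fin MM.rk) (Fin MM.rk) L) :=
    { carrier := {X | ∃ c : O, X.mulVec v₀ = jL c • v₀}
      mul_mem' := by
        rintro X Y ⟨c, hc⟩ ⟨d, hd⟩
        exact ⟨c * d, by rw [← Matrix.mulVec_mulVec, hd, Matrix.mulVec_smul, hc, smul_smul,
          ← map_mul, mul_comm d c]⟩
      one_mem' := ⟨1, by simp⟩
      add_mem' := by
        rintro X Y ⟨c, hc⟩ ⟨d, hd⟩
        exact ⟨c + d, by rw [Matrix.add_mulVec, hc, hd, map_add, add_smul]⟩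
      zero_mem' := ⟨0, by simp⟩
      neg_mem' := by
        rintro X ⟨c, hc⟩
        exact ⟨-c, by rw [Matrix.neg_mulVec, hc, map_neg, neg_smul]⟩ }
  have hall : ∀ s, ψ s ∈ C := forall_mem_of_T_mem (fun r hr hr' => hS r hr' hr) ψ C
    fun ℓ hℓ hℓM hℓS => ⟨a ℓ, hT ℓ hℓ hℓM hℓS⟩
  choose c hc using hall
  have huniq : ∀ {x z : O}, jL x • v₀ = jL z • v₀ → x = z := fun h =>
    hjL (smul_left_injective L hv₀ h)
  refine ⟨{ toFun := c
            map_one' := huniq (by rw [← hc, map_one, Matrix.one_mulVec, map_one, one_smul])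
            map_mul' := fun s t => huniq (by
              rw [← hc, map_mul, ← Matrix.mulVec_mulVec, hc, Matrix.mulVec_smul, hc, smul_smul,
                ← map_mul, mul_comm (c t) (c s)])
            map_zero' := huniq (by rw [← hc, map_zero, Matrix.zero_mulVec, map_zero, zero_smul])
            map_add' := fun s t => huniq (by
              rw [← hc, map_add, Matrix.add_mulVec, hc, hc, ← add_smul, ← map_add]) },
    hc, fun ℓ hℓ hℓM hℓS => huniq ((hc _).symm.trans (hT ℓ hℓ hℓM hℓS))⟩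

/-! ## The theorem -/

variable {N q : ℕ} [NeZero N] [NeZero q] {p : ℕ} [Fact p.Prime]

/-- An integral vector fixed by inertia and killed by both pushforwards is zero. -/
theorem eq_zero_of_inertia_fixed (hgeo : SquareLevel.InertiaFixedBounded N q) (hq : q.Prime)
    (hqp : q ≠ p) [NeZero p] {A : ValuationSubring Qbar} (hAq : A.LiesOverPrime q)
    {w : Fin (torsionModel (N * q) p).rk → ℤ_[p]}
    (hwfix : ∀ σ ∈ A.inertiaSubgroupIn ℚ, ((torsionModel (N * q) p).repPadic σ).mulVec w = w)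
    (hwA : ((pushMat (torsionModel (N * q) p) (torsionModel N p) (latB N q)).map
      (Int.castRingHom ℤ_[p])).mulVec w = 0)
    (hwB : ((pushMat (torsionModel (N * q) p) (torsionModel N p) (latA N q)).map
      (Int.castRingHom ℤ_[p])).mulVec w = 0) : w = 0 := by
  classical
  revert w
  set MM := torsionModel (N * q) p with hMM
  set MN := torsionModel N p with hMN
  intro w hwfix hwA hwB
  obtain ⟨C0, hC, hbound⟩ := hgeo A hAq
  refine funext fun i => ?_
  refine (mul_eq_zero.mp (?_ : (C0 : ℤ_[p]) * _ = 0)).resolve_left (Nat.cast_ne_zero.mpr hC.ne')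
  refine PadicInt.ext_of_toZModPow.mp fun n => ?_
  rw [map_zero, map_mul, map_natCast]
  let u : Fin MM.rk → ℤ := fun l => ((PadicInt.toZModPow n (w l)).val : ℤ)
  have hu' : ∀ l, ((u l : ℤ) : ZMod (p ^ n)) = PadicInt.toZModPow n (w l) := fun l => by
    have : NeZero (p ^ n) := ⟨pow_ne_zero _ (Fact.out : p.Prime).ne_zero⟩
    simp [u]
  have hfix : ∀ σ ∈ A.inertiaSubgroupIn ℚ, σ • MM.pt n u = MM.pt n u := by
    intro σ hσ
    rw [MM.galMat_spec, MM.pt_eq_iff, MM.redVec_mulVec]
    show (MM.rep n σ).mulVec (MM.redVec n u) = MM.redVec n u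
    rw [show MM.redVec n u = fun l => PadicInt.toZModPow n (w l) from funext hu',
      ← MM.repPadic_mod n σ]
    funext l
    have h := congrArg (fun x => PadicInt.toZModPow n (x l)) (hwfix σ hσ)
    rw [RingHom.map_mulVec] at h
    exact h
  have hzero : ∀ (f : ModularCurve.JZero (N * q) →+ ModularCurve.JZero N)
      (φ : MM.H →+ MN.H), (∀ n v, f (MM.proj n v) = MN.proj n (φ v)) →
      ((pushMat MM MN φ).map (Int.castRingHom ℤ_[p])).mulVec w = 0 → f (MM.pt n u) = 0 := by
    intro f φ hf hφ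
    rw [push_pt MM MN f φ hf, MN.pt_eq_zero_iff]
    intro k
    rw [← ZMod.intCast_zmod_eq_zero_iff_dvd]
    have h := congrArg (PadicInt.toZModPow n) (congrFun hφ k)
    simp only [Pi.zero_apply, map_zero, Matrix.mulVec, dotProduct, map_sum, map_mul,
      Matrix.map_apply, eq_intCast, map_intCast] at h
    rw [← h]
    simp only [Matrix.mulVec, dotProduct, Int.cast_sum, Int.cast_mul, hu']
  have h0 := hbound (p ^ n) (fun h => hqp
    ((Nat.prime_dvd_prime_iff_eq hq Fact.out).mp (hq.dvd_of_dvd_pow h))) _ (MM.pt_torsion n u) hfix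
    (hzero _ _ (pushAlpha_proj N q p) hwA)
    (hzero _ _ (pushBeta_proj N q p) hwB)
  rw [← map_nsmul, MM.pt_eq_zero_iff] at h0
  have h1 := (ZMod.intCast_zmod_eq_zero_iff_dvd _ _).mpr (h0 i)
  rw [Pi.smul_apply, nsmul_eq_mul, Int.cast_mul, Int.cast_natCast, hu'] at h1
  exact h1

/-- **Non-unipotence at `q`.** -/
theorem not_unipotent_of_qnew (hgeo : SquareLevel.InertiaFixedBounded N q) (hq : q.Prime)
    (hqp : q ≠ p)
    (GM : TorsionGalois (N * q) p) {S : Finset ℕ} (hpS : p ∈ S)
    (hMS : ∀ r : ℕ, r.Prime → r ∣ N * q → r ∈ S)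
    {O : Type} [CommRing O] [IsDomain O] [IsDiscreteValuationRing O]
    [IsAdicComplete (IsLocalRing.maximalIdeal O) O] [CharZero O]
    (hp : (p : O) ∈ IsLocalRing.maximalIdeal O)
    {O2 : Type} [CommRing O2] [IsDomain O2] [IsDiscreteValuationRing O2]
    [IsAdicComplete (IsLocalRing.maximalIdeal O2) O2] [Algebra O O2]
    [IsLocalHom (algebraMap O O2)] (hinj : Function.Injective (algebraMap O O2))
    (ρ : GaloisRepAdic O2)
    {L : Type} [Field L] (jL : O →+* L) (hjL : Function.Injective jL)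
    (y : Additive (Gamma0 (N * q)) →+ L) (hy : Grp.IsClHom (Gamma0 (N * q)) y) (hy0 : y ≠ 0)
    (hA : Ihara.corA N q y = 0) (hB : Ihara.corB N q y = 0) (a : ℕ → O)
    (hT : ∀ (ℓ : ℕ) [NeZero ℓ], ℓ.Prime → ℓ ∉ S →
      Hecke.perTransfer (N * q) ℓ L y = jL (a ℓ) • y)
    (hρ : ∀ ℓ : ℕ, ℓ.Prime → ℓ ∉ S → ∀ A : ValuationSubring Qbar, A.LiesOverPrime ℓ →
      ∀ σ : GQ, A.IsFrobeniusAt σ ℓ →
        LinearMap.charpoly (ρ.ρ σ) =
          X ^ 2 - C (algebraMap O O2 (a ℓ)) * X + C ((ℓ : O2))) :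
    ¬ ρ.IsUnipotentOnInertiaAt q := by
  classical
  intro hu
  have : NeZero p := ⟨(Fact.out : p.Prime).ne_zero⟩
  have hMS' : ∀ r, r.Prime → r ∣ N * q → r ∈ (↑S : Set ℕ) := hMS
  set MM := torsionModel (N * q) p with hMM
  set MN := torsionModel N p with hMN
  obtain ⟨-, hspanM⟩ := latChar_basis L (MM.bas : Module.Basis _ ℤ (clLattice (N * q)))
  obtain ⟨hindN, -⟩ := latChar_basis L (MN.bas : Module.Basis _ ℤ (clLattice N))
  obtain ⟨v₀, hv₀y⟩ := (Submodule.mem_span_range_iff_exists_fun L).mp (hspanM y hy)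
  have hv₀ : v₀ ≠ 0 := fun h => hy0 (by rw [← hv₀y, h]; simp)
  -- the two maps kill the coordinates
  have hker : ∀ (φ : clLattice (N * q) →+ clLattice N)
      (F : (Additive (Gamma0 (N * q)) →+ L) →ₗ[L] (Additive (Gamma0 N) →+ L)),
      (∀ h, F (latChar L (N * q) h) = latChar L N (φ h)) → F y = 0 →
      ((pushMat MM MN φ).map (Int.castRingHom L)).mulVec v₀ = 0 := fun φ F hF hFy => by
    have h := map_coords L MM.bas MN.bas φ (latChar L (N * q)) (latChar L N) F hF v₀
    exact funext (Fintype.linearIndependent_iff.mp hindN _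
      (h.symm.trans ((congrArg F hv₀y).trans hFy)))
  have hkA := hker (latA N q)
    { toFun := fun x => Ihara.corA N q x
      map_add' := Ihara.coresHom_add _
      map_smul' := fun c x => Ihara.coresHom_smul _ c x }
    (fun h => Ihara.coresHom_comp _ (Int.castAddHom L) h.1) hA
  have hkB := hker (latB N q)
    { toFun := fun x => Ihara.corB N q x
      map_add' := fun x x' => by
        simp only [Ihara.corB]; rw [AddMonoidHom.add_comp, Ihara.coresHom_add]
      map_smul' := fun c x => Ihara.coresHom_smul _ c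
        (x.comp (MonoidHom.toAdditive (Ihara.alphaUp N q))) }
    (fun h => Ihara.coresHom_comp _ (Int.castAddHom L)
      (h.1.comp (MonoidHom.toAdditive (Ihara.alphaUp N q)))) hB
  -- the character
  have hTv : ∀ (ℓ : ℕ) (hℓ : ℓ.Prime) (hℓM : ¬ ℓ ∣ N * q) (hℓS : ℓ ∉ (↑S : Set ℕ)),
      ((MM.matO O hMS' (CuspForm.heckeAlgebra.T hℓ hℓM hℓS)).map jL).mulVec v₀ =
        jL (a ℓ) • v₀ := fun ℓ hℓ hℓM hℓS => by
    have : NeZero ℓ := ⟨hℓ.ne_zero⟩
    exact mulVec_matO_of_eigen hMS' jL hv₀y hℓ hℓM hℓS (hT ℓ hℓ hℓS)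
  obtain ⟨θ, hc, hθT⟩ := exists_char_of_eigen MM hMS' hjL hv₀ a hTv
  have hθρ : ∀ (ℓ : ℕ) (hℓ : ℓ.Prime) (hℓM : ¬ ℓ ∣ N * q) (hℓS : ℓ ∉ (↑S : Set ℕ)),
      ∀ A : ValuationSubring Qbar, A.LiesOverPrime ℓ → ∀ σ : GQ, A.IsFrobeniusAt σ ℓ →
        LinearMap.charpoly (ρ.ρ σ) = X ^ 2 -
          Polynomial.C (algebraMap O O2 (θ (CuspForm.heckeAlgebra.T hℓ hℓM hℓS))) * X +
            Polynomial.C ((ℓ : O2)) := fun ℓ hℓ hℓM hℓS A hA σ hσ => by
    rw [hθT ℓ hℓ hℓM hℓS]
    exact hρ ℓ hℓ hℓS A hA σ hσ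
  -- the linear forms: the two pushforwards
  let PA := (pushMat MM MN (latA N q)).map (Int.castRingHom ℤ_[p])
  let PB := (pushMat MM MN (latB N q)).map (Int.castRingHom ℤ_[p])
  let P : Matrix (Fin MN.rk ⊕ Fin MN.rk) (Fin MM.rk) ℤ_[p] := Matrix.fromRows PA PB
  have hP : ∀ g, ∃ R : Matrix (Fin MN.rk ⊕ Fin MN.rk) (Fin MN.rk ⊕ Fin MN.rk) ℤ_[p],
      P * MM.repPadic g = R * P := fun g => by
    refine ⟨Matrix.fromBlocks (MN.repPadic g) 0 0 (MN.repPadic g), ?_⟩
    rw [Matrix.fromRows_mul, Matrix.fromBlocks_mul_fromRows, Matrix.zero_mul, Matrix.zero_mul,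
      add_zero, zero_add,
      pushMat_commute MM MN _ (latA N q) (pushBeta_proj N q p) (SquareLevel.pushBeta_smul N q) g,
      pushMat_commute MM MN _ (latB N q) (pushAlpha_proj N q p) (SquareLevel.pushAlpha_smul N q) g]
  have hv₀P : ((P.map (padicMap p (IsLocalRing.maximalIdeal O) hp)).map jL).mulVec v₀ = 0 := by
    funext i
    rcases i with i | i
    · refine Eq.trans ?_ (congrFun hkA i)
      simp [P, PA, Matrix.mulVec, dotProduct]
    · refine Eq.trans ?_ (congrFun hkB i)
      simp [P, PB, Matrix.mulVec, dotProduct]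
  obtain ⟨A, hAq⟩ := Gal.exists_liesOverPrime hq
  obtain ⟨w, hwfix, hw0, hwP⟩ := exists_fixed_padic_ker MM GM hpS hMS' hp hinj θ ρ hθρ hq hqp hu
    hAq P hP jL hjL v₀ hv₀ hc hv₀P
  exact hw0 (eq_zero_of_inertia_fixed hgeo hq hqp hAq hwfix
    (funext fun k => congrFun hwP (Sum.inr k)) (funext fun k => congrFun hwP (Sum.inl k)))

end Fermat.Agent.EigenTwist
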