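import Mathlib.Algebra.Field.ZMod
import Mathlib.NumberTheory.MulChar.Basic
import Fermat.Agent.EigenTwist.Natural

/-!
# Twists of characters of `Γ(D)`

The twist `∑ ψ(a) (translation by a/q)` of a character with nebentypus: the nebentypus drops at
`q` and Hecke eigenvalues are twisted.
-/

noncomputable section

namespace Fermat.Agent.EigenTwist

open scoped MatrixGroups
open CongruenceSubgroup Fermat.Agent.Grp Fermat.Agent.Ihara

section Linear

variable {D : ℕ} {R : Type*} [CommRing R]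

theorem val_add (x y : Additive (Gamma D) →+ R) (X : Mat2) (γ : SL(2, ℤ)) :
    val (x + y) X γ = val x X γ + val y X γ := by
  by_cases h : ∃ δ : Gamma D, Rel X γ δ.1
  · simp only [val, dif_pos h, AddMonoidHom.add_apply]
  · simp only [val, dif_neg h, add_zero]

theorem val_smul_char (c : R) (x : Additive (Gamma D) →+ R) (X : Mat2) (γ : SL(2, ℤ)) :
    val (c • x) X γ = c * val x X γ := by
  by_cases h : ∃ δ : Gamma D, Rel X γ δ.1
  · simp only [val, dif_pos h, AddMonoidHom.smul_apply, smul_eq_mul]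
  · simp only [val, dif_neg h, mul_zero]

variable [NeZero D] {ℓ : ℕ} [NeZero ℓ] (hℓD : Nat.Coprime ℓ D)

/-- `opD` as a linear map. -/
def opDLin : Module.End R (Additive (Gamma D) →+ R) where
  toFun := opD hℓD
  map_add' x y := by
    rw [opD, show upChar hℓD (x + y) = upChar hℓD x + upChar hℓD y from
      Hecke.addChar_ext fun γ => val_add x y _ _, coresHom_add]
    rfl
  map_smul' c x := by
    rw [opD, show upChar hℓD (c • x) = c • upChar hℓD x from
      Hecke.addChar_ext fun γ => val_smul_char c x _ _, coresHom_smul]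
    rfl

@[simp] theorem opDLin_apply (x : Additive (Gamma D) →+ R) : opDLin hℓD x = opD hℓD x := rfl

end Linear

/-- Translation by `a/q`. -/
abbrev trans (q : ℕ) (a : ℤ) : Mat2 := !![(q : ℤ), a; 0, (q : ℤ)]

theorem det_trans (q : ℕ) (a : ℤ) : (trans q a).det = (q : ℤ) ^ 2 := by
  rw [Matrix.det_fin_two_of]; ring

theorem det_trans_ne {q : ℕ} [NeZero q] (a : ℤ) : (trans q a).det ≠ 0 := by
  rw [det_trans]; exact pow_ne_zero _ (by exact_mod_cast NeZero.ne q)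

theorem natAbs_det_trans (q : ℕ) (a : ℤ) : (trans q a).det.natAbs = q ^ 2 := by
  rw [det_trans, Int.natAbs_pow, Int.natAbs_natCast]

theorem dvd_trans_level {D q D' : ℕ} (h : D * q ^ 2 ∣ D') (a : ℤ) :
    D * (trans q a).det.natAbs ∣ D' := by rwa [natAbs_det_trans]

/-- Conjugation by elements of `Γ₀(L)` acts on `x` through `χ` of the lower right entry. -/
def IsNeb {D : ℕ} {R : Type*} [CommRing R] (L : ℕ) (χ : ℤ → R)
    (x : Additive (Gamma D) →+ R) : Prop :=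
  ∀ g ∈ Gamma0 L, ∀ γ δ : Gamma D, δ.1 = g * γ.1 * g⁻¹ →
    x (Additive.ofMul δ) = χ (g.1 1 1) * x (Additive.ofMul γ)

section Neb

variable {D : ℕ} {R : Type*} [CommRing R] {L : ℕ} {χ : ℤ → R} {x : Additive (Gamma D) →+ R}

theorem IsNeb.val_coe_mul (hx : IsNeb L χ x) {g : SL(2, ℤ)} (hg : g ∈ Gamma0 L) {X : Mat2}
    (hX : X.det ≠ 0) {γ : SL(2, ℤ)} (h : ∃ δ : Gamma D, Rel X γ δ.1) :
    val x (g.1 * X) γ = χ (g.1 1 1) * val x X γ := by
  obtain ⟨δ, hδ⟩ := h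
  have hmem : g * δ.1 * g⁻¹ ∈ Gamma D := (Gamma_normal D).conj_mem _ δ.2 g
  rw [val_eq hX hδ, val_eq (by rw [Matrix.det_mul, g.2, one_mul]; exact hX)
    (δ := ⟨_, hmem⟩) (hδ.comp (rel_coe g δ.1))]
  exact hx g hg δ ⟨_, hmem⟩ rfl

theorem IsNeb.val_trans_congr (hx : IsNeb L χ x) (hχ1 : χ 1 = 1) {q : ℕ} [NeZero q] {D' : ℕ}
    (hD : D * q ^ 2 ∣ D') {γ : SL(2, ℤ)} (hγ : γ ∈ Gamma D') {a b : ℤ} (hab : (q : ℤ) ∣ b - a) :
    val x (trans q b) γ = val x (trans q a) γ := by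
  obtain ⟨k, hk⟩ := hab
  have e : trans q b = (ModularGroup.T ^ k : SL(2, ℤ)).1 * trans q a := by
    rw [ModularGroup.coe_T_zpow, Matrix.mul_fin_two]
    simp only [mul_zero, zero_mul, add_zero, one_mul, zero_add]
    rw [show a + k * (q : ℤ) = b by linear_combination -hk]
  have hT : (ModularGroup.T ^ k : SL(2, ℤ)) ∈ Gamma0 L := by
    rw [Gamma0_mem, ModularGroup.coe_T_zpow]; simp
  rw [e, hx.val_coe_mul hT (det_trans_ne a) (exists_rel (det_trans_ne a) (dvd_trans_level hD a) hγ),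
    ModularGroup.coe_T_zpow]
  simp [hχ1]

end Neb

section Twist

variable {D q : ℕ} [Fact q.Prime] {R : Type*} [CommRing R] (ψ : MulChar (ZMod q) R)

theorem val_prime_ne_zero : (q : ℤ) ≠ 0 := by exact_mod_cast (Fact.out : q.Prime).ne_zero

/-- The twist of `x` by `ψ`. -/
def twist (x : Additive (Gamma D) →+ R) {D' : ℕ} (hD : D * q ^ 2 ∣ D') :
    Additive (Gamma D') →+ R :=
  ∑ a : ZMod q, ψ a • pull x (trans q a.val) (det_trans_ne _) (dvd_trans_level hD _)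

theorem twist_apply (x : Additive (Gamma D) →+ R) {D' : ℕ} (hD : D * q ^ 2 ∣ D')
    (γ : Gamma D') :
    twist ψ x hD (Additive.ofMul γ) = ∑ a : ZMod q, ψ a * val x (trans q a.val) γ.1 := by
  rw [twist, AddMonoidHom.finsetSum_apply]
  rfl

theorem isClHom_twist {x : Additive (Gamma D) →+ R} (h : IsClHom (Gamma D) x) {D' : ℕ}
    (hD : D * q ^ 2 ∣ D') : IsClHom (Gamma D') (twist ψ x hD) := fun γ hγ => by
  rw [twist_apply]
  refine Finset.sum_eq_zero fun a _ => ?_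
  rw [← pull_apply x _ (det_trans_ne _) (dvd_trans_level hD _) γ, isClHom_pull x _ _ _ h γ hγ,
    mul_zero]

variable {L0 : ℕ} {χ0 : ℤ → R} {x : Additive (Gamma D) →+ R}

theorem zmod_intCast_val (a : ZMod q) : ((a.val : ℤ) : ZMod q) = a := by simp

theorem dvd_val_sub {a : ZMod q} {z : ℤ} (h : (z : ZMod q) = a) :
    (q : ℤ) ∣ z - (a.val : ℤ) := by
  rw [← ZMod.intCast_zmod_eq_zero_iff_dvd, Int.cast_sub, zmod_intCast_val, h, sub_self]

variable (hx : IsNeb (L0 * q) (fun d => χ0 d * ψ (d : ZMod q) ^ 2) x)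
  (hper : ∀ d d' : ℤ, (L0 : ℤ) ∣ d - d' → χ0 d = χ0 d') (hχ0 : χ0 1 = 1)

include hx hper in
/-- The twist of a character with nebentypus `χ₀ ψ²` at level `L0 q` has nebentypus `χ₀`, trivial at
`q`, at level `L0 q²`. -/
theorem isNeb_twist {D' : ℕ} (hD : D * q ^ 2 ∣ D') :
    IsNeb (L0 * q ^ 2) χ0 (twist ψ x hD) := by
  intro g hg γ δ hδ
  have hq : (q : ℤ) ≠ 0 := val_prime_ne_zero
  obtain ⟨m, hm⟩ : ((L0 * q ^ 2 : ℕ) : ℤ) ∣ g.1 1 0 :=
    (ZMod.intCast_zmod_eq_zero_iff_dvd _ _).mp (Gamma0_mem.mp hg)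
  push_cast at hm
  set d : ZMod q := ((g.1 1 1 : ℤ) : ZMod q) with hd
  have hdet := det_eq g
  have hdu : ((g.1 0 0 : ℤ) : ZMod q) * d = 1 := by
    have h := congrArg (Int.cast : ℤ → ZMod q) hdet
    rw [hm] at h
    push_cast at h
    simpa [ZMod.natCast_self] using h
  have hd0 : d ≠ 0 := right_ne_zero_of_mul_eq_one hdu
  have hterm : ∀ a : ZMod q, val x (trans q a.val) δ.1 =
      χ0 (g.1 1 1) * ψ d ^ 2 * val x (trans q (d ^ 2 * a).val) γ.1 := by
    intro a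
    obtain ⟨A, hA, hAa⟩ : ∃ A : ℤ, A = (a.val : ℤ) ∧ (A : ZMod q) = a :=
      ⟨_, rfl, zmod_intCast_val a⟩
    obtain ⟨a', ha', haa'⟩ : ∃ A : ℤ, A = ((d ^ 2 * a).val : ℤ) ∧ (A : ZMod q) = d ^ 2 * a :=
      ⟨_, rfl, zmod_intCast_val _⟩
    rw [← hA, ← ha']
    obtain ⟨w, hw⟩ : (q : ℤ) ∣ A * g.1 1 1 - g.1 0 0 * a' := by
      rw [← ZMod.intCast_zmod_eq_zero_iff_dvd]
      push_cast
      rw [hAa, haa', ← hd]
      linear_combination (-(d * a)) * hdu
    set h00 : ℤ := g.1 0 0 + (L0 : ℤ) * q * m * A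
    set h01 : ℤ := g.1 0 1 + w - (L0 : ℤ) * m * A * a'
    set h11 : ℤ := g.1 1 1 - (L0 : ℤ) * q * m * a'
    have hh : (!![h00, h01; g.1 1 0, h11] : Mat2).det = 1 := by
      rw [Matrix.det_fin_two_of]
      simp only [h00, h01, h11]
      linear_combination hdet + ((L0 : ℤ) * q * m) * hw - (w - (L0 : ℤ) * m * A * a') * hm
    have hmem : (⟨_, hh⟩ : SL(2, ℤ)) ∈ Gamma0 (L0 * q) := by
      refine Gamma0_mem.mpr ((ZMod.intCast_zmod_eq_zero_iff_dvd _ _).mpr ?_)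
      show ((L0 * q : ℕ) : ℤ) ∣ g.1 1 0
      rw [hm]; push_cast
      exact ⟨q * m, by ring⟩
    have hmat : trans q A * g.1 = !![h00, h01; g.1 1 0, h11] * trans q a' := by
      rw [Matrix.eta_fin_two g.1, Matrix.mul_fin_two, Matrix.mul_fin_two]
      simp only [Matrix.of_apply, Matrix.cons_val', Matrix.cons_val_zero, Matrix.cons_val_one,
        Matrix.cons_val_fin_one, h00, h01, h11, zero_mul, mul_zero, add_zero, zero_add]
      ext i j
      fin_cases i <;> fin_cases j <;> simp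
      · rw [hm]; ring
      · linear_combination hw
      · ring
      · rw [hm]; ring
    have hrel : Rel g.1 γ.1 δ.1 := by rw [hδ]; exact rel_coe g γ.1
    rw [← val_comp x (det_trans_ne _) (by rw [g.2]; exact one_ne_zero) hrel, hmat]
    rw [hx.val_coe_mul (g := ⟨_, hh⟩) hmem (det_trans_ne a')
      (exists_rel (det_trans_ne a') (dvd_trans_level hD a') γ.2)]
    congr 1
    show χ0 h11 * ψ (h11 : ZMod q) ^ 2 = χ0 (g.1 1 1) * ψ d ^ 2
    rw [hper h11 (g.1 1 1) ⟨-((q : ℤ) * m * a'), by simp only [h11]; ring⟩]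
    congr 3
    simp [h11, hd]
  rw [twist_apply, twist_apply, Finset.mul_sum]
  refine Fintype.sum_equiv (Equiv.mulLeft₀ (d ^ 2) (pow_ne_zero 2 hd0)) _ _ fun a => ?_
  rw [hterm a, Equiv.mulLeft₀_apply, map_mul, map_pow]
  ring

include hx hχ0 in
/-- The twist of an eigencharacter is one, with eigenvalue twisted by `ψ(ℓ)⁻¹`. -/
theorem opD_twist [NeZero D] {D' : ℕ} [NeZero D'] (hD : D * q ^ 2 ∣ D') {ℓ : ℕ} [NeZero ℓ]
    (hℓ : ℓ.Prime) (hℓD : Nat.Coprime ℓ D) (hℓD' : Nat.Coprime ℓ D') {α β : R}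
    (hα : opD hℓD x = α • x) (hβ : β * ψ (ℓ : ZMod q) = α) :
    opD hℓD' (twist ψ x hD) = β • twist ψ x hD := by
  have hℓq : ¬ (ℓ : ℤ) ∣ (q : ℤ) := fun h => by
    have h' : ℓ ∣ D' := ((Int.natCast_dvd_natCast.mp h).trans
      ((dvd_pow_self q two_ne_zero).trans (dvd_mul_left _ D))).trans hD
    exact hℓ.coprime_iff_not_dvd.mp hℓD' h'
  have hℓ0 : (ℓ : ZMod q) ≠ 0 := fun h => hℓq (by
    have := (ZMod.natCast_eq_zero_iff ℓ q).mp h
    rcases (Nat.dvd_prime hℓ).mp this with h1 | h1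
    · exact absurd h1 (Fact.out : q.Prime).ne_one
    · rw [h1])
  have hχ : (fun d : ℤ => χ0 d * ψ (d : ZMod q) ^ 2) 1 = 1 := by simp [hχ0]
  rw [← opDLin_apply, twist, map_sum]
  simp only [map_smul, opDLin_apply]
  refine Hecke.addChar_ext fun γ => ?_
  rw [AddMonoidHom.finsetSum_apply, AddMonoidHom.smul_apply, AddMonoidHom.finsetSum_apply,
    smul_eq_mul, Finset.mul_sum]
  refine Fintype.sum_equiv (Equiv.mulLeft₀ (ℓ : ZMod q) hℓ0) _ _ fun a => ?_
  have e := opD_pull hℓ hℓD hℓD' (q := (q : ℤ)) (v := (a.val : ℤ)) val_prime_ne_zero hℓq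
    (det_trans_ne _) (det_trans_ne _) (dvd_trans_level hD _) (dvd_trans_level hD _) x
  simp only [AddMonoidHom.smul_apply, smul_eq_mul, Equiv.mulLeft₀_apply, pull_apply]
  rw [e, hα, pull_apply, val_smul_char, map_mul,
    hx.val_trans_congr hχ hD γ.2 (a := (((ℓ : ZMod q) * a).val : ℤ)) (b := (ℓ : ℤ) * a.val)
      (dvd_val_sub (by push_cast; simp))]
  rw [← hβ]
  ring

end Twist

end Fermat.Agent.EigenTwist
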