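import Mathlib.NumberTheory.JacobiSum.Basic
import Fermat.Agent.EigenTwist.Twist

/-!
# Twisting is injective

The twist of a nonzero character with nebentypus `χ₀ ψ²` is nonzero, for `ψ` even with `ψ² ≠ 1`.
-/

noncomputable section

namespace Fermat.Agent.EigenTwist

open scoped MatrixGroups
open CongruenceSubgroup Fermat.Agent.Grp Fermat.Agent.Ihara

variable {D q : ℕ} [Fact q.Prime] {R : Type*} [Field R] (ψ : MulChar (ZMod q) R)

omit [Fact q.Prime] in
theorem trans_mul (a b : ℤ) : trans q a * trans q b = (q : ℤ) • trans q (a + b) := by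
  rw [Matrix.mul_fin_two]
  ext i j
  fin_cases i <;> fin_cases j <;> simp; ring

omit [Fact q.Prime] in
theorem diagUp_mul_T : (q : ℤ) • (diagUp q * (ModularGroup.T : SL(2, ℤ)).1) =
    trans q 1 * diagUp q := by
  rw [ModularGroup.coe_T, Matrix.mul_fin_two, Matrix.mul_fin_two]
  ext i j
  fin_cases i <;> fin_cases j <;> simp

/-- The Jacobi sums which occur in the double twist. -/
theorem sum_char_mul_inv_sub (hψ : ψ ≠ 1) (heven : ψ (-1) = 1) (c : ZMod q) :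
    ∑ a : ZMod q, ψ a * ψ⁻¹ (c - a) = (if c = 0 then (q : R) else 0) - 1 := by
  rcases eq_or_ne c 0 with rfl | hc
  · rw [if_pos rfl]
    have h : ∀ a : ZMod q, ψ a * ψ⁻¹ (0 - a) = if a = 0 then 0 else 1 := by
      intro a
      split_ifs with ha
      · subst ha; rw [MulChar.map_zero, zero_mul]
      · rw [zero_sub, MulChar.inv_apply', inv_neg, ← neg_one_mul, map_mul, heven, one_mul,
          ← map_mul, mul_inv_cancel₀ ha, MulChar.map_one]
    rw [Finset.sum_congr rfl fun a _ => h a, Finset.sum_ite, Finset.sum_const_zero, zero_add,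
      Finset.sum_const, nsmul_eq_mul, mul_one, Finset.filter_ne', Finset.card_erase_of_mem
      (Finset.mem_univ _), Finset.card_univ, ZMod.card, Nat.cast_sub (Fact.out : q.Prime).one_le,
      Nat.cast_one]
  · rw [if_neg hc, zero_sub]
    refine Eq.trans ?_ ((jacobiSum_nontrivial_inv hψ).trans (by rw [heven]))
    rw [jacobiSum]
    refine Fintype.sum_equiv (Equiv.mulLeft₀ c⁻¹ (inv_ne_zero hc)) _ _ fun a => ?_
    rw [Equiv.mulLeft₀_apply, show c - a = c * (1 - c⁻¹ * a) by field_simp, map_mul, map_mul,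
      MulChar.inv_apply']
    ring

variable {x : Additive (Gamma D) →+ R}

/-- A character of `Γ(D)` with values in a field of characteristic zero vanishes if its transport
by an invertible matrix vanishes on some `Γ(D')`. -/
theorem eq_zero_of_val_eq_zero [CharZero R] {D' : ℕ} [NeZero D'] {X : Mat2} {X' : Mat2} {k : ℤ}
    (hk : k ≠ 0) (hXX : X * X' = k • 1) (hX : X.det ≠ 0) (hX' : X'.det ≠ 0)
    (h : ∀ γ ∈ Gamma D', val x X γ = 0) : x = 0 := by
  refine Hecke.addChar_ext fun ε => ?_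
  set D3 := D' * X'.det.natAbs
  have : NeZero D3 := ⟨mul_ne_zero (NeZero.ne D') (Int.natAbs_ne_zero.mpr hX')⟩
  set n := (Gamma D3).index
  have hn : n ≠ 0 := Subgroup.FiniteIndex.index_ne_zero
  have hmem : ε.1 ^ n ∈ Gamma D3 :=
    haveI := Gamma_normal D3
    Subgroup.pow_index_mem _ _
  obtain ⟨γ, hγ⟩ := exists_rel hX' (dvd_refl D3) hmem
  have h1 : val x X γ.1 = x (Additive.ofMul (ε ^ n)) := by
    rw [← val_comp x hX hX' hγ, hXX, val_smul x hk, ← val_one (x := x) (ε ^ n)]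
    rfl
  rw [h γ.1 γ.2, ofMul_pow, map_nsmul, nsmul_eq_mul] at h1
  exact (mul_eq_zero.mp h1.symm).resolve_left (Nat.cast_ne_zero.mpr hn)

variable {L0 : ℕ} {χ0 : ℤ → R}

/-- If the twist vanishes then `x` is invariant under translation by `1/q`. -/
theorem val_trans_one_of_twist_eq_zero [CharZero R]
    (hx : IsNeb (L0 * q) (fun d => χ0 d * ψ (d : ZMod q) ^ 2) x) (hχ0 : χ0 1 = 1)
    (hψ : ψ ≠ 1) (heven : ψ (-1) = 1) {D' : ℕ} (hD : D * q ^ 2 ∣ D') (h : twist ψ x hD = 0)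
    {γ : SL(2, ℤ)} (hγ : γ ∈ Gamma (D' * q ^ 4)) : val x (trans q 1) γ = val x 1 γ := by
  have hχ : (fun d : ℤ => χ0 d * ψ (d : ZMod q) ^ 2) 1 = 1 := by simp [hχ0]
  have hq : (q : ℤ) ≠ 0 := val_prime_ne_zero
  have hqR : (q : R) ≠ 0 := Nat.cast_ne_zero.mpr (Fact.out : q.Prime).ne_zero
  have key : ∀ δ ∈ Gamma (D' * q ^ 2),
      ∑ c : ZMod q, val x (trans q c.val) δ = (q : R) * val x 1 δ := by
    intro δ hδ
    have hD2 : D * q ^ 2 ∣ D' * q ^ 2 := hD.trans (dvd_mul_right _ _)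
    have h0 : ∑ b : ZMod q, ψ⁻¹ b * ∑ a : ZMod q, ψ a * val x (trans q ((a + b).val)) δ = 0 := by
      refine Finset.sum_eq_zero fun b _ => ?_
      obtain ⟨ε, hε⟩ := exists_rel (det_trans_ne (b.val : ℤ)) (dvd_trans_level (dvd_refl _) _) hδ
      have h1 : twist ψ x hD (Additive.ofMul ε) = 0 := by rw [h]; rfl
      rw [twist_apply] at h1
      rw [← mul_zero (ψ⁻¹ b), ← h1]
      congr 1
      refine Finset.sum_congr rfl fun a _ => ?_
      rw [← val_comp x (det_trans_ne _) (det_trans_ne _) hε, trans_mul, val_smul x hq,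
        hx.val_trans_congr hχ hD2 hδ
            (dvd_val_sub (a := a + b) (z := (a.val : ℤ) + b.val) (by simp))]
    simp only [Finset.mul_sum] at h0
    rw [Finset.sum_comm] at h0
    have h2 : ∑ a : ZMod q, ∑ c : ZMod q, ψ a * ψ⁻¹ (c - a) * val x (trans q c.val) δ = 0 := by
      rw [← h0]
      refine Finset.sum_congr rfl fun a _ =>
        (Fintype.sum_equiv (Equiv.addLeft a) _ _ fun b => ?_).symm
      simp only [Equiv.coe_addLeft, add_sub_cancel_left]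
      ring
    rw [Finset.sum_comm] at h2
    simp only [← Finset.sum_mul, sum_char_mul_inv_sub ψ hψ heven, sub_mul, one_mul, ite_mul,
      zero_mul, Finset.sum_sub_distrib, Finset.sum_ite_eq', Finset.mem_univ, if_true] at h2
    rw [← sub_eq_zero.mp h2, ZMod.val_zero]
    congr 1
    rw [show trans q ((0 : ℕ) : ℤ) = (q : ℤ) • (1 : Mat2) by
      ext i j; fin_cases i <;> fin_cases j <;> simp, val_smul x hq]
  have hγ2 : γ ∈ Gamma (D' * q ^ 2) :=
    Gamma_le_of_dvd (Nat.mul_dvd_mul_left _ (pow_dvd_pow q (by norm_num))) hγ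
  have hD4 : D * q ^ 2 ∣ D' * q ^ 4 := hD.trans (dvd_mul_right _ _)
  obtain ⟨δ, hδ⟩ := exists_rel (X := trans q 1) (det_trans_ne 1)
    (D := D' * q ^ 2) (D' := D' * q ^ 4) (by rw [natAbs_det_trans, mul_assoc, ← pow_add]) hγ
  have e1 := key δ.1 δ.2
  have e2 := key γ hγ2
  have hshift : ∀ c : ZMod q,
      val x (trans q c.val) δ.1 = val x (trans q (c + 1).val) γ := fun c => by
    rw [← val_comp x (det_trans_ne _) (det_trans_ne _) hδ, trans_mul, val_smul x hq,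
      hx.val_trans_congr hχ hD4 hγ (dvd_val_sub (a := c + 1) (z := (c.val : ℤ) + 1) (by simp))]
  simp only [hshift] at e1
  rw [show ∑ c : ZMod q, val x (trans q (c + 1).val) γ = ∑ c : ZMod q, val x (trans q c.val) γ from
    Fintype.sum_equiv (Equiv.addRight (1 : ZMod q)) _ _ fun _ => rfl, e2] at e1
  have e3 : val x 1 δ.1 = val x (trans q 1) γ := by
    rw [← val_comp x (by simp) (det_trans_ne _) hδ, one_mul]
  rw [e3] at e1
  exact (mul_left_cancel₀ hqR e1).symm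

/-- **Twisting is injective.** -/
theorem twist_ne_zero [CharZero R]
    (hx : IsNeb (L0 * q) (fun d => χ0 d * ψ (d : ZMod q) ^ 2) x) (hqL : ¬ q ∣ L0)
    (hper : ∀ d d' : ℤ, (L0 : ℤ) ∣ d - d' → χ0 d = χ0 d') (hχ0 : χ0 1 = 1)
    (hψ2 : ψ ^ 2 ≠ 1) (heven : ψ (-1) = 1) (hx0 : x ≠ 0) {D' : ℕ} [NeZero D']
    (hD : D * q ^ 2 ∣ D') : twist ψ x hD ≠ 0 := by
  intro h
  apply hx0
  have hq : (q : ℤ) ≠ 0 := val_prime_ne_zero
  have hqq := (Fact.out : q.Prime)
  have hψ : ψ ≠ 1 := fun h1 => hψ2 (by rw [h1, one_pow])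
  have hχ : (fun d : ℤ => χ0 d * ψ (d : ZMod q) ^ 2) 1 = 1 := by simp [hχ0]
  set D1 := D' * q ^ 4 with hD1
  set D2 := D1 * q with hD2
  have : NeZero D2 :=
    ⟨mul_ne_zero (mul_ne_zero (NeZero.ne D') (pow_ne_zero _ hqq.ne_zero)) hqq.ne_zero⟩
  have hdet : (diagUp q).det ≠ 0 := by simp [hqq.ne_zero]
  have hlev : ∀ {γ : SL(2, ℤ)}, γ ∈ Gamma D2 → ∃ ε : Gamma D1, Rel (diagUp q) γ ε.1 := fun hγ =>
    exists_rel hdet (by simp [hD2]) hγ
  have hDD2 : ∀ {γ : SL(2, ℤ)}, γ ∈ Gamma D2 → ∃ ε : Gamma D, Rel (diagUp q) γ ε.1 := fun hγ => by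
    refine exists_rel hdet ?_ hγ
    simp only [Matrix.det_fin_two_of, one_mul, mul_zero, sub_zero, Int.natAbs_natCast, hD2, hD1]
    exact Nat.mul_dvd_mul_right ((dvd_of_mul_right_dvd hD).trans (dvd_mul_right _ _)) q
  let S : Subgroup SL(2, ℤ) :=
    { carrier := {g | ∀ γ ∈ Gamma D2, val x (diagUp q) (g * γ * g⁻¹) = val x (diagUp q) γ}
      one_mem' := fun γ _ => by rw [one_mul, inv_one, mul_one]
      mul_mem' := fun {a b} ha hb γ hγ => by
        rw [show a * b * γ * (a * b)⁻¹ = a * (b * γ * b⁻¹) * a⁻¹ by group,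
          ha _ ((Gamma_normal D2).conj_mem _ hγ b), hb γ hγ]
      inv_mem' := fun {a} ha γ hγ => by
        have := ha (a⁻¹ * γ * a⁻¹⁻¹) ((Gamma_normal D2).conj_mem _ hγ a⁻¹)
        rw [← this]
        congr 1
        group }
  have hconj : ∀ (g : SL(2, ℤ)) (γ : SL(2, ℤ)),
      val x (diagUp q) (g * γ * g⁻¹) = val x (diagUp q * g.1) γ := fun g γ =>
    (val_comp x hdet (by rw [g.2]; exact one_ne_zero) (rel_coe g γ)).symm
  have hT : ModularGroup.T ∈ S := fun γ hγ => by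
    obtain ⟨ε, hε⟩ := hlev hγ
    rw [hconj, ← val_smul x hq, diagUp_mul_T, val_comp x (det_trans_ne _) hdet hε,
      val_trans_one_of_twist_eq_zero ψ hx hχ0 hψ heven hD h ε.2,
      ← val_comp x (by simp) hdet hε, one_mul]
  let Lw : ℤ → SL(2, ℤ) := fun s => ⟨!![1, 0; (L0 : ℤ) * s, 1], by simp⟩
  have hL : ∀ s, Lw s ∈ S := fun s γ hγ => by
    set g' : SL(2, ℤ) := ⟨!![1, 0; (L0 : ℤ) * q * s, 1], by simp⟩
    have hg' : g' ∈ Gamma0 (L0 * q) :=
      Gamma0_mem.mpr ((ZMod.intCast_zmod_eq_zero_iff_dvd _ _).mpr ⟨s, by simp [g']⟩)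
    have e : diagUp q * (Lw s).1 = g'.1 * diagUp q := by
      simp only [Lw, g', Matrix.mul_fin_two]
      ext i j; fin_cases i <;> fin_cases j <;> simp; ring
    rw [hconj, e, hx.val_coe_mul hg' hdet (hDD2 hγ)]
    simp [g', hχ0]
  have hTz : ∀ j : ℤ, ModularGroup.T ^ j ∈ S := fun j => zpow_mem hT j
  -- a unit with `ψ² ≠ 1`
  obtain ⟨u, hu⟩ : ∃ u : (ZMod q)ˣ, ψ u ^ 2 ≠ 1 := by
    obtain ⟨u, hu⟩ := MulChar.ne_one_iff.mp hψ2
    exact ⟨u, by rwa [MulChar.pow_apply_coe] at hu⟩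
  set U : ZMod q := (u : ZMod q)⁻¹ with hU
  have hU0 : U ≠ 0 := inv_ne_zero u.ne_zero
  have hL0 : (L0 : ZMod q) ≠ 0 := fun h0 => hqL ((ZMod.natCast_eq_zero_iff L0 q).mp h0)
  have lift : ∀ z : ZMod q, ∃ w : ℤ, (((L0 : ℤ) * w : ℤ) : ZMod q) = z := fun z =>
    ⟨((z / (L0 : ZMod q)).val : ℤ), by push_cast; simp; field_simp⟩
  set w : ZMod q := U⁻¹ - 1 with hw
  obtain ⟨A, hA⟩ := lift (-w * U)
  obtain ⟨B, hB⟩ := lift 1
  obtain ⟨C, hC⟩ := lift w
  obtain ⟨E, hE⟩ := lift (-U)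
  set g : SL(2, ℤ) :=
    ModularGroup.T ^ ((L0 : ℤ) * A) * Lw B * ModularGroup.T ^ ((L0 : ℤ) * C) * Lw E
    with hg
  have hgS : g ∈ S := mul_mem (mul_mem (mul_mem (hTz _) (hL _)) (hTz _)) (hL _)
  have hgval : g.1 = !![(1 + L0 * A * (L0 * B)) * (1 + L0 * C * (L0 * E)) + L0 * A * (L0 * E),
      (1 + L0 * A * (L0 * B)) * (L0 * C) + L0 * A;
      L0 * B * (1 + L0 * C * (L0 * E)) + L0 * E, L0 * B * (L0 * C) + 1] := by
    show (ModularGroup.T ^ ((L0 : ℤ) * A)).1 * (Lw B).1 * (ModularGroup.T ^ ((L0 : ℤ) * C)).1 *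
      (Lw E).1 = _
    simp only [Lw, ModularGroup.coe_T_zpow, Matrix.mul_fin_two]
    ext i j; fin_cases i <;> fin_cases j <;> simp <;> ring
  obtain ⟨b1, hb1⟩ : (q : ℤ) ∣ g.1 0 1 := by
    rw [← ZMod.intCast_zmod_eq_zero_iff_dvd, hgval]
    simp only [Matrix.of_apply, Matrix.cons_val', Matrix.cons_val_zero, Matrix.cons_val_one,
      Matrix.cons_val_fin_one]
    push_cast at hA hB hC ⊢
    rw [hA, hB, hC, hw]
    field_simp
    ring
  set g' : SL(2, ℤ) := ⟨!![g.1 0 0, b1; (q : ℤ) * g.1 1 0, g.1 1 1], by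
    rw [Matrix.det_fin_two_of]; linear_combination det_eq g + g.1 1 0 * hb1⟩ with hg'
  have hg'0 : g' ∈ Gamma0 (L0 * q) := by
    refine Gamma0_mem.mpr ((ZMod.intCast_zmod_eq_zero_iff_dvd _ _).mpr
      ⟨B * (1 + L0 * C * (L0 * E)) + E, ?_⟩)
    show (q : ℤ) * g.1 1 0 = _
    rw [hgval]; simp; ring
  have hgen : ∀ γ ∈ Gamma D2, val x (diagUp q) γ = 0 := by
    intro γ hγ
    have e : diagUp q * g.1 = g'.1 * diagUp q := by
      rw [hg']
      conv_lhs => rw [Matrix.eta_fin_two g.1]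
      simp only [Matrix.mul_fin_two]
      ext i j; fin_cases i <;> fin_cases j <;> simp [hb1] <;> ring
    have h1 := hgS γ hγ
    rw [hconj, e, hx.val_coe_mul hg'0 hdet (hDD2 hγ)] at h1
    have hd11 : g'.1 1 1 = (L0 : ℤ) * B * ((L0 : ℤ) * C) + 1 := by
      show g.1 1 1 = _
      rw [hgval]; simp
    rw [hd11] at h1
    rw [hper ((L0 : ℤ) * B * ((L0 : ℤ) * C) + 1) 1 ⟨B * ((L0 : ℤ) * C), by ring⟩, hχ0, one_mul,
      show (((L0 : ℤ) * B * ((L0 : ℤ) * C) + 1 : ℤ) : ZMod q) = (u : ZMod q) by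
        push_cast at hB hC ⊢
        rw [hB, hC, hw, hU, inv_inv]; ring] at h1
    have h2 : (ψ u ^ 2 - 1) * val x (diagUp q) γ = 0 := by linear_combination h1
    exact (mul_eq_zero.mp h2).resolve_left (sub_ne_zero.mpr hu)
  exact eq_zero_of_val_eq_zero (X' := !![(q : ℤ), 0; 0, 1]) hq (by
    rw [Matrix.mul_fin_two]; ext i j; fin_cases i <;> fin_cases j <;> simp)
    hdet (by simp [hqq.ne_zero]) hgen

end Fermat.Agent.EigenTwist
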