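import Fermat.Agent.EigenTwist.TwistInjective

/-!
# A twist is new at `q`

The twist of a character with nebentypus `χ₀ ψ²` is killed by both transfers to level one power of
`q` lower.
-/

noncomputable section

namespace Fermat.Agent.EigenTwist

open scoped MatrixGroups
open CongruenceSubgroup Fermat.Agent.Grp Fermat.Agent.Ihara

/-- Restriction to `Γ(D)` is injective on characters with values in characteristic zero. -/
theorem eq_zero_of_resHom_eq_zero {G : Subgroup SL(2, ℤ)} {D : ℕ} [NeZero D] {R : Type*} [Field R]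
    [CharZero R] (hD : Gamma D ≤ G) {φ : Additive G →+ R} (h : resHom hD φ = 0) : φ = 0 := by
  refine Hecke.addChar_ext fun g => ?_
  have hn : (Gamma D).index ≠ 0 := Subgroup.FiniteIndex.index_ne_zero
  have hmem : g.1 ^ (Gamma D).index ∈ Gamma D :=
    haveI := Gamma_normal D
    Subgroup.pow_index_mem _ _
  have h1 : φ (Additive.ofMul (g ^ (Gamma D).index)) = 0 :=
    DFunLike.congr_fun h (Additive.ofMul (⟨_, hmem⟩ : Gamma D))
  rw [ofMul_pow, map_nsmul, nsmul_eq_mul] at h1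
  exact (mul_eq_zero.mp h1).resolve_left (Nat.cast_ne_zero.mpr hn)

variable {D q : ℕ} [Fact q.Prime] {R : Type*} [Field R] {ψ : MulChar (ZMod q) R}
  {x : Additive (Gamma D) →+ R} {L0 : ℕ} {χ0 : ℤ → R}

/-- The lower unipotent matrix `(1 0; n 1)`. -/
def lowerN (n : ℤ) : SL(2, ℤ) := ⟨!![1, 0; n, 1], by simp⟩

theorem lowerN_mem (N : ℕ) (k : ℤ) : lowerN (k * N) ∈ Gamma0 N :=
  Gamma0_mem.mpr ((ZMod.intCast_zmod_eq_zero_iff_dvd _ _).mpr ⟨k, by simp [lowerN, mul_comm]⟩)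

theorem gamma_le_Gamma0 {N D' : ℕ} (h : N ∣ D') : Gamma D' ≤ Gamma0 N := fun γ hγ =>
  Gamma0_mem.mpr ((ZMod.intCast_zmod_eq_zero_iff_dvd _ _).mpr (by
    simpa using (Int.natCast_dvd_natCast.mpr h).trans (dvd_sub_one_of_mem_Gamma hγ 1 0)))

theorem lowerN_inv (n : ℤ) : (lowerN n)⁻¹ = lowerN (-n) :=
  inv_eq_of_mul_eq_one_right (Subtype.ext (by
    show (lowerN n).1 * (lowerN (-n)).1 = (1 : Mat2)
    simp [lowerN, Matrix.one_fin_two]))

theorem lowerN_inv_mul_apply (n : ℤ) (g : SL(2, ℤ)) :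
    ((lowerN n)⁻¹ * g).1 1 0 = g.1 1 0 - n * g.1 0 0 := by
  rw [lowerN_inv]
  show ((lowerN (-n)).1 * g.1) 1 0 = _
  rw [Matrix.mul_apply, Fin.sum_univ_two]
  simp [lowerN]
  ring

/-- `ψ(a)` times the value at a translate times a lower unipotent matrix: a constant term if
`1 + a k L0` vanishes mod `q`, otherwise the value at the translate by `a / (1 + a k L0)`. -/
theorem val_trans_mul_lower (hx : IsNeb (L0 * q) (fun d => χ0 d * ψ (d : ZMod q) ^ 2) x)
    (hqL : ¬ q ∣ L0) (hper : ∀ d d' : ℤ, (L0 : ℤ) ∣ d - d' → χ0 d = χ0 d') (hχ0 : χ0 1 = 1)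
    {D' : ℕ} (hD : D * q ^ 2 ∣ D') {γ : SL(2, ℤ)} (hγ : γ ∈ Gamma D') :
    ∃ W : R, ∀ a k : ZMod q,
      ψ a * val x (trans q a.val * (lowerN ((k.val : ℤ) * (L0 * q : ℕ))).1) γ =
        (if 1 + a * k * L0 = 0 then ψ a⁻¹ * W else 0) +
          ψ a * ψ (1 + a * k * L0)⁻¹ ^ 2 *
            val x (trans q ((a / (1 + a * k * L0)).val)) γ := by
  have hq : (q : ℤ) ≠ 0 := val_prime_ne_zero
  have hL : (L0 : ZMod q) ≠ 0 := fun h0 => hqL ((ZMod.natCast_eq_zero_iff L0 q).mp h0)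
  set k1 : ℤ := (((-(L0 : ZMod q)⁻¹ : ZMod q)).val : ℤ) with hk1
  obtain ⟨m1, hm1⟩ : (q : ℤ) ∣ 1 + k1 * L0 := by
    rw [← ZMod.intCast_zmod_eq_zero_iff_dvd, hk1]; simp [hL]
  set h1 : SL(2, ℤ) := ⟨!![m1, 1; k1 * L0, (q : ℤ)], by
    rw [Matrix.det_fin_two_of]; linear_combination -hm1⟩
  set Xinf : Mat2 := !![(q : ℤ) ^ 2, 0; 0, 1] with hXinf
  refine ⟨val x (h1.1 * Xinf) γ, fun a k => ?_⟩
  obtain ⟨A, hA, hAa⟩ : ∃ A : ℤ, A = (a.val : ℤ) ∧ (A : ZMod q) = a :=
    ⟨_, rfl, zmod_intCast_val a⟩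
  obtain ⟨K, hK, hKk⟩ : ∃ A : ℤ, A = (k.val : ℤ) ∧ (A : ZMod q) = k :=
    ⟨_, rfl, zmod_intCast_val k⟩
  rw [← hA, ← hK]
  set z : ZMod q := 1 + a * k * L0 with hz
  rcases eq_or_ne z 0 with h0 | h0
  · rw [if_pos h0, h0]
    have ha : a ≠ 0 := fun ha => by rw [hz, ha] at h0; simp at h0
    obtain ⟨m, hm⟩ : (q : ℤ) ∣ 1 + A * K * L0 := by
      rw [← ZMod.intCast_zmod_eq_zero_iff_dvd]; push_cast; rw [hAa, hKk, ← hz, h0]
    set g : SL(2, ℤ) := ⟨!![m * q - A * (k1 * L0), -m + A * m1;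
        (L0 * q : ℕ) * (K - k1), -(K * L0) + q * m1], by
      rw [Matrix.det_fin_two_of]; push_cast
      linear_combination ((k1 * (L0 : ℤ)) - (q : ℤ) * m1) * hm - hm1⟩
    have hg : g ∈ Gamma0 (L0 * q) :=
      Gamma0_mem.mpr ((ZMod.intCast_zmod_eq_zero_iff_dvd _ _).mpr ⟨K - k1, by simp [g]⟩)
    have e : trans q A * (lowerN (K * (L0 * q : ℕ))).1 = g.1 * (h1.1 * Xinf) := by
      simp only [lowerN, g, h1, hXinf, Matrix.mul_fin_two]
      push_cast
      ext i j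
      fin_cases i <;> fin_cases j <;> simp
      · linear_combination (q : ℤ) * hm + ((q : ℤ) ^ 2 * m) * hm1
      · linear_combination A * hm1
      · linear_combination ((q : ℤ) ^ 2 * K * L0) * hm1
      · linear_combination (q : ℤ) * hm1
    have hdet : (h1.1 * Xinf).det ≠ 0 := by
      rw [Matrix.det_mul, h1.2, one_mul, hXinf, Matrix.det_fin_two_of]
      simp [(Fact.out : q.Prime).ne_zero]
    rw [e, hx.val_coe_mul hg hdet (exists_rel hdet (by
      rw [Matrix.det_mul, h1.2, one_mul, hXinf, Matrix.det_fin_two_of]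
      simpa [Int.natAbs_pow] using hD) hγ)]
    have hd : ((-(K * L0) + q * m1 : ℤ) : ZMod q) = a⁻¹ := by
      push_cast; rw [hKk, ZMod.natCast_self, zero_mul, add_zero]
      refine eq_inv_of_mul_eq_one_left ?_
      linear_combination (-1 : ZMod q) * (hz.symm.trans h0)
    show ψ a * ((χ0 (-(K * L0) + q * m1) * ψ ((-(K * L0) + q * m1 : ℤ) : ZMod q) ^ 2) * _) = _
    rw [hd, hper (-(K * L0) + q * m1) 1 ⟨k1 - K, by linear_combination -hm1⟩, hχ0,
      inv_zero, MulChar.map_zero]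
    have : ψ a * ψ a⁻¹ = 1 := by rw [← map_mul, mul_inv_cancel₀ ha, MulChar.map_one]
    linear_combination (ψ a⁻¹ * val x (h1.1 * Xinf) γ) * this
  · rw [if_neg h0, zero_add]
    obtain ⟨A', hA', hA'a⟩ : ∃ A : ℤ, A = ((a / z).val : ℤ) ∧ (A : ZMod q) = a / z :=
      ⟨_, rfl, zmod_intCast_val _⟩
    rw [← hA']
    obtain ⟨B, hB⟩ : (q : ℤ) ∣ A - (1 + A * K * L0) * A' := by
      rw [← ZMod.intCast_zmod_eq_zero_iff_dvd]; push_cast; rw [hAa, hKk, hA'a, ← hz]
      field_simp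
      ring
    set g : SL(2, ℤ) := ⟨!![1 + A * K * L0, B; K * (L0 * q : ℕ), 1 - K * L0 * A'], by
      rw [Matrix.det_fin_two_of]; push_cast; linear_combination (K * (L0 : ℤ)) * hB⟩
    have hg : g ∈ Gamma0 (L0 * q) :=
      Gamma0_mem.mpr ((ZMod.intCast_zmod_eq_zero_iff_dvd _ _).mpr ⟨K, by simp [g]; ring⟩)
    have e : trans q A * (lowerN (K * (L0 * q : ℕ))).1 = g.1 * trans q A' := by
      simp only [lowerN, g, Matrix.mul_fin_two]
      push_cast
      ext i j
      fin_cases i <;> fin_cases j <;> simp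
      · ring
      · linear_combination hB
      · ring
      · ring
    rw [e, hx.val_coe_mul hg (det_trans_ne A')
        (exists_rel (det_trans_ne A') (dvd_trans_level hD A') hγ)]
    have hd : ((1 - K * L0 * A' : ℤ) : ZMod q) = z⁻¹ := by
      push_cast; rw [hKk, hA'a]
      field_simp
      rw [hz]; ring
    show ψ a * ((χ0 (1 - K * L0 * A') * ψ ((1 - K * L0 * A' : ℤ) : ZMod q) ^ 2) * _) = _
    rw [hd, hper (1 - K * L0 * A') 1 ⟨-(K * A'), by ring⟩, hχ0]
    ring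

/-- The change of variables `a ↦ a/(1 + a c)`. -/
theorem sum_moebius {F : Type*} [Field F] [Fintype F] [DecidableEq F] (φ : F → R) (θ : MulChar F R)
    (c : F) : ∑ a : F, θ a * θ (1 + a * c)⁻¹ ^ 2 * φ (a / (1 + a * c)) =
      ∑ b : F, φ b * θ b * θ (1 - b * c) := by
  rw [← Finset.sum_filter_of_ne (p := fun a => 1 + a * c ≠ 0) (fun a _ h e => h (by
      rw [e, inv_zero, MulChar.map_zero]; simp)),
    ← Finset.sum_filter_of_ne (s := Finset.univ) (f := fun b => φ b * θ b * θ (1 - b * c))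
      (p := fun b => 1 - b * c ≠ 0)
      (fun b _ h e => h (by simp only [e, MulChar.map_zero, mul_zero]))]
  refine Finset.sum_bij' (fun a _ => a / (1 + a * c)) (fun b _ => b / (1 - b * c)) ?_ ?_ ?_ ?_ ?_
  · intro a ha
    simp only [Finset.mem_filter, Finset.mem_univ, true_and] at ha ⊢
    rw [show 1 - a / (1 + a * c) * c = (1 + a * c)⁻¹ by field_simp; ring]
    exact inv_ne_zero ha
  · intro b hb
    simp only [Finset.mem_filter, Finset.mem_univ, true_and] at hb ⊢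
    rw [show 1 + b / (1 - b * c) * c = (1 - b * c)⁻¹ by field_simp; ring]
    exact inv_ne_zero hb
  · intro a ha
    simp only [Finset.mem_filter, Finset.mem_univ, true_and] at ha
    rw [show 1 - a / (1 + a * c) * c = (1 + a * c)⁻¹ by field_simp; ring, div_inv_eq_mul,
      div_mul_cancel₀ _ ha]
  · intro b hb
    simp only [Finset.mem_filter, Finset.mem_univ, true_and] at hb
    rw [show 1 + b / (1 - b * c) * c = (1 - b * c)⁻¹ by field_simp; ring, div_inv_eq_mul,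
      div_mul_cancel₀ _ hb]
  · intro a ha
    simp only [Finset.mem_filter, Finset.mem_univ, true_and] at ha
    rw [show 1 - a / (1 + a * c) * c = (1 + a * c)⁻¹ by field_simp; ring,
      div_eq_mul_inv a, map_mul]
    ring

/-- The twist is killed by the first transfer. -/
theorem corA_eq_zero [CharZero R]
    (hx : IsNeb (L0 * q) (fun d => χ0 d * ψ (d : ZMod q) ^ 2) x) (hqL : ¬ q ∣ L0)
    (hper : ∀ d d' : ℤ, (L0 : ℤ) ∣ d - d' → χ0 d = χ0 d') (hχ0 : χ0 1 = 1) (hψ : ψ ≠ 1)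
    {D' : ℕ} [NeZero D'] [NeZero q] [NeZero (L0 * q)] (hD : D * q ^ 2 ∣ D')
    (hN : L0 * q * q ∣ D') (y : Additive (Gamma0 (L0 * q * q)) →+ R)
    (hy : resHom (gamma_le_Gamma0 hN) y = twist ψ x hD) : corA (L0 * q) q y = 0 := by
  refine eq_zero_of_resHom_eq_zero (D := D') (gamma_le_Gamma0 ((dvd_mul_right _ q).trans hN))
    (Hecke.addChar_ext fun γ => ?_)
  have hqq := (Fact.out : q.Prime)
  have hL : (L0 : ZMod q) ≠ 0 := fun h0 => hqL ((ZMod.natCast_eq_zero_iff L0 q).mp h0)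
  have hNz : ((L0 * q : ℕ) : ℤ) ≠ 0 := by exact_mod_cast NeZero.ne (L0 * q)
  let r : ZMod q → Gamma0 (L0 * q) :=
    fun k => ⟨lowerN (-(k.val : ℤ) * (L0 * q : ℕ)), lowerN_mem _ _⟩
  have hmemiff : ∀ g : Gamma0 (L0 * q), (g : SL(2, ℤ)) ∈ Gamma0 (L0 * q * q) ↔
      ((L0 * q * q : ℕ) : ℤ) ∣ g.1.1 1 0 := fun g => by
    rw [Gamma0_mem, ZMod.intCast_zmod_eq_zero_iff_dvd]
  have hr : Function.Bijective fun k => ((r k : Gamma0 (L0 * q)) :
      Gamma0 (L0 * q) ⧸ (Gamma0 (L0 * q * q)).subgroupOf (Gamma0 (L0 * q))) := by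
    have hmem : ∀ (k : ZMod q) (g : Gamma0 (L0 * q)) (c : ℤ), g.1.1 1 0 = ((L0 * q : ℕ) : ℤ) * c →
        ((((r k)⁻¹ * g : Gamma0 (L0 * q)) : SL(2, ℤ)) ∈ Gamma0 (L0 * q * q) ↔
          (c : ZMod q) + k * ((g.1.1 0 0 : ℤ) : ZMod q) = 0) := by
      intro k g c hc
      rw [hmemiff, Subgroup.coe_mul, Subgroup.coe_inv, lowerN_inv_mul_apply, hc,
        show ((L0 * q : ℕ) : ℤ) * c - -(k.val : ℤ) * ((L0 * q : ℕ) : ℤ) * g.1.1 0 0 =
          ((L0 * q : ℕ) : ℤ) * (c + (k.val : ℤ) * g.1.1 0 0) by ring,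
        show ((L0 * q * q : ℕ) : ℤ) = ((L0 * q : ℕ) : ℤ) * q by push_cast; ring,
        mul_dvd_mul_iff_left hNz, ← ZMod.intCast_zmod_eq_zero_iff_dvd]
      simp
    constructor
    · intro i j hij
      rw [QuotientGroup.eq, Subgroup.mem_subgroupOf] at hij
      have h := (hmem i (r j) (-(j.val : ℤ)) (by simp [r, lowerN]; ring)).mp hij
      simp [r, lowerN] at h
      linear_combination h
    · intro g
      obtain ⟨g, rfl⟩ := QuotientGroup.mk_surjective g
      obtain ⟨c, hc⟩ := Hecke.Gamma0_dvd g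
      have hdet := Hecke.Gamma0_det g
      have ha : ((g.1.1 0 0 : ℤ) : ZMod q) ≠ 0 := fun h0 => by
        have h := congrArg (Int.cast : ℤ → ZMod q) hdet
        rw [hc] at h; push_cast at h
        simp [h0] at h
      refine ⟨(-(c : ZMod q) / ((g.1.1 0 0 : ℤ) : ZMod q)), ?_⟩
      rw [QuotientGroup.eq, Subgroup.mem_subgroupOf]
      exact (hmem _ g c hc).mpr (by field_simp; ring)
  have hσ : ∀ k, ((r k)⁻¹ * (Subgroup.inclusion (gamma_le_Gamma0
      ((dvd_mul_right (L0 * q) q).trans hN)) γ * r k) : Gamma0 (L0 * q)).1 ∈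
        Gamma0 (L0 * q * q) := fun k => gamma_le_Gamma0 hN (by
    simpa [mul_assoc] using (Gamma_normal D').conj_mem _ γ.2 ((r k).1)⁻¹)
  show corA (L0 * q) q y (Additive.ofMul (Subgroup.inclusion _ γ)) = 0
  rw [corA, coresHom_apply_reps _ y r hr _ id hσ]
  obtain ⟨W, hW⟩ := val_trans_mul_lower hx hqL hper hχ0 hD γ.2
  have hterm : ∀ k : ZMod q, y (Additive.ofMul ⟨_, hσ k⟩) = ∑ a : ZMod q, ψ a *
      val x (trans q a.val * (lowerN ((k.val : ℤ) * (L0 * q : ℕ))).1) γ.1 := by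
    intro k
    have hinv : (r k).1⁻¹ = lowerN ((k.val : ℤ) * (L0 * q : ℕ)) := by simp [r, lowerN_inv]
    set g := lowerN ((k.val : ℤ) * (L0 * q : ℕ))
    have hmem : g * γ.1 * g⁻¹ ∈ Gamma D' := (Gamma_normal D').conj_mem _ γ.2 g
    have e1 := DFunLike.congr_fun hy (Additive.ofMul (⟨_, hmem⟩ : Gamma D'))
    rw [twist_apply] at e1
    refine Eq.trans (congrArg (fun z => y (Additive.ofMul z)) (Subtype.ext ?_)) (e1.trans ?_)
    · show ((r k)⁻¹ * (Subgroup.inclusion _ γ * r k) : Gamma0 (L0 * q)).1 = g * γ.1 * g⁻¹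
      rw [show g = (r k).1⁻¹ from hinv.symm, inv_inv]
      simp only [Subgroup.coe_mul, Subgroup.coe_inv, Subgroup.coe_inclusion, mul_assoc]
    · exact Finset.sum_congr rfl fun a _ => by
        rw [← val_comp x (det_trans_ne _) (by rw [g.2]; exact one_ne_zero) (rel_coe g γ.1)]
  simp only [id_eq]
  rw [Finset.sum_congr rfl fun k _ => (hterm k).trans (Finset.sum_congr rfl fun a _ => hW a k)]
  simp only [Finset.sum_add_distrib, mul_assoc (_ : ZMod q) _ (L0 : ZMod q)]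
  have hdeg : ∀ a : ZMod q, ∑ k : ZMod q, (if 1 + a * (k * L0) = 0 then ψ a⁻¹ * W else 0) =
      ψ a⁻¹ * W := by
    intro a
    rcases eq_or_ne a 0 with rfl | ha
    · rw [inv_zero, MulChar.map_zero]; simp
    · rw [Finset.sum_eq_single (-(a * (L0 : ZMod q))⁻¹) (fun k _ hk => if_neg fun h => hk ?_)
        (fun h => absurd (Finset.mem_univ _) h), if_pos (by field_simp; ring)]
      field_simp
      linear_combination h
  rw [Finset.sum_comm, Finset.sum_congr rfl fun a _ => hdeg a, ← Finset.sum_mul,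
    Finset.sum_congr rfl fun (k : ZMod q) _ =>
      sum_moebius (fun b => val x (trans q b.val) γ.1) ψ (k * (L0 : ZMod q)),
    Finset.sum_comm (f := fun (k b : ZMod q) =>
      val x (trans q b.val) γ.1 * ψ b * ψ (1 - b * (k * (L0 : ZMod q))))]
  have h1 : ∀ b : ZMod q, ∑ k : ZMod q,
      val x (trans q b.val) γ.1 * ψ b * ψ (1 - b * (k * L0)) = 0 := by
    intro b
    rcases eq_or_ne b 0 with rfl | hb
    · simp [MulChar.map_zero]
    · rw [← Finset.mul_sum]
      refine mul_eq_zero_of_right _ ?_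
      refine Eq.trans ?_ (MulChar.sum_eq_zero_of_ne_one hψ)
      refine Fintype.sum_bijective (fun k : ZMod q => 1 - b * (k * L0)) ?_ _ _ fun k => rfl
      exact Finite.injective_iff_bijective.mp fun k k' h => by
        have h' : b * (k * L0) = b * (k' * L0) := by linear_combination -h
        exact mul_right_cancel₀ hL (mul_left_cancel₀ hb h')
  rw [Finset.sum_congr rfl fun b _ => h1 b, Finset.sum_const_zero, add_zero]
  refine mul_eq_zero_of_left ?_ _
  exact (Equiv.sum_comp (Equiv.inv (ZMod q)) fun a => ψ a).trans (MulChar.sum_eq_zero_of_ne_one hψ)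

/-- The twist is killed by the second transfer. -/
theorem corB_eq_zero [CharZero R]
    (hx : IsNeb (L0 * q) (fun d => χ0 d * ψ (d : ZMod q) ^ 2) x) (hχ0 : χ0 1 = 1) (hψ : ψ ≠ 1)
    {D' : ℕ} [NeZero D'] [NeZero q] [NeZero (L0 * q)] (hD : D * q ^ 2 ∣ D')
    (hN : L0 * q * q ∣ D') (y : Additive (Gamma0 (L0 * q * q)) →+ R)
    (hy : resHom (gamma_le_Gamma0 hN) y = twist ψ x hD) : corB (L0 * q) q y = 0 := by
  have hqq := (Fact.out : q.Prime)
  have : NeZero (D' * q) := ⟨mul_ne_zero (NeZero.ne D') hqq.ne_zero⟩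
  have hle : Gamma (D' * q) ≤ Gamma0 (L0 * q) :=
    gamma_le_Gamma0 (((dvd_mul_right _ q).trans hN).trans (dvd_mul_right _ q))
  refine eq_zero_of_resHom_eq_zero (D := D' * q) hle (Hecke.addChar_ext fun γ => ?_)
  have hχ : (fun d : ℤ => χ0 d * ψ (d : ZMod q) ^ 2) 1 = 1 := by simp [hχ0]
  have hq : (q : ℤ) ≠ 0 := val_prime_ne_zero
  let r : ZMod q → Gamma0 (L0 * q) := fun k =>
    ⟨ModularGroup.T ^ (k.val : ℤ), Gamma0_mem.mpr (by rw [ModularGroup.coe_T_zpow]; simp)⟩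
  have hr : Function.Bijective fun k => ((r k : Gamma0 (L0 * q)) :
      Gamma0 (L0 * q) ⧸ (upperGrp (L0 * q) q).subgroupOf (Gamma0 (L0 * q))) := by
    rw [upperGrp_subgroupOf]
    constructor
    · intro i j hij
      rw [QuotientGroup.eq, Hecke.mem_upperSub, Subgroup.coe_mul, Subgroup.coe_inv] at hij
      simp [r, ModularGroup.coe_T_zpow, Matrix.mul_apply, Matrix.adjugate_fin_two] at hij
      rw [← ZMod.intCast_zmod_eq_zero_iff_dvd] at hij
      push_cast at hij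
      linear_combination -hij
    · intro g
      obtain ⟨g, rfl⟩ := QuotientGroup.mk_surjective g
      obtain ⟨c, hc⟩ := Hecke.Gamma0_dvd g
      have hdet := Hecke.Gamma0_det g
      have hd : ((g.1.1 1 1 : ℤ) : ZMod q) ≠ 0 := fun h0 => by
        have h := congrArg (Int.cast : ℤ → ZMod q) hdet
        rw [hc] at h; push_cast at h
        simp [h0] at h
      refine ⟨((g.1.1 0 1 : ℤ) : ZMod q) / ((g.1.1 1 1 : ℤ) : ZMod q), ?_⟩
      rw [QuotientGroup.eq, Hecke.mem_upperSub, Subgroup.coe_mul, Subgroup.coe_inv]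
      simp [r, ModularGroup.coe_T_zpow, Matrix.mul_apply, Matrix.adjugate_fin_two]
      rw [← ZMod.intCast_zmod_eq_zero_iff_dvd]
      simp [hd]
  have hconj : ∀ k : ZMod q, (r k).1⁻¹ * γ.1 * (r k).1 ∈ Gamma (D' * q) := fun k => by
    simpa using (Gamma_normal (D' * q)).conj_mem _ γ.2 ((r k).1)⁻¹
  have hσ : ∀ k, ((r k)⁻¹ * (Subgroup.inclusion hle γ * r k) : Gamma0 (L0 * q)).1 ∈
      upperGrp (L0 * q) q := fun k => by
    refine mem_upperGrp.mpr ⟨SetLike.coe_mem _, ?_⟩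
    have := dvd_sub_one_of_mem_Gamma (hconj k) 0 1
    simp only [Matrix.one_apply_ne (show (0 : Fin 2) ≠ 1 by decide), sub_zero] at this
    rw [Subgroup.coe_mul, Subgroup.coe_inv, Subgroup.coe_mul, ← mul_assoc]
    exact (Int.natCast_dvd_natCast.mpr (dvd_mul_left q D')).trans this
  show corB (L0 * q) q y (Additive.ofMul (Subgroup.inclusion hle γ)) = 0
  rw [corB, coresHom_apply_reps _ _ r hr _ id hσ]
  have hdet : (diagUp q).det ≠ 0 := by simp [hqq.ne_zero]
  have hD'q : D * q ^ 2 * q ∣ D' * q := Nat.mul_dvd_mul_right hD q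
  obtain ⟨ε, hε⟩ := exists_rel hdet (D := D') (D' := D' * q) (by simp) γ.2
  let Θ : ZMod q → R := fun c => val x (trans q c.val) ε.1
  have hterm : ∀ k : ZMod q,
      y (Additive.ofMul (alphaUp (L0 * q) q ⟨_, hσ k⟩)) = ∑ a : ZMod q, ψ a * Θ (a - k) := by
    intro k
    obtain ⟨δ, hδ⟩ := exists_rel hdet (D := D') (D' := D' * q) (by simp) (hconj k)
    have e0 : (alphaUp (L0 * q) q ⟨_, hσ k⟩).1 = δ.1 := by
      refine Rel.unique hdet (γ := (r k).1⁻¹ * γ.1 * (r k).1) ?_ hδ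
      show diagUp q * _ = _
      refine Eq.trans ?_ (alphaUp_spec _).symm
      show _ = diagUp q * imat ((r k)⁻¹ * (Subgroup.inclusion hle γ * r k) : Gamma0 (L0 * q)).1
      rw [Subgroup.coe_mul, Subgroup.coe_inv, Subgroup.coe_mul, ← mul_assoc]
      rfl
    have e1 := DFunLike.congr_fun hy (Additive.ofMul δ)
    rw [twist_apply] at e1
    refine Eq.trans (congrArg (fun z => y (Additive.ofMul z)) (Subtype.ext ?_)) (e1.trans ?_)
    · exact e0
    refine Finset.sum_congr rfl fun a _ => congrArg (ψ a * ·) ?_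
    have hrel : Rel ((r k).1⁻¹).1 γ.1 ((r k).1⁻¹ * γ.1 * (r k).1) := by
      simpa using rel_coe (r k).1⁻¹ γ.1
    have h1 : val x (trans q a.val) δ.1 = val x (trans q a.val * diagUp q * ((r k).1⁻¹).1) γ.1 := by
      rw [← val_comp x (det_trans_ne _) hdet hδ,
        ← val_comp x (by rw [Matrix.det_mul]; exact mul_ne_zero (det_trans_ne _) hdet)
          (by rw [((r k).1⁻¹).2]; exact one_ne_zero) hrel]
    rw [h1]
    show _ = val x (trans q ((a - k).val : ℤ)) ε.1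
    rw [← hx.val_trans_congr hχ (hD.trans dvd_rfl) ε.2 (b := (a.val : ℤ) - k.val)
        (dvd_val_sub (by simp)),
      ← val_comp x (det_trans_ne _) hdet hε]
    congr 1
    show _ * ((ModularGroup.T ^ (k.val : ℤ))⁻¹ : SL(2, ℤ)).1 = _
    rw [← zpow_neg, ModularGroup.coe_T_zpow]
    ext i j
    fin_cases i <;> fin_cases j <;> simp [Matrix.mul_apply]; ring
  show ∑ k : ZMod q, y (Additive.ofMul (alphaUp (L0 * q) q ⟨_, hσ k⟩)) = 0
  rw [Finset.sum_congr rfl fun k _ => hterm k, Finset.sum_comm]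
  simp only [← Finset.mul_sum]
  rw [Finset.sum_congr rfl fun (a : ZMod q) _ => by
    rw [show ∑ k : ZMod q, Θ (a - k) = ∑ c : ZMod q, Θ c from
      Fintype.sum_equiv (Equiv.subLeft a) _ _ fun _ => rfl], ← Finset.sum_mul,
    MulChar.sum_eq_zero_of_ne_one hψ, zero_mul]

end Fermat.Agent.EigenTwist
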