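import Fermat.Agent.EigenTwist.Descend
import Fermat.Agent.EigenTwist.NonUnipotent

/-!
# A twist by a ramified character gives a representation ramified at `q`

If `x` has nebentypus `ψ²` of conductor `q` and eigenvalues `ψ(ℓ) a_ℓ`, then a representation with
Frobenius traces `a_ℓ` is not unipotent on inertia at `q`.
-/

noncomputable section

open Polynomial CongruenceSubgroup
open scoped MatrixGroups

namespace Fermat.Agent.EigenTwist

open Fermat.Agent.Grp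

local notation "Qbar" => AlgebraicClosure ℚ
local notation "GQ" => (AlgebraicClosure ℚ ≃ₐ[ℚ] AlgebraicClosure ℚ)

/-- **The representation of a twisted eigencharacter is not unipotent at `q`.** -/
theorem not_unipotent_of_twist {p q : ℕ} [Fact p.Prime] [Fact q.Prime] (hqp : q ≠ p) [NeZero q]
    (D L0 : ℕ) [NeZero D] [NeZero (L0 * q)] [NeZero (L0 * q * q)]
    (hgeo : SquareLevel.InertiaFixedBounded (L0 * q) q) (GM : Attach.TorsionGalois (L0 * q * q) p)
    (hqL : ¬ q ∣ L0) (hL : L0 * q ∣ D) {S : Finset ℕ} (hpS : p ∈ S)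
    (hDS : ∀ r : ℕ, r.Prime → r ∣ D → r ∈ S)
    {O : Type} [CommRing O] [IsDomain O] [IsDiscreteValuationRing O]
    [IsAdicComplete (IsLocalRing.maximalIdeal O) O] [CharZero O]
    (hp : (p : O) ∈ IsLocalRing.maximalIdeal O)
    {O2 : Type} [CommRing O2] [IsDomain O2] [IsDiscreteValuationRing O2]
    [IsAdicComplete (IsLocalRing.maximalIdeal O2) O2] [Algebra O O2]
    [IsLocalHom (algebraMap O O2)] (hinj : Function.Injective (algebraMap O O2))
    (ρ : GaloisRepAdic O2)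
    {L : Type} [Field L] [CharZero L] (jL : O →+* L) (hjL : Function.Injective jL)
    (ψ : MulChar (ZMod q) L) (hψ2 : ψ ^ 2 ≠ 1) (heven : ψ (-1) = 1)
    (x : Additive (Gamma D) →+ L) (hx : IsNeb (L0 * q) (fun d => ψ (d : ZMod q) ^ 2) x)
    (hcl : IsClHom (Gamma D) x) (hx0 : x ≠ 0) (a : ℕ → O)
    (hT : ∀ (ℓ : ℕ) [NeZero ℓ] (hℓD : Nat.Coprime ℓ D), ℓ.Prime → ℓ ∉ S →
      opD hℓD x = (jL (a ℓ) * ψ (ℓ : ZMod q)) • x)
    (hρ : ∀ ℓ : ℕ, ℓ.Prime → ℓ ∉ S → ∀ A : ValuationSubring Qbar, A.LiesOverPrime ℓ →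
      ∀ σ : GQ, A.IsFrobeniusAt σ ℓ →
        LinearMap.charpoly (ρ.ρ σ) =
          X ^ 2 - C (algebraMap O O2 (a ℓ)) * X + C ((ℓ : O2))) :
    ¬ ρ.IsUnipotentOnInertiaAt q := by
  have hq : q.Prime := Fact.out
  obtain ⟨y, hy, hy0, hA, hB, hop⟩ := exists_twist_new D L0 x ψ hqL hL hψ2 heven hx hcl hx0
  have hqS : q ∈ S := hDS q hq ((dvd_mul_left q L0).trans hL)
  refine not_unipotent_of_qnew hgeo hq hqp GM hpS (fun r hr h => ?_) hp hinj ρ jL hjL y hy hy0 hA hB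
    a (fun ℓ _ hℓ hℓS => ?_) hρ
  · rcases hr.dvd_mul.mp h with h1 | h1
    · exact hDS r hr (h1.trans hL)
    · exact (Nat.prime_dvd_prime_iff_eq hr hq).mp h1 ▸ hqS
  · have hℓD : Nat.Coprime ℓ D := hℓ.coprime_iff_not_dvd.mpr fun h => hℓS (hDS ℓ hℓ h)
    exact hop ℓ hℓD hℓ (fun h => hℓS (h ▸ hqS)) _ _ (hT ℓ hℓD hℓ hℓS) rfl

end Fermat.Agent.EigenTwist
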