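import Mathlib.LinearAlgebra.Matrix.Adjugate
import Mathlib.NumberTheory.ModularForms.CongruenceSubgroups
import Fermat.Agent.Ihara.Cores

/-!
# Values of characters on conjugates

Values of a character of `Γ(D)` on conjugates by integer matrices, and the induced transport of
characters to deeper levels.
-/

noncomputable section

namespace Fermat.Agent.EigenTwist

open scoped MatrixGroups
open CongruenceSubgroup Fermat.Agent.Grp

/-- Integer `2 × 2` matrices. -/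
abbrev Mat2 := Matrix (Fin 2) (Fin 2) ℤ

/-- `δ = X γ X⁻¹`. -/
def Rel (X : Mat2) (γ δ : SL(2, ℤ)) : Prop := X * γ.1 = δ.1 * X

theorem mat_right_cancel {X A B : Mat2} (hX : X.det ≠ 0) (h : A * X = B * X) : A = B := by
  have h1 := congrArg (· * X.adjugate) h
  simp only [Matrix.mul_assoc, Matrix.mul_adjugate, Matrix.mul_smul, Matrix.mul_one] at h1
  exact smul_right_injective _ hX h1

theorem Rel.unique {X : Mat2} (hX : X.det ≠ 0) {γ δ δ' : SL(2, ℤ)} (h : Rel X γ δ)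
    (h' : Rel X γ δ') : δ = δ' :=
  Subtype.ext (mat_right_cancel hX (h.symm.trans h'))

theorem Rel.mul {X : Mat2} {γ γ' δ δ' : SL(2, ℤ)} (h : Rel X γ δ) (h' : Rel X γ' δ') :
    Rel X (γ * γ') (δ * δ') := by
  show X * (γ.1 * γ'.1) = (δ.1 * δ'.1) * X
  rw [← mul_assoc, show X * γ.1 = δ.1 * X from h, mul_assoc, show X * γ'.1 = δ'.1 * X from h',
    mul_assoc]

theorem Rel.comp {X Y : Mat2} {γ δ ε : SL(2, ℤ)} (h : Rel Y γ δ) (h' : Rel X δ ε) :
    Rel (X * Y) γ ε := by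
  show X * Y * γ.1 = ε.1 * (X * Y)
  rw [mul_assoc, show Y * γ.1 = δ.1 * Y from h, ← mul_assoc, show X * δ.1 = ε.1 * X from h',
    mul_assoc]

theorem Rel.of_comp {X Y : Mat2} (hY : Y.det ≠ 0) {γ δ ε : SL(2, ℤ)} (h : Rel Y γ δ)
    (h' : Rel (X * Y) γ ε) : Rel X δ ε := by
  refine mat_right_cancel hY ?_
  rw [mul_assoc, ← show Y * γ.1 = δ.1 * Y from h, ← mul_assoc,
      show X * Y * γ.1 = ε.1 * (X * Y) from h',
    ← mul_assoc]

theorem rel_smul_iff {X : Mat2} {k : ℤ} (hk : k ≠ 0) {γ δ : SL(2, ℤ)} :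
    Rel (k • X) γ δ ↔ Rel X γ δ := by
  unfold Rel
  rw [Matrix.smul_mul, Matrix.mul_smul]
  exact (smul_right_injective _ hk).eq_iff

theorem rel_coe (g γ : SL(2, ℤ)) : Rel g.1 γ (g * γ * g⁻¹) := by
  show g.1 * γ.1 = (g * γ * g⁻¹).1 * g.1
  rw [← Matrix.SpecialLinearGroup.coe_mul, ← Matrix.SpecialLinearGroup.coe_mul,
      inv_mul_cancel_right]

theorem Rel.tr_eq {X : Mat2} (hX : X.det ≠ 0) {γ δ : SL(2, ℤ)} (h : Rel X γ δ) : tr δ = tr γ := by
  have h1 : X * γ.1 * X.adjugate = X.det • δ.1 := by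
    rw [show X * γ.1 = δ.1 * X from h, mul_assoc, Matrix.mul_adjugate, Matrix.mul_smul, mul_one]
  have h2 := congrArg Matrix.trace h1
  rw [Matrix.trace_mul_comm, ← mul_assoc, Matrix.adjugate_mul, Matrix.trace_smul,
    Matrix.smul_mul, one_mul, Matrix.trace_smul, smul_eq_mul, smul_eq_mul] at h2
  exact (mul_left_cancel₀ hX h2).symm

theorem dvd_sub_one_of_mem_Gamma {D : ℕ} {γ : SL(2, ℤ)} (hγ : γ ∈ Gamma D) (i j : Fin 2) :
    (D : ℤ) ∣ γ.1 i j - (1 : Mat2) i j := by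
  obtain ⟨h00, h01, h10, h11⟩ := Gamma_mem.mp hγ
  rw [← ZMod.intCast_zmod_eq_zero_iff_dvd]
  push_cast
  fin_cases i <;> fin_cases j <;> simp [h00, h01, h10, h11]

theorem mem_Gamma_iff_dvd {D : ℕ} {γ : SL(2, ℤ)} :
    γ ∈ Gamma D ↔ ∀ i j : Fin 2, (D : ℤ) ∣ γ.1 i j - (1 : Mat2) i j := by
  refine ⟨dvd_sub_one_of_mem_Gamma, fun h => Gamma_mem.mpr ?_⟩
  have h' := fun i j => (ZMod.intCast_zmod_eq_zero_iff_dvd _ _).mpr (h i j)
  refine ⟨?_, ?_, ?_, ?_⟩
  · simpa [sub_eq_zero] using h' 0 0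
  · simpa [sub_eq_zero] using h' 0 1
  · simpa [sub_eq_zero] using h' 1 0
  · simpa [sub_eq_zero] using h' 1 1

theorem Gamma_le_of_dvd {D D' : ℕ} (h : D ∣ D') : Gamma D' ≤ Gamma D := fun _ hγ =>
  mem_Gamma_iff_dvd.mpr fun i j =>
    (Int.natCast_dvd_natCast.mpr h).trans (dvd_sub_one_of_mem_Gamma hγ i j)

/-- Conjugation by `X` maps `Γ(D · det X)` into `Γ(D)`. -/
theorem exists_rel {X : Mat2} (hX : X.det ≠ 0) {D D' : ℕ} (hD : D * X.det.natAbs ∣ D')
    {γ : SL(2, ℤ)} (hγ : γ ∈ Gamma D') : ∃ δ : Gamma D, Rel X γ δ.1 := by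
  have hdvd : ∀ i j, (D : ℤ) * X.det ∣ γ.1 i j - (1 : Mat2) i j := fun i j => by
    refine Dvd.dvd.trans ?_ (dvd_sub_one_of_mem_Gamma hγ i j)
    rw [← Int.natAbs_dvd_natAbs, Int.natAbs_mul, Int.natAbs_natCast, Int.natAbs_natCast]
    exact hD
  choose E hE using hdvd
  have hγ1 : γ.1 = 1 + ((D : ℤ) * X.det) • (Matrix.of E) := by
    ext i j
    rw [Matrix.add_apply, Matrix.smul_apply, Matrix.of_apply, smul_eq_mul, ← hE]
    ring
  set P : Mat2 := 1 + (D : ℤ) • (X * Matrix.of E * X.adjugate) with hP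
  have hrel : X * γ.1 = P * X := by
    rw [hγ1, hP, mul_add, add_mul, mul_one, one_mul, Matrix.mul_smul, Matrix.smul_mul,
      mul_assoc (X * Matrix.of E), Matrix.adjugate_mul, Matrix.mul_smul, mul_one, smul_smul]
  have hdet : P.det = 1 := by
    have := congrArg Matrix.det hrel
    rw [Matrix.det_mul, Matrix.det_mul, γ.2, mul_one] at this
    exact mul_right_cancel₀ hX (by rw [one_mul]; exact this.symm)
  refine ⟨⟨⟨P, hdet⟩, mem_Gamma_iff_dvd.mpr fun i j => ?_⟩, hrel⟩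
  show (D : ℤ) ∣ P i j - _
  rw [hP, Matrix.add_apply, add_sub_cancel_left, Matrix.smul_apply, smul_eq_mul]
  exact dvd_mul_right _ _

variable {D : ℕ} {R : Type*} [AddCommGroup R]

open scoped Classical in
/-- The value of `x` at `X γ X⁻¹` (zero if that is not in `Γ(D)`). -/
def val (x : Additive (Gamma D) →+ R) (X : Mat2) (γ : SL(2, ℤ)) : R :=
  if h : ∃ δ : Gamma D, Rel X γ δ.1 then x (Additive.ofMul h.choose) else 0

theorem val_eq {x : Additive (Gamma D) →+ R} {X : Mat2} (hX : X.det ≠ 0) {γ : SL(2, ℤ)}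
    {δ : Gamma D} (h : Rel X γ δ.1) : val x X γ = x (Additive.ofMul δ) := by
  rw [val, dif_pos ⟨δ, h⟩]
  exact congrArg (fun d => x (Additive.ofMul d))
    (Subtype.ext (Rel.unique hX (Classical.choose_spec (⟨δ, h⟩ : ∃ δ : Gamma D, Rel X γ δ.1)) h))

theorem val_one {x : Additive (Gamma D) →+ R} (γ : Gamma D) :
    val x 1 γ.1 = x (Additive.ofMul γ) :=
  val_eq (by simp) (by show (1 : Mat2) * γ.1.1 = γ.1.1 * 1; rw [one_mul, mul_one])

theorem val_comp (x : Additive (Gamma D) →+ R) {X Y : Mat2} (hX : X.det ≠ 0) (hY : Y.det ≠ 0)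
    {γ δ : SL(2, ℤ)} (h : Rel Y γ δ) : val x (X * Y) γ = val x X δ := by
  by_cases he : ∃ ε : Gamma D, Rel X δ ε.1
  · obtain ⟨ε, hε⟩ := he
    rw [val_eq hX hε, val_eq (by rw [Matrix.det_mul]; exact mul_ne_zero hX hY) (h.comp hε)]
  · rw [val, val, dif_neg he, dif_neg]
    rintro ⟨ε, hε⟩
    exact he ⟨ε, Rel.of_comp hY h hε⟩

theorem val_smul (x : Additive (Gamma D) →+ R) {X : Mat2} {k : ℤ} (hk : k ≠ 0) (γ : SL(2, ℤ)) :
    val x (k • X) γ = val x X γ := by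
  have e : (fun δ : Gamma D => Rel (k • X) γ δ.1) = fun δ : Gamma D => Rel X γ δ.1 :=
    funext fun δ => propext (rel_smul_iff hk)
  by_cases h : ∃ δ : Gamma D, Rel X γ δ.1
  · have h' : ∃ δ : Gamma D, Rel (k • X) γ δ.1 := h.imp fun δ hδ => (rel_smul_iff hk).mpr hδ
    rw [val, val, dif_pos h, dif_pos h']
    simp only [e]
  · rw [val, val, dif_neg h, dif_neg fun h' => h (h'.imp fun δ hδ => (rel_smul_iff hk).mp hδ)]

variable (x : Additive (Gamma D) →+ R) (X : Mat2) (hX : X.det ≠ 0) {D' : ℕ}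
  (hD : D * X.det.natAbs ∣ D')

/-- Transport of a character of `Γ(D)` by conjugation with `X`. -/
def pull : Additive (Gamma D') →+ R :=
  AddMonoidHom.mk' (fun γ => val x X (Additive.toMul γ).1) fun a b => by
    obtain ⟨δa, ha⟩ := exists_rel hX hD (Additive.toMul a).2
    obtain ⟨δb, hb⟩ := exists_rel hX hD (Additive.toMul b).2
    show val x X ((Additive.toMul a).1 * (Additive.toMul b).1) = _
    rw [val_eq hX ha, val_eq hX hb,
      val_eq hX (δ := δa * δb) (ha.mul hb), ofMul_mul, map_add]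

theorem pull_apply (γ : Gamma D') : pull x X hX hD (Additive.ofMul γ) = val x X γ.1 := rfl

theorem isClHom_pull (h : IsClHom (Gamma D) x) : IsClHom (Gamma D') (pull x X hX hD) := by
  intro γ hγ
  obtain ⟨δ, hδ⟩ := exists_rel hX hD γ.2
  rw [pull_apply, val_eq hX hδ]
  exact h δ (by rwa [hδ.tr_eq hX])

end Fermat.Agent.EigenTwist
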